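import Mathlib
import Fermat.Prelude.Def_GaloisRep_Adic

set_option autoImplicit false

noncomputable section

namespace Fermat.Agent.S53Lib

open IsLocalRing
open scoped TensorProduct

/-- The absolute Galois group of `ℚ`, as used in the prelude. -/
abbrev GQ : Type := AlgebraicClosure ℚ ≃ₐ[ℚ] AlgebraicClosure ℚ

/-- Two by two matrices. -/
abbrev M2 (A : Type) : Type := Matrix (Fin 2) (Fin 2) A

/-! ### Generic linear algebra -/

section generic

variable {R : Type} [CommRing R]

theorem mem_smul_top_of_forall (I : Ideal R) (w : Fin 2 → R) (hw : ∀ i, w i ∈ I) :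
    w ∈ I • (⊤ : Submodule R (Fin 2 → R)) := by
  have h : w = w 0 • (Pi.single 0 1 : Fin 2 → R) + w 1 • (Pi.single 1 1 : Fin 2 → R) := by
    ext i; fin_cases i <;> simp
  rw [h]
  exact Submodule.add_mem _ (Submodule.smul_mem_smul (hw 0) Submodule.mem_top)
    (Submodule.smul_mem_smul (hw 1) Submodule.mem_top)

theorem repr_mem_of_mem_smul_top {V : Type} [AddCommGroup V] [Module R V]
    (b : Module.Basis (Fin 2) R V) (I : Ideal R) (v : V)
    (hv : v ∈ I • (⊤ : Submodule R V)) (i : Fin 2) : b.repr v i ∈ I := by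
  refine Submodule.smul_induction_on (p := fun v => b.repr v i ∈ I) hv ?_ ?_
  · intro a ha w _
    rw [map_smul, Finsupp.smul_apply, smul_eq_mul]
    exact I.mul_mem_right _ ha
  · intro x y hx hy
    rw [map_add, Finsupp.add_apply]
    exact I.add_mem hx hy

/-- Base change of a matrix map is the map of the base-changed matrix. -/
theorem piScalarRight_baseChange {B : Type} [CommRing B] [Algebra R B] (M : M2 R)
    (x : B ⊗[R] (Fin 2 → R)) :
    TensorProduct.piScalarRight R B B (Fin 2) ((Matrix.toLin' M).baseChange B x) =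
      Matrix.toLin' (M.map (algebraMap R B)) (TensorProduct.piScalarRight R B B (Fin 2) x) := by
  induction x using TensorProduct.induction_on with
  | zero => simp only [map_zero]
  | tmul c v =>
    rw [LinearMap.baseChange_tmul, TensorProduct.piScalarRight_apply,
      TensorProduct.piScalarRight_apply, TensorProduct.piScalarRightHom_tmul,
      TensorProduct.piScalarRightHom_tmul]
    ext i
    simp only [Matrix.toLin'_apply, Matrix.mulVec, dotProduct, Fin.sum_univ_two, Matrix.map_apply,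
      Algebra.smul_def, map_add, map_mul]
    ring
  | add x y hx hy => simp only [map_add, hx, hy]

/-- Push a matrix representation forward along a ring homomorphism. -/
def mapRep {B : Type} [CommRing B] (φ : R →+* B) (m : GQ →* M2 R) : GQ →* M2 B :=
  φ.mapMatrix.toMonoidHom.comp m

@[simp] theorem mapRep_apply {B : Type} [CommRing B] (φ : R →+* B) (m : GQ →* M2 R) (σ : GQ) :
    mapRep φ m σ = (m σ).map φ := rfl

theorem mapRep_apply_apply {B : Type} [CommRing B] (φ : R →+* B) (m : GQ →* M2 R) (σ : GQ)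
    (i j : Fin 2) : mapRep φ m σ i j = φ (m σ i j) := rfl

theorem mapRep_comp {B C : Type} [CommRing B] [CommRing C] (φ : R →+* B) (ψ : B →+* C)
    (m : GQ →* M2 R) : mapRep ψ (mapRep φ m) = mapRep (ψ.comp φ) m := by
  ext σ i j; rfl

theorem mapRep_id (m : GQ →* M2 R) : mapRep (RingHom.id R) m = m := by
  ext σ i j; rfl

/-- Conjugate a matrix representation by an invertible matrix. -/
def conjRep (u : (M2 R)ˣ) (m : GQ →* M2 R) : GQ →* M2 R where
  toFun σ := ↑u * m σ * ↑u⁻¹
  map_one' := by simp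
  map_mul' σ τ := by
    rw [map_mul]
    calc (↑u : M2 R) * (m σ * m τ) * ↑u⁻¹
        = ↑u * m σ * (↑u⁻¹ * ↑u) * m τ * ↑u⁻¹ := by
          rw [Units.inv_mul, mul_one, mul_assoc (↑u : M2 R) (m σ) (m τ)]
      _ = ↑u * m σ * ↑u⁻¹ * (↑u * m τ * ↑u⁻¹) := by simp only [mul_assoc]

@[simp] theorem conjRep_apply (u : (M2 R)ˣ) (m : GQ →* M2 R) (σ : GQ) :
    conjRep u m σ = ↑u * m σ * ↑u⁻¹ := rfl

theorem conjRep_mul_unit (u : (M2 R)ˣ) (m : GQ →* M2 R) (σ : GQ) :
    conjRep u m σ * ↑u = ↑u * m σ := by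
  rw [conjRep_apply, mul_assoc, Units.inv_mul, mul_one]

theorem mapRep_conjRep {B : Type} [CommRing B] (φ : R →+* B) (u : (M2 R)ˣ) (m : GQ →* M2 R) :
    mapRep φ (conjRep u m) = conjRep (Units.map φ.mapMatrix.toMonoidHom u) (mapRep φ m) := by
  ext σ : 1
  show φ.mapMatrix ((↑u : M2 R) * m σ * ((↑u⁻¹ : (M2 R)ˣ) : M2 R)) = _
  rw [map_mul, map_mul]
  rfl

/-- Representations into matrices factoring through a finite level. -/
def FactorsFinite (m : GQ →* M2 R) : Prop := GaloisFactorsThroughFiniteLevel m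

theorem FactorsFinite.map {B : Type} [CommRing B] (φ : R →+* B) {m : GQ →* M2 R}
    (hm : FactorsFinite m) : FactorsFinite (mapRep φ m) := by
  obtain ⟨L, hL, h1⟩ := hm
  exact ⟨L, hL, fun σ hσ => by rw [mapRep_apply, h1 σ hσ]; exact map_one φ.mapMatrix⟩

theorem FactorsFinite.conj (u : (M2 R)ˣ) {m : GQ →* M2 R}
    (hm : FactorsFinite m) : FactorsFinite (conjRep u m) := by
  obtain ⟨L, hL, h1⟩ := hm
  exact ⟨L, hL, fun σ hσ => by rw [conjRep_apply, h1 σ hσ, mul_one, Units.mul_inv]⟩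

/-- Intertwining linear equivalences of matrix maps are conjugations. -/
theorem exists_unit_of_linearEquiv {ι : Type} (m m' : ι → M2 R)
    (e : (Fin 2 → R) ≃ₗ[R] (Fin 2 → R))
    (he : ∀ s x, e (Matrix.toLin' (m s) x) = Matrix.toLin' (m' s) (e x)) :
    ∃ u : (M2 R)ˣ, ∀ s, ↑u * m s = m' s * ↑u := by
  have hu : IsUnit (LinearMap.toMatrix' (e : (Fin 2 → R) →ₗ[R] (Fin 2 → R))) := by
    rw [Matrix.isUnit_iff_isUnit_det, LinearMap.det_toMatrix']
    exact LinearEquiv.isUnit_det' e
  refine ⟨hu.unit, fun s => ?_⟩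
  rw [IsUnit.unit_spec]
  have h1 : (e : (Fin 2 → R) →ₗ[R] (Fin 2 → R)) ∘ₗ Matrix.toLin' (m s) =
      Matrix.toLin' (m' s) ∘ₗ (e : (Fin 2 → R) →ₗ[R] (Fin 2 → R)) :=
    LinearMap.ext fun x => he s x
  have h2 := congrArg LinearMap.toMatrix' h1
  rwa [LinearMap.toMatrix'_comp, LinearMap.toMatrix'_comp, LinearMap.toMatrix'_toLin',
    LinearMap.toMatrix'_toLin'] at h2

/-- The linear equivalence attached to an invertible matrix. -/
def unitLinearEquiv (u : (M2 R)ˣ) : (Fin 2 → R) ≃ₗ[R] (Fin 2 → R) :=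
  Matrix.toLinearEquiv' (↑u : M2 R) u.invertible

theorem unitLinearEquiv_apply (u : (M2 R)ˣ) (x : Fin 2 → R) :
    unitLinearEquiv u x = Matrix.toLin' (↑u : M2 R) x := rfl

theorem unitLinearEquiv_intertwine {ι : Type} (m m' : ι → M2 R) (u : (M2 R)ˣ)
    (hu : ∀ s, ↑u * m s = m' s * ↑u) (s : ι) (x : Fin 2 → R) :
    unitLinearEquiv u (Matrix.toLin' (m s) x) = Matrix.toLin' (m' s) (unitLinearEquiv u x) := by
  rw [unitLinearEquiv_apply, unitLinearEquiv_apply, ← LinearMap.comp_apply, ← Matrix.toLin'_mul,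
    hu s, Matrix.toLin'_mul, LinearMap.comp_apply]

end generic

/-! ### Matrix representations over a local ring -/

section local_ring

variable {A : Type} [CommRing A] [IsLocalRing A]

/-- Adic continuity of a matrix-valued representation. -/
def IsAdicCont (m : GQ →* M2 A) : Prop :=
  ∀ n : ℕ, ∃ L : IntermediateField ℚ (AlgebraicClosure ℚ), FiniteDimensional ℚ L ∧
    ∀ σ : GQ, (∀ x ∈ L, σ x = x) → ∀ i j, (m σ - 1) i j ∈ maximalIdeal A ^ n

/-- The adic Galois representation attached to a continuous matrix representation. -/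
def ofMatrix (m : GQ →* M2 A) (hm : IsAdicCont m) : GaloisRepAdic A :=
  { V := Fin 2 → A
    finrank_eq := by simp
    ρ := { toFun := fun σ => Matrix.toLin' (m σ)
           map_one' := by rw [map_one, Matrix.toLin'_one]; rfl
           map_mul' := fun σ τ => by rw [map_mul, Matrix.toLin'_mul]; rfl }
    isAdicContinuous := by
      intro n
      obtain ⟨L, hL, h1⟩ := hm n
      refine ⟨L, hL, fun σ hσ v => ?_⟩
      refine mem_smul_top_of_forall _ _ fun i => ?_
      have h2 : (Matrix.toLin' (m σ) v - v) i = ((m σ - 1).mulVec v) i := by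
        rw [Matrix.sub_mulVec, Matrix.one_mulVec, Matrix.toLin'_apply]
      show (Matrix.toLin' (m σ) v - v) i ∈ _
      rw [h2]
      simp only [Matrix.mulVec, dotProduct]
      exact Ideal.sum_mem _ fun j _ => Ideal.mul_mem_right _ _ (h1 σ hσ i j) }

@[simp] theorem ofMatrix_ρ_apply (m : GQ →* M2 A) (hm : IsAdicCont m) (σ : GQ) :
    (ofMatrix m hm).ρ σ = Matrix.toLin' (m σ) := rfl

theorem IsAdicCont.map {B : Type} [CommRing B] [IsLocalRing B] (φ : A →+* B) (hφ : IsLocalHom φ)
    {m : GQ →* M2 A} (hm : IsAdicCont m) : IsAdicCont (mapRep φ m) := by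
  intro n
  obtain ⟨L, hL, h1⟩ := hm n
  refine ⟨L, hL, fun σ hσ i j => ?_⟩
  have hmap : (maximalIdeal A ^ n).map φ ≤ maximalIdeal B ^ n := by
    rw [Ideal.map_pow]
    exact Ideal.pow_right_mono (Ideal.map_le_iff_le_comap.mpr fun a ha =>
      Ideal.mem_comap.mpr (haveI := hφ; map_nonunit φ a ha)) n
  have h2 : (mapRep φ m σ - 1) i j = φ ((m σ - 1) i j) := by
    simp only [Matrix.sub_apply, mapRep_apply, Matrix.map_apply, map_sub, Matrix.one_apply]
    split_ifs <;> simp
  rw [h2]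
  exact hmap (Ideal.mem_map_of_mem φ (h1 σ hσ i j))

/-- Base change of `ofMatrix` is `ofMatrix` of the pushed-forward matrices. -/
theorem ofMatrix_baseChangeAlong {B : Type} [CommRing B] [IsLocalRing B] (φ : A →+* B)
    (hφ : IsLocalHom φ) (m : GQ →* M2 A) (hm : IsAdicCont m) :
    ((ofMatrix m hm).baseChangeAlong φ hφ).IsEquiv (ofMatrix (mapRep φ m) (hm.map φ hφ)) := by
  let _ : Algebra A B := φ.toAlgebra
  exact ⟨{ toLinearEquiv := TensorProduct.piScalarRight A B B (Fin 2)
           map_apply := fun σ x => piScalarRight_baseChange (m σ) x }⟩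

theorem IsAdicCont.conj (u : (M2 A)ˣ) {m : GQ →* M2 A} (hm : IsAdicCont m) :
    IsAdicCont (conjRep u m) := by
  intro n
  obtain ⟨L, hL, h1⟩ := hm n
  refine ⟨L, hL, fun σ hσ i j => ?_⟩
  have h2 : conjRep u m σ - 1 = ↑u * (m σ - 1) * ↑u⁻¹ := by
    rw [conjRep_apply, mul_sub, sub_mul, mul_one, Units.mul_inv]
  rw [h2]
  simp only [Matrix.mul_apply]
  refine Ideal.sum_mem _ fun a _ => Ideal.mul_mem_right _ _ ?_
  exact Ideal.sum_mem _ fun b _ => Ideal.mul_mem_left _ _ (h1 σ hσ b a)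

theorem isAdicCont_of_factorsFinite {m : GQ →* M2 A} (hm : FactorsFinite m) : IsAdicCont m := by
  intro n
  obtain ⟨L, hL, h1⟩ := hm
  exact ⟨L, hL, fun σ hσ i j => by rw [h1 σ hσ, sub_self]; exact Ideal.zero_mem _⟩

theorem factorsFinite_of_isAdicCont {m : GQ →* M2 A} (hm : IsAdicCont m) {N : ℕ}
    (hN : maximalIdeal A ^ N = ⊥) : FactorsFinite m := by
  obtain ⟨L, hL, h1⟩ := hm N
  refine ⟨L, hL, fun σ hσ => ?_⟩
  ext i j
  have h2 := h1 σ hσ i j
  rw [hN, Ideal.mem_bot, Matrix.sub_apply, sub_eq_zero] at h2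
  exact h2

/-- Continuity can be checked on the quotients by the powers of the maximal ideal. -/
theorem isAdicCont_iff_forall_factorsFinite {m : GQ →* M2 A} :
    IsAdicCont m ↔ ∀ n : ℕ, FactorsFinite (mapRep (Ideal.Quotient.mk (maximalIdeal A ^ n)) m) := by
  constructor
  · intro hm n
    obtain ⟨L, hL, h1⟩ := hm n
    refine ⟨L, hL, fun σ hσ => ?_⟩
    ext i j
    have h2 := h1 σ hσ i j
    rw [mapRep_apply_apply]
    rw [Matrix.sub_apply] at h2
    have h3 := (Ideal.Quotient.eq (I := maximalIdeal A ^ n)).mpr h2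
    rw [h3, Matrix.one_apply, Matrix.one_apply]
    split_ifs <;> simp
  · intro h n
    obtain ⟨L, hL, h1⟩ := h n
    refine ⟨L, hL, fun σ hσ i j => ?_⟩
    have h2 := congrFun (congrFun (h1 σ hσ) i) j
    rw [mapRep_apply_apply] at h2
    rw [Matrix.sub_apply, ← Ideal.Quotient.eq, h2, Matrix.one_apply, Matrix.one_apply]
    split_ifs <;> simp

/-- Equivalence of matrix representations is conjugacy. -/
theorem isEquiv_ofMatrix_iff {m m' : GQ →* M2 A} (hm : IsAdicCont m) (hm' : IsAdicCont m') :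
    (ofMatrix m hm).IsEquiv (ofMatrix m' hm') ↔ ∃ u : (M2 A)ˣ, ∀ σ, ↑u * m σ = m' σ * ↑u := by
  constructor
  · rintro ⟨e⟩
    exact exists_unit_of_linearEquiv (fun σ => m σ) (fun σ => m' σ) e.toLinearEquiv
      (fun σ x => e.map_apply σ x)
  · rintro ⟨u, hu⟩
    exact ⟨{ toLinearEquiv := unitLinearEquiv u
             map_apply := fun σ x =>
               unitLinearEquiv_intertwine (fun σ => m σ) (fun σ => m' σ) u hu σ x }⟩

theorem isEquiv_ofMatrix_conjRep (u : (M2 A)ˣ) {m : GQ →* M2 A} (hm : IsAdicCont m) :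
    (ofMatrix m hm).IsEquiv (ofMatrix (conjRep u m) (hm.conj u)) :=
  (isEquiv_ofMatrix_iff hm (hm.conj u)).mpr ⟨u, fun σ => (conjRep_mul_unit u m σ).symm⟩

/-- Every adic Galois representation is given by matrices. -/
theorem exists_ofMatrix (ρ : GaloisRepAdic A) :
    ∃ (m : GQ →* M2 A) (hm : IsAdicCont m), ρ.IsEquiv (ofMatrix m hm) := by
  let b : Module.Basis (Fin 2) A ρ.V := Module.finBasisOfFinrankEq A ρ.V ρ.finrank_eq
  let m : GQ →* M2 A :=
    { toFun := fun σ => LinearMap.toMatrix b b (ρ.ρ σ)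
      map_one' := by rw [map_one]; exact LinearMap.toMatrix_one b
      map_mul' := fun σ τ => by rw [map_mul]; exact LinearMap.toMatrix_mul b _ _ }
  have hm : IsAdicCont m := by
    intro n
    obtain ⟨L, hL, h1⟩ := ρ.isAdicContinuous n
    refine ⟨L, hL, fun σ hσ i j => ?_⟩
    have h2 : (m σ - 1) i j = b.repr (ρ.ρ σ (b j) - b j) i := by
      show (LinearMap.toMatrix b b (ρ.ρ σ) - 1) i j = _
      rw [Matrix.sub_apply, LinearMap.toMatrix_apply, map_sub, Finsupp.sub_apply,
        Module.Basis.repr_self, Matrix.one_apply, Finsupp.single_apply]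
      simp only [eq_comm]
    rw [h2]
    exact repr_mem_of_mem_smul_top b _ _ (h1 σ hσ (b j)) i
  refine ⟨m, hm, ⟨{ toLinearEquiv := b.equivFun, map_apply := fun σ x => ?_ }⟩⟩
  show b.equivFun (ρ.ρ σ x) = Matrix.toLin' (LinearMap.toMatrix b b (ρ.ρ σ)) (b.equivFun x)
  rw [Matrix.toLin'_apply]
  exact (LinearMap.toMatrix_mulVec_repr b b (ρ.ρ σ) x).symm

end local_ring

/-! ### Residual matrix representations -/

section residual

variable {k : Type} [Field k]

/-- The residual representation attached to a matrix representation of finite level. -/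
def ofMatrixRes (m : GQ →* M2 k) (hm : FactorsFinite m) : ResidualGaloisRep k :=
  { V := Fin 2 → k
    finrank_eq := by simp
    ρ := { toFun := fun σ => Matrix.toLin' (m σ)
           map_one' := by rw [map_one, Matrix.toLin'_one]; rfl
           map_mul' := fun σ τ => by rw [map_mul, Matrix.toLin'_mul]; rfl }
    factorsThroughFiniteLevel := by
      obtain ⟨L, hL, h1⟩ := hm
      refine ⟨L, hL, fun σ hσ => ?_⟩
      show Matrix.toLin' (m σ) = 1
      rw [h1 σ hσ, Matrix.toLin'_one]; rfl }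

theorem resIsEquiv_refl (ρ : ResidualGaloisRep k) : ρ.IsEquiv ρ :=
  ⟨ResidualGaloisRep.Equiv.refl ρ⟩

theorem resIsEquiv_symm {ρ₁ ρ₂ : ResidualGaloisRep k} (h : ρ₁.IsEquiv ρ₂) : ρ₂.IsEquiv ρ₁ :=
  ⟨h.some.symm⟩

theorem resIsEquiv_trans {ρ₁ ρ₂ ρ₃ : ResidualGaloisRep k} (h : ρ₁.IsEquiv ρ₂)
    (h' : ρ₂.IsEquiv ρ₃) : ρ₁.IsEquiv ρ₃ :=
  ⟨h.some.trans h'.some⟩

theorem isEquiv_ofMatrixRes_iff {m m' : GQ →* M2 k} (hm : FactorsFinite m)
    (hm' : FactorsFinite m') :
    (ofMatrixRes m hm).IsEquiv (ofMatrixRes m' hm') ↔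
      ∃ u : (M2 k)ˣ, ∀ σ, ↑u * m σ = m' σ * ↑u := by
  constructor
  · rintro ⟨e⟩
    exact exists_unit_of_linearEquiv (fun σ => m σ) (fun σ => m' σ) e.toLinearEquiv
      (fun σ x => e.map_apply σ x)
  · rintro ⟨u, hu⟩
    exact ⟨{ toLinearEquiv := unitLinearEquiv u
             map_apply := fun σ x =>
               unitLinearEquiv_intertwine (fun σ => m σ) (fun σ => m' σ) u hu σ x }⟩

/-- The matrices of a residual representation in a basis. -/
def resMatrix (ρbar : ResidualGaloisRep k) (b : Module.Basis (Fin 2) k ρbar.V) : GQ →* M2 k :=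
  { toFun := fun σ => LinearMap.toMatrix b b (ρbar.ρ σ)
    map_one' := by rw [map_one]; exact LinearMap.toMatrix_one b
    map_mul' := fun σ τ => by rw [map_mul]; exact LinearMap.toMatrix_mul b _ _ }

theorem resMatrix_apply (ρbar : ResidualGaloisRep k) (b : Module.Basis (Fin 2) k ρbar.V)
    (σ : GQ) : resMatrix ρbar b σ = LinearMap.toMatrix b b (ρbar.ρ σ) := rfl

theorem resMatrix_factorsFinite (ρbar : ResidualGaloisRep k)
    (b : Module.Basis (Fin 2) k ρbar.V) : FactorsFinite (resMatrix ρbar b) := by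
  obtain ⟨L, hL, h1⟩ := ρbar.factorsThroughFiniteLevel
  refine ⟨L, hL, fun σ hσ => ?_⟩
  rw [resMatrix_apply, h1 σ hσ]
  exact LinearMap.toMatrix_one b

theorem isEquiv_ofMatrixRes_resMatrix (ρbar : ResidualGaloisRep k)
    (b : Module.Basis (Fin 2) k ρbar.V) :
    ρbar.IsEquiv (ofMatrixRes (resMatrix ρbar b) (resMatrix_factorsFinite ρbar b)) := by
  refine ⟨{ toLinearEquiv := b.equivFun, map_apply := fun σ x => ?_ }⟩
  show b.equivFun (ρbar.ρ σ x) = Matrix.toLin' (LinearMap.toMatrix b b (ρbar.ρ σ)) (b.equivFun x)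
  rw [Matrix.toLin'_apply]
  exact (LinearMap.toMatrix_mulVec_repr b b (ρbar.ρ σ) x).symm

theorem ofMatrixRes_baseChangeAlong {k' : Type} [Field k'] (ψ : k →+* k') (m : GQ →* M2 k)
    (hm : FactorsFinite m) :
    ((ofMatrixRes m hm).baseChangeAlong ψ).IsEquiv (ofMatrixRes (mapRep ψ m) (hm.map ψ)) := by
  let _ : Algebra k k' := ψ.toAlgebra
  exact ⟨{ toLinearEquiv := TensorProduct.piScalarRight k k' k' (Fin 2)
           map_apply := fun σ x => piScalarRight_baseChange (m σ) x }⟩

/-- The residual representation in a basis, base-changed, in matrix form. -/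
theorem baseChangeAlong_isEquiv_ofMatrixRes {k' : Type} [Field k'] (ψ : k →+* k')
    (ρbar : ResidualGaloisRep k) (b : Module.Basis (Fin 2) k ρbar.V) :
    (ρbar.baseChangeAlong ψ).IsEquiv
      (ofMatrixRes (mapRep ψ (resMatrix ρbar b)) ((resMatrix_factorsFinite ρbar b).map ψ)) :=
  resIsEquiv_trans ⟨(isEquiv_ofMatrixRes_resMatrix ρbar b).some.baseChangeAlong ψ⟩
    (ofMatrixRes_baseChangeAlong ψ _ _)

/-- Over a field, `ofResidualGaloisRep` is given by the matrices in a basis. -/
theorem ofResidual_isEquiv (ρbar : ResidualGaloisRep k) (b : Module.Basis (Fin 2) k ρbar.V) :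
    (GaloisRepAdic.ofResidualGaloisRep ρbar).IsEquiv
      (ofMatrix (resMatrix ρbar b) (isAdicCont_of_factorsFinite (resMatrix_factorsFinite ρbar b))) := by
  refine ⟨{ toLinearEquiv := b.equivFun, map_apply := fun σ x => ?_ }⟩
  show b.equivFun (ρbar.ρ σ x) = Matrix.toLin' (LinearMap.toMatrix b b (ρbar.ρ σ)) (b.equivFun x)
  rw [Matrix.toLin'_apply]
  exact (LinearMap.toMatrix_mulVec_repr b b (ρbar.ρ σ) x).symm

end residual

section framing

variable {A : Type} [CommRing A] [IsLocalRing A]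

theorem residue_factorsFinite {m : GQ →* M2 A} (hm : IsAdicCont m) :
    FactorsFinite (mapRep (residue A) m) := by
  obtain ⟨L, hL, h1⟩ := hm 1
  refine ⟨L, hL, fun σ hσ => ?_⟩
  ext i j
  have h2 := h1 σ hσ i j
  rw [pow_one, ← residue_eq_zero_iff, Matrix.sub_apply, map_sub, sub_eq_zero] at h2
  rw [mapRep_apply_apply, h2, Matrix.one_apply, Matrix.one_apply]
  split_ifs <;> simp

/-- The residual representation of `ofMatrix m` is given by the reduced matrices. -/
theorem residual_ofMatrix (m : GQ →* M2 A) (hm : IsAdicCont m) :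
    (ofMatrix m hm).residual.IsEquiv
      (ofMatrixRes (mapRep (residue A) m) (residue_factorsFinite hm)) :=
  ⟨{ toLinearEquiv := TensorProduct.piScalarRight A (ResidueField A) (ResidueField A) (Fin 2)
     map_apply := fun σ x => piScalarRight_baseChange (m σ) x }⟩

/-- Invertible matrices over the residue field lift to invertible matrices. -/
theorem exists_unit_lift (ū : (M2 (ResidueField A))ˣ) :
    ∃ u : (M2 A)ˣ, Units.map (residue A).mapMatrix.toMonoidHom u = ū := by
  have hs : ∀ c : ResidueField A, ∃ a : A, residue A a = c := residue_surjective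
  choose f hf using hs
  let u₀ : M2 A := fun i j => f ((↑ū : M2 (ResidueField A)) i j)
  have h0 : (residue A).mapMatrix u₀ = ↑ū := by
    ext i j
    exact hf _
  have hdet : IsUnit u₀.det := by
    have h1 : residue A u₀.det = (↑ū : M2 (ResidueField A)).det := by
      rw [RingHom.map_det, h0]
    have h2 : IsUnit (↑ū : M2 (ResidueField A)).det :=
      (Matrix.isUnit_iff_isUnit_det _).mp ū.isUnit
    by_contra hcon
    have h3 : residue A u₀.det = 0 := (residue_eq_zero_iff _).mpr hcon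
    rw [h1] at h3
    rw [h3] at h2
    exact not_isUnit_zero h2
  have hu : IsUnit u₀ := (Matrix.isUnit_iff_isUnit_det _).mpr hdet
  refine ⟨hu.unit, Units.ext ?_⟩
  rw [Units.coe_map, IsUnit.unit_spec]
  exact h0

variable {k : Type} [Field k]

/-- A representation whose residual representation is `ρbar` (base-changed along `ψ`) has a
matrix form reducing exactly to the matrices of `ρbar`. -/
theorem exists_framed (ρbar : ResidualGaloisRep k) (b : Module.Basis (Fin 2) k ρbar.V)
    (ψ : k →+* ResidueField A) (ρA : GaloisRepAdic A)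
    (h : ρA.residual.IsEquiv (ρbar.baseChangeAlong ψ)) :
    ∃ (m : GQ →* M2 A) (hm : IsAdicCont m), ρA.IsEquiv (ofMatrix m hm) ∧
      mapRep (residue A) m = mapRep ψ (resMatrix ρbar b) := by
  obtain ⟨m₀, hm₀, ⟨e₀⟩⟩ := exists_ofMatrix ρA
  have h1 : (ofMatrix m₀ hm₀).residual.IsEquiv (ρbar.baseChangeAlong ψ) :=
    ⟨(e₀.symm.residual).trans h.some⟩
  have h2 : (ofMatrixRes (mapRep (residue A) m₀) (residue_factorsFinite hm₀)).IsEquiv
      (ofMatrixRes (mapRep ψ (resMatrix ρbar b)) ((resMatrix_factorsFinite ρbar b).map ψ)) :=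
    resIsEquiv_trans (resIsEquiv_symm (residual_ofMatrix m₀ hm₀))
      (resIsEquiv_trans h1 (baseChangeAlong_isEquiv_ofMatrixRes ψ ρbar b))
  obtain ⟨ū, hū⟩ := (isEquiv_ofMatrixRes_iff _ _).mp h2
  obtain ⟨u, hu⟩ := exists_unit_lift ū
  refine ⟨conjRep u m₀, hm₀.conj u,
    ⟨e₀.trans (isEquiv_ofMatrix_conjRep u hm₀).some⟩, ?_⟩
  rw [mapRep_conjRep, hu]
  ext σ : 1
  rw [conjRep_apply, hū σ, mul_assoc, Units.mul_inv, mul_one]

/-- Conversely a matrix representation reducing to the matrices of `ρbar` has residual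
representation `ρbar`. -/
theorem residual_isEquiv_of_framed (ρbar : ResidualGaloisRep k)
    (b : Module.Basis (Fin 2) k ρbar.V) (ψ : k →+* ResidueField A) (m : GQ →* M2 A)
    (hm : IsAdicCont m) (h : mapRep (residue A) m = mapRep ψ (resMatrix ρbar b)) :
    (ofMatrix m hm).residual.IsEquiv (ρbar.baseChangeAlong ψ) := by
  refine resIsEquiv_trans (residual_ofMatrix m hm) ?_
  refine resIsEquiv_trans ?_ (resIsEquiv_symm (baseChangeAlong_isEquiv_ofMatrixRes ψ ρbar b))
  have key : ∀ (m₁ m₂ : GQ →* M2 (ResidueField A)) (h₁ : FactorsFinite m₁)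
      (h₂ : FactorsFinite m₂), m₁ = m₂ → (ofMatrixRes m₁ h₁).IsEquiv (ofMatrixRes m₂ h₂) := by
    intro m₁ m₂ h₁ h₂ he
    subst he
    exact resIsEquiv_refl _
  exact key _ _ _ _ h

end framing

end Fermat.Agent.S53Lib
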