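import Mathlib
import Fermat.Prelude.Def_GaloisRep_DeformationCondition
import Fermat.Prelude.Def_GaloisRep_DeformationRingData
import Fermat.Agent.S53Lib.MatRep

set_option autoImplicit false
set_option linter.unusedSectionVars false
set_option linter.style.haveILetI false

noncomputable section

namespace Fermat.Agent.S53Lib

open IsLocalRing GaloisRep

/-! ### Basics on Artinian local rings and local homomorphisms -/

theorem exists_maximalIdeal_pow_eq_bot (A : Type) [CommRing A] [IsLocalRing A]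
    [IsArtinianRing A] : ∃ N : ℕ, maximalIdeal A ^ N = ⊥ := by
  have h := IsArtinianRing.isNilpotent_jacobson_bot (R := A)
  rw [IsLocalRing.jacobson_eq_maximalIdeal _ bot_ne_top] at h
  obtain ⟨N, hN⟩ := h
  exact ⟨N, hN⟩

theorem isLocalHom_of_isArtinianRing {A B : Type} [CommRing A] [IsLocalRing A]
    [IsArtinianRing A] [CommRing B] [Nontrivial B] (φ : A →+* B) : IsLocalHom φ := by
  constructor
  intro a ha
  by_contra hcon
  have hmem : a ∈ maximalIdeal A := hcon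
  obtain ⟨N, hN⟩ := exists_maximalIdeal_pow_eq_bot A
  have h1 : a ^ N = 0 := by
    have := Ideal.pow_mem_pow hmem N
    rwa [hN, Ideal.mem_bot] at this
  have h2 : IsUnit (φ a ^ N) := ha.pow N
  rw [← map_pow, h1, map_zero] at h2
  exact not_isUnit_zero h2

/-- An algebra homomorphism into a local algebra with surjective residue map is local. -/
theorem isLocalHom_of_residue_surjective {𝒪 R A : Type} [CommRing 𝒪] [CommRing R]
    [IsLocalRing R] [CommRing A] [IsLocalRing A] [Algebra 𝒪 R] [Algebra 𝒪 A]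
    (hA : Function.Surjective (residue A ∘ algebraMap 𝒪 A)) (φ : R →ₐ[𝒪] A) :
    IsLocalHom (φ : R →+* A) := by
  have hsurj : Function.Surjective ((residue A).comp (φ : R →+* A)) := by
    intro c
    obtain ⟨x, hx⟩ := hA c
    refine ⟨algebraMap 𝒪 R x, ?_⟩
    rw [RingHom.comp_apply, AlgHom.coe_toRingHom, AlgHom.commutes]
    exact hx
  have hmax : (RingHom.ker ((residue A).comp (φ : R →+* A))).IsMaximal :=
    RingHom.ker_isMaximal_of_surjective _ hsurj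
  have hker : RingHom.ker ((residue A).comp (φ : R →+* A)) = maximalIdeal R :=
    IsLocalRing.eq_maximalIdeal hmax
  constructor
  intro r hr
  by_contra hcon
  have hmem : r ∈ maximalIdeal R := hcon
  rw [← hker, RingHom.mem_ker, RingHom.comp_apply, residue_eq_zero_iff] at hmem
  exact hmem hr

/-! ### Equivalences of adic representations -/

section adic

variable {A : Type} [CommRing A] [IsLocalRing A]

theorem adicIsEquiv_refl (ρ : GaloisRepAdic A) : ρ.IsEquiv ρ :=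
  ⟨GaloisRepAdic.Equiv.refl ρ⟩

theorem adicIsEquiv_symm {ρ₁ ρ₂ : GaloisRepAdic A} (h : ρ₁.IsEquiv ρ₂) : ρ₂.IsEquiv ρ₁ :=
  ⟨h.some.symm⟩

theorem adicIsEquiv_trans {ρ₁ ρ₂ ρ₃ : GaloisRepAdic A} (h : ρ₁.IsEquiv ρ₂)
    (h' : ρ₂.IsEquiv ρ₃) : ρ₁.IsEquiv ρ₃ :=
  ⟨h.some.trans h'.some⟩

theorem adicIsEquiv_baseChangeAlong {B : Type} [CommRing B] [IsLocalRing B] (φ : A →+* B)
    (hφ : IsLocalHom φ) {ρ₁ ρ₂ : GaloisRepAdic A} (h : ρ₁.IsEquiv ρ₂) :
    (ρ₁.baseChangeAlong φ hφ).IsEquiv (ρ₂.baseChangeAlong φ hφ) :=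
  ⟨h.some.baseChangeAlong φ hφ⟩

theorem ofMatrix_congr {m m' : GQ →* M2 A} (hm : IsAdicCont m) (hm' : IsAdicCont m')
    (h : m = m') : (ofMatrix m hm).IsEquiv (ofMatrix m' hm') := by
  subst h
  exact adicIsEquiv_refl _

end adic

/-! ### The deformation condition in matrix form -/

section DM

variable {𝒪 : Type} [CommRing 𝒪] [IsLocalRing 𝒪]
variable (𝒟 : ∀ ⦃A : Type⦄ [CommRing A] [IsLocalRing A] [Algebra 𝒪 A], GaloisRepAdic A → Prop)

/-- The deformation condition for matrix representations. -/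
def DM {A : Type} [CommRing A] [IsLocalRing A] [Algebra 𝒪 A] (m : GQ →* M2 A) : Prop :=
  ∃ hm : IsAdicCont m, 𝒟 (ofMatrix m hm)

variable {𝒟}

theorem DM.isAdicCont {A : Type} [CommRing A] [IsLocalRing A] [Algebra 𝒪 A] {m : GQ →* M2 A}
    (h : DM 𝒟 m) : IsAdicCont m := h.1

theorem DM.conj (h𝒟 : IsDeformationCondition 𝒪 𝒟) {A : Type} [CommRing A] [IsLocalRing A]
    [Algebra 𝒪 A] (hA : IsArtinianTestAlgebra 𝒪 A) (u : (M2 A)ˣ) {m : GQ →* M2 A}
    (h : DM 𝒟 m) : DM 𝒟 (conjRep u m) := by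
  obtain ⟨hm, h1⟩ := h
  exact ⟨hm.conj u, h𝒟.of_isEquiv hA (isEquiv_ofMatrix_conjRep u hm) h1⟩

theorem DM.map (h𝒟 : IsDeformationCondition 𝒪 𝒟) {A B : Type} [CommRing A] [IsLocalRing A]
    [Algebra 𝒪 A] [CommRing B] [IsLocalRing B] [Algebra 𝒪 B]
    (hA : IsArtinianTestAlgebra 𝒪 A) (hB : IsArtinianTestAlgebra 𝒪 B) (φ : A →ₐ[𝒪] B)
    (hφ : IsLocalHom (φ : A →+* B)) {m : GQ →* M2 A} (h : DM 𝒟 m) :
    DM 𝒟 (mapRep (φ : A →+* B) m) := by
  obtain ⟨hm, h1⟩ := h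
  exact ⟨hm.map _ hφ, h𝒟.of_isEquiv hB (ofMatrix_baseChangeAlong _ hφ m hm)
    (h𝒟.baseChangeAlong hA hB φ hφ h1)⟩

theorem DM.of_map_injective (h𝒟 : IsDeformationCondition 𝒪 𝒟) {A B : Type} [CommRing A]
    [IsLocalRing A] [Algebra 𝒪 A] [CommRing B] [IsLocalRing B] [Algebra 𝒪 B]
    (hA : IsArtinianTestAlgebra 𝒪 A) (hB : IsArtinianTestAlgebra 𝒪 B) (φ : A →ₐ[𝒪] B)
    (hφ : IsLocalHom (φ : A →+* B)) (hinj : Function.Injective φ) {m : GQ →* M2 A}
    (h : DM 𝒟 (mapRep (φ : A →+* B) m)) : DM 𝒟 m := by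
  obtain ⟨hm', h1⟩ := h
  haveI := hB.isArtinian
  obtain ⟨N, hN⟩ := exists_maximalIdeal_pow_eq_bot B
  have hff : FactorsFinite m := by
    obtain ⟨L, hL, h2⟩ := factorsFinite_of_isAdicCont hm' hN
    refine ⟨L, hL, fun σ hσ => ?_⟩
    ext i j
    apply hinj
    have h3 := congrFun (congrFun (h2 σ hσ) i) j
    rw [mapRep_apply_apply] at h3
    erw [h3]
    rw [Matrix.one_apply, Matrix.one_apply]
    split_ifs <;> simp
  have hm := isAdicCont_of_factorsFinite hff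
  refine ⟨hm, h𝒟.of_baseChangeAlong_injective hA hB φ hφ hinj ?_⟩
  exact h𝒟.of_isEquiv hB (adicIsEquiv_symm (ofMatrix_baseChangeAlong _ hφ m hm)) h1

theorem DM.of_fibreProduct (h𝒟 : IsDeformationCondition 𝒪 𝒟) {A B C P : Type}
    [CommRing A] [IsLocalRing A] [Algebra 𝒪 A] [CommRing B] [IsLocalRing B] [Algebra 𝒪 B]
    [CommRing C] [IsLocalRing C] [Algebra 𝒪 C] [CommRing P] [IsLocalRing P] [Algebra 𝒪 P]
    (hA : IsArtinianTestAlgebra 𝒪 A) (hB : IsArtinianTestAlgebra 𝒪 B)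
    (hC : IsArtinianTestAlgebra 𝒪 C) (hP : IsArtinianTestAlgebra 𝒪 P)
    (f : A →ₐ[𝒪] C) (g : B →ₐ[𝒪] C) (pA : P →ₐ[𝒪] A) (pB : P →ₐ[𝒪] B)
    (hpA : IsLocalHom (pA : P →+* A)) (hpB : IsLocalHom (pB : P →+* B))
    (hcomm : f.comp pA = g.comp pB)
    (hinj : Function.Injective (fun x => (pA x, pB x)))
    (hsurj : ∀ a b, f a = g b → ∃ x, pA x = a ∧ pB x = b) {m : GQ →* M2 P}
    (h1 : DM 𝒟 (mapRep (pA : P →+* A) m)) (h2 : DM 𝒟 (mapRep (pB : P →+* B) m)) :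
    DM 𝒟 m := by
  obtain ⟨hmA, hA1⟩ := h1
  obtain ⟨hmB, hB1⟩ := h2
  haveI := hA.isArtinian
  haveI := hB.isArtinian
  obtain ⟨NA, hNA⟩ := exists_maximalIdeal_pow_eq_bot A
  obtain ⟨NB, hNB⟩ := exists_maximalIdeal_pow_eq_bot B
  have hff : FactorsFinite m := by
    obtain ⟨L₁, hL₁, k1⟩ := factorsFinite_of_isAdicCont hmA hNA
    obtain ⟨L₂, hL₂, k2⟩ := factorsFinite_of_isAdicCont hmB hNB
    haveI := hL₁
    haveI := hL₂
    refine ⟨L₁ ⊔ L₂, IntermediateField.finiteDimensional_sup L₁ L₂, fun σ hσ => ?_⟩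
    have e1 := k1 σ (fun x hx => hσ x ((le_sup_left : L₁ ≤ L₁ ⊔ L₂) hx))
    have e2 := k2 σ (fun x hx => hσ x ((le_sup_right : L₂ ≤ L₁ ⊔ L₂) hx))
    ext i j
    apply hinj
    have e1' := congrFun (congrFun e1 i) j
    have e2' := congrFun (congrFun e2 i) j
    rw [mapRep_apply_apply] at e1' e2'
    refine Prod.ext ?_ ?_
    · show pA (m σ i j) = pA ((1 : M2 P) i j)
      erw [e1']
      rw [Matrix.one_apply, Matrix.one_apply]
      split_ifs <;> simp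
    · show pB (m σ i j) = pB ((1 : M2 P) i j)
      erw [e2']
      rw [Matrix.one_apply, Matrix.one_apply]
      split_ifs <;> simp
  have hm := isAdicCont_of_factorsFinite hff
  refine ⟨hm, h𝒟.of_fibreProduct hA hB hC hP f g pA pB hpA hpB hcomm hinj hsurj ?_ ?_⟩
  · exact h𝒟.of_isEquiv hA (adicIsEquiv_symm (ofMatrix_baseChangeAlong _ hpA m hm)) hA1
  · exact h𝒟.of_isEquiv hB (adicIsEquiv_symm (ofMatrix_baseChangeAlong _ hpB m hm)) hB1

/-- The deformation condition is invariant under equivalence also over complete rings. -/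
theorem of_isEquiv_complete (h𝒟 : IsDeformationCondition 𝒪 𝒟) {A : Type} [CommRing A]
    [IsLocalRing A] [IsNoetherianRing A] [IsAdicComplete (maximalIdeal A) A] [Algebra 𝒪 A]
    (hloc : IsLocalHom (algebraMap 𝒪 A))
    (hsurj : Function.Surjective (residue A ∘ algebraMap 𝒪 A))
    {ρ ρ' : GaloisRepAdic A} (he : ρ.IsEquiv ρ') (h : 𝒟 ρ) : 𝒟 ρ' := by
  rw [h𝒟.iff_forall_surjective hloc hsurj] at h ⊢
  intro B _ _ _ hB q hq hqs
  exact h𝒟.of_isEquiv hB (adicIsEquiv_baseChangeAlong _ hq he) (h hB q hq hqs)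

theorem DM_iff_forall_surjective (h𝒟 : IsDeformationCondition 𝒪 𝒟) {A : Type} [CommRing A]
    [IsLocalRing A] [IsNoetherianRing A] [IsAdicComplete (maximalIdeal A) A] [Algebra 𝒪 A]
    (hloc : IsLocalHom (algebraMap 𝒪 A))
    (hsurj : Function.Surjective (residue A ∘ algebraMap 𝒪 A))
    (m : GQ →* M2 A) (hm : IsAdicCont m) :
    DM 𝒟 m ↔ ∀ ⦃B : Type⦄ [CommRing B] [IsLocalRing B] [Algebra 𝒪 B],
      IsArtinianTestAlgebra 𝒪 B → ∀ (q : A →ₐ[𝒪] B) (_ : IsLocalHom (q : A →+* B)),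
        Function.Surjective q → DM 𝒟 (mapRep (q : A →+* B) m) := by
  constructor
  · rintro ⟨_, h⟩ B _ _ _ hB q hq hqs
    rw [h𝒟.iff_forall_surjective hloc hsurj] at h
    exact ⟨hm.map _ hq, h𝒟.of_isEquiv hB (ofMatrix_baseChangeAlong _ hq m hm) (h hB q hq hqs)⟩
  · intro h
    refine ⟨hm, ?_⟩
    rw [h𝒟.iff_forall_surjective hloc hsurj]
    intro B _ _ _ hB q hq hqs
    obtain ⟨hm', h1⟩ := h hB q hq hqs
    exact h𝒟.of_isEquiv hB (adicIsEquiv_symm (ofMatrix_baseChangeAlong _ hq m hm)) h1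

end DM

end Fermat.Agent.S53Lib
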