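import Mathlib
import Fermat.Prelude.Thm_IsLocalRing_isAdicComplete_of_module_finite

set_option autoImplicit false
set_option linter.style.haveILetI false

/-!
Power series facts for the deformation ring construction:
adic completeness of `MvPowerSeries ι R`, evaluation at nilpotent elements,
uniqueness of algebra maps out of a power series ring, a Cauchy lemma for ideals.
-/

namespace Fermat.Agent.S53Lib

open MvPowerSeries

section CoeffIdeal

variable {ι : Type*} {R : Type*} [CommRing R]

/-- Power series whose coefficient at `e` lies in `I ^ (n - deg e)`. -/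
noncomputable def coeffIdeal (ι : Type*) {R : Type*} [CommRing R] (I : Ideal R) (n : ℕ) :
    Ideal (MvPowerSeries ι R) where
  carrier := {f | ∀ e : ι →₀ ℕ, coeff e f ∈ I ^ (n - e.degree)}
  add_mem' := by
    intro f g hf hg e
    rw [map_add]
    exact Ideal.add_mem _ (hf e) (hg e)
  zero_mem' := by
    intro e
    simp
  smul_mem' := by
    classical
    intro c f hf e
    rw [smul_eq_mul, coeff_mul]
    refine Ideal.sum_mem _ ?_
    rintro ⟨p, q⟩ hpq
    have hpq := Finset.HasAntidiagonal.mem_antidiagonal.mp hpq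
    have hdeg : q.degree ≤ e.degree := by
      have h := congrArg Finsupp.degree hpq
      simp only [map_add] at h
      omega
    exact Ideal.mul_mem_left _ _ (Ideal.pow_le_pow_right (by omega) (hf q))

theorem mem_coeffIdeal {I : Ideal R} {n : ℕ} {f : MvPowerSeries ι R} :
    f ∈ coeffIdeal ι I n ↔ ∀ e : ι →₀ ℕ, coeff e f ∈ I ^ (n - e.degree) :=
  Iff.rfl

theorem coeffIdeal_zero (I : Ideal R) : coeffIdeal ι I 0 = ⊤ := by
  rw [eq_top_iff]
  intro f _ e
  simp

theorem mem_coeffIdeal_one {I : Ideal R} {f : MvPowerSeries ι R} :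
    f ∈ coeffIdeal ι I 1 ↔ constantCoeff f ∈ I := by
  constructor
  · intro h
    have := h 0
    simpa using this
  · intro h e
    by_cases he : e = 0
    · subst he
      simpa using h
    · have : 1 - e.degree = 0 := by
        have : e.degree ≠ 0 := fun h0 => he ((Finsupp.degree_eq_zero_iff e).mp h0)
        omega
      rw [this, pow_zero, Ideal.one_eq_top]
      trivial

theorem coeffIdeal_mul_le (I : Ideal R) (a b : ℕ) :
    coeffIdeal ι I a * coeffIdeal ι I b ≤ coeffIdeal ι I (a + b) := by
  classical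
  rw [Ideal.mul_le]
  intro f hf g hg e
  rw [coeff_mul]
  refine Ideal.sum_mem _ ?_
  rintro ⟨p, q⟩ hpq
  have hpq := Finset.HasAntidiagonal.mem_antidiagonal.mp hpq
  have hdeg : p.degree + q.degree = e.degree := by
    have h := congrArg Finsupp.degree hpq
    simpa only [map_add] using h
  have h1 : coeff p f * coeff q g ∈ I ^ (a - p.degree) * I ^ (b - q.degree) :=
    Ideal.mul_mem_mul (hf p) (hg q)
  rw [← pow_add] at h1
  exact Ideal.pow_le_pow_right (by omega) h1

theorem pow_le_coeffIdeal (I : Ideal R) (n : ℕ) :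
    coeffIdeal ι I 1 ^ n ≤ coeffIdeal ι I n := by
  induction n with
  | zero => rw [coeffIdeal_zero]; exact le_top
  | succ n ih =>
    rw [pow_succ]
    exact (Ideal.mul_mono_left ih).trans (coeffIdeal_mul_le I n 1)

theorem C_mem_coeffIdeal_one {I : Ideal R} {c : R} (hc : c ∈ I) :
    (C c : MvPowerSeries ι R) ∈ coeffIdeal ι I 1 := by
  rw [mem_coeffIdeal_one, constantCoeff_C]
  exact hc

theorem X_mem_coeffIdeal_one (I : Ideal R) (i : ι) :
    (X i : MvPowerSeries ι R) ∈ coeffIdeal ι I 1 := by
  rw [mem_coeffIdeal_one, constantCoeff_X]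
  exact Ideal.zero_mem _

theorem C_mem_coeffIdeal_one_pow {I : Ideal R} {n : ℕ} {c : R} (hc : c ∈ I ^ n) :
    (C c : MvPowerSeries ι R) ∈ coeffIdeal ι I 1 ^ n := by
  have h1 : Ideal.map (C : R →+* MvPowerSeries ι R) I ≤ coeffIdeal ι I 1 := by
    rw [Ideal.map_le_iff_le_comap]
    intro c hc
    exact C_mem_coeffIdeal_one hc
  have h2 : (C c : MvPowerSeries ι R) ∈ Ideal.map (C : R →+* MvPowerSeries ι R) (I ^ n) :=
    Ideal.mem_map_of_mem _ hc
  rw [Ideal.map_pow] at h2
  exact Ideal.pow_right_mono h1 n h2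

/-- Decomposition of a power series as constant term plus multiples of the variables,
with control on the coefficients of the cofactors. -/
theorem exists_X_decomp [Fintype ι] (f : MvPowerSeries ι R) :
    ∃ g : ι → MvPowerSeries ι R, f = C (constantCoeff f) + ∑ i, X i * g i ∧
      ∀ i e, coeff e (g i) = 0 ∨ coeff e (g i) = coeff (e + Finsupp.single i 1) f := by
  classical
  let sel : (ι →₀ ℕ) → ι → Prop := fun e i => ∃ h : e.support.Nonempty, h.choose = i
  let g : ι → MvPowerSeries ι R := fun i e =>
    if sel (e + Finsupp.single i 1) i then coeff (e + Finsupp.single i 1) f else 0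
  have hg : ∀ i e, coeff e (g i) =
      if sel (e + Finsupp.single i 1) i then coeff (e + Finsupp.single i 1) f else 0 :=
    fun i e => rfl
  refine ⟨g, ?_, ?_⟩
  · ext e
    rw [map_add, map_sum]
    have hterm : ∀ i, coeff e (X i * g i) = if sel e i then coeff e f else 0 := by
      intro i
      rw [X_def, coeff_monomial_mul, one_mul]
      by_cases hle : Finsupp.single i 1 ≤ e
      · rw [if_pos hle, hg, tsub_add_cancel_of_le hle]
      · rw [if_neg hle, if_neg]
        rintro ⟨h, hi⟩
        apply hle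
        have hmem := h.choose_spec
        rw [hi, Finsupp.mem_support_iff] at hmem
        rw [Finsupp.single_le_iff]
        omega
    simp only [hterm]
    by_cases he : e = 0
    · subst he
      have : ∀ i, ¬ sel 0 i := by
        rintro i ⟨h, -⟩
        simp at h
      simp [this]
    · have hne : e.support.Nonempty := by
        rw [Finsupp.support_nonempty_iff]; exact he
      have hsel : ∀ i, sel e i ↔ hne.choose = i := by
        intro i
        constructor
        · rintro ⟨_, hi⟩; exact hi
        · intro hi; exact ⟨hne, hi⟩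
      simp only [hsel]
      rw [Finset.sum_ite_eq, if_pos (Finset.mem_univ _), coeff_C, if_neg he, zero_add]
  · intro i e
    rw [hg]
    split_ifs
    · right; rfl
    · left; rfl

theorem coeffIdeal_le_pow [Finite ι] (I : Ideal R) (n : ℕ) :
    coeffIdeal ι I n ≤ coeffIdeal ι I 1 ^ n := by
  haveI := Fintype.ofFinite ι
  induction n with
  | zero => rw [pow_zero, Ideal.one_eq_top]; exact le_top
  | succ n ih =>
    intro f hf
    obtain ⟨g, hfg, hg⟩ := exists_X_decomp f
    rw [hfg]
    refine Ideal.add_mem _ ?_ (Ideal.sum_mem _ fun i _ => ?_)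
    · apply C_mem_coeffIdeal_one_pow
      have := hf 0
      simpa using this
    · rw [pow_succ']
      refine Ideal.mul_mem_mul (X_mem_coeffIdeal_one I i) (ih ?_)
      intro e
      rcases hg i e with h | h
      · rw [h]; exact Ideal.zero_mem _
      · rw [h]
        have := hf (e + Finsupp.single i 1)
        rw [map_add, Finsupp.degree_single] at this
        have heq : n + 1 - (e.degree + 1) = n - e.degree := by omega
        rwa [heq] at this

theorem coeffIdeal_one_pow [Finite ι] (I : Ideal R) (n : ℕ) :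
    coeffIdeal ι I 1 ^ n = coeffIdeal ι I n :=
  le_antisymm (pow_le_coeffIdeal I n) (coeffIdeal_le_pow I n)

end CoeffIdeal

section Complete

variable {ι : Type*} [Finite ι] {R : Type*} [CommRing R]

theorem isHausdorff_coeffIdeal (I : Ideal R) [IsHausdorff I R] :
    IsHausdorff (coeffIdeal ι I 1) (MvPowerSeries ι R) := by
  constructor
  intro f hf
  ext e
  rw [map_zero]
  apply IsHausdorff.haus (inferInstance : IsHausdorff I R)
  intro n
  have h1 := hf (n + e.degree)
  rw [SModEq.zero, smul_eq_mul, Ideal.mul_top, coeffIdeal_one_pow] at h1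
  have h2 := h1 e
  rw [Nat.add_sub_cancel] at h2
  rw [SModEq.zero, smul_eq_mul, Ideal.mul_top]
  exact h2

theorem isPrecomplete_coeffIdeal (I : Ideal R) [IsPrecomplete I R] :
    IsPrecomplete (coeffIdeal ι I 1) (MvPowerSeries ι R) := by
  constructor
  intro f hf
  have hc : ∀ e : ι →₀ ℕ, ∃ L : R, ∀ n,
      coeff e (f (n + e.degree)) ≡ L [SMOD (I ^ n • ⊤ : Submodule R R)] := by
    intro e
    apply IsPrecomplete.prec (inferInstance : IsPrecomplete I R)
    intro m n hmn
    have h1 := hf (show m + e.degree ≤ n + e.degree by omega)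
    rw [SModEq.sub_mem, smul_eq_mul, Ideal.mul_top, coeffIdeal_one_pow] at h1
    have h2 := h1 e
    rw [Nat.add_sub_cancel, map_sub] at h2
    rw [SModEq.sub_mem, smul_eq_mul, Ideal.mul_top]
    exact h2
  choose L hL using hc
  refine ⟨fun e => L e, fun n => ?_⟩
  rw [SModEq.sub_mem, smul_eq_mul, Ideal.mul_top, coeffIdeal_one_pow]
  intro e
  by_cases hle : e.degree ≤ n
  · obtain ⟨k, rfl⟩ : ∃ k, n = k + e.degree := ⟨n - e.degree, by omega⟩
    have := hL e k
    rw [SModEq.sub_mem, smul_eq_mul, Ideal.mul_top] at this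
    rw [Nat.add_sub_cancel, map_sub]
    exact this
  · have : n - e.degree = 0 := by omega
    rw [this, pow_zero, Ideal.one_eq_top]
    trivial

theorem isAdicComplete_coeffIdeal (I : Ideal R) [IsAdicComplete I R] :
    IsAdicComplete (coeffIdeal ι I 1) (MvPowerSeries ι R) :=
  { isHausdorff_coeffIdeal I, isPrecomplete_coeffIdeal I with }

omit [Finite ι] in
theorem maximalIdeal_eq_coeffIdeal [IsLocalRing R] :
    IsLocalRing.maximalIdeal (MvPowerSeries ι R) = coeffIdeal ι (IsLocalRing.maximalIdeal R) 1 := by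
  ext f
  rw [mem_coeffIdeal_one, IsLocalRing.mem_maximalIdeal, IsLocalRing.mem_maximalIdeal,
    mem_nonunits_iff, mem_nonunits_iff, isUnit_iff_constantCoeff]

/-- **D1**: a power series ring in finitely many variables over a complete local ring is complete
for its maximal ideal. -/
theorem isAdicComplete_mvPowerSeries [IsLocalRing R]
    [IsAdicComplete (IsLocalRing.maximalIdeal R) R] :
    IsAdicComplete (IsLocalRing.maximalIdeal (MvPowerSeries ι R)) (MvPowerSeries ι R) := by
  rw [maximalIdeal_eq_coeffIdeal]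
  exact isAdicComplete_coeffIdeal _

end Complete

section Eval

variable {ι : Type*} [Finite ι] {R : Type*} [CommRing R]

/-- **D2**: evaluation of power series at nilpotent elements. -/
theorem exists_evalNilp {A : Type*} [CommRing A] [Algebra R A] (a : ι → A)
    (ha : ∀ i, IsNilpotent (a i)) :
    ∃ ev : MvPowerSeries ι R →ₐ[R] A, ∀ i, ev (X i) = a i := by
  letI : UniformSpace R := ⊥
  haveI : DiscreteTopology R := ⟨rfl⟩
  letI : UniformSpace A := ⊥
  haveI : DiscreteTopology A := ⟨rfl⟩
  haveI : DiscreteUniformity A := ⟨rfl⟩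
  haveI : DiscreteUniformity R := ⟨rfl⟩
  haveI : ContinuousSMul R A := ⟨continuous_of_discreteTopology⟩
  have hev : HasEval a := by
    refine ⟨fun s => ?_, ?_⟩
    · obtain ⟨n, hn⟩ := ha s
      unfold IsTopologicallyNilpotent
      refine tendsto_atTop_of_eventually_const (i₀ := n) ?_
      intro m hm
      exact pow_eq_zero_of_le hm hn
    · rw [Filter.cofinite_eq_bot]
      exact Filter.tendsto_bot
  refine ⟨aeval hev, fun i => ?_⟩
  rw [coe_aeval, eval₂_X]

/-- `f` minus its truncation in total degree `< n` has no terms of degree `< n`. -/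
theorem sub_truncTotal_mem (f : MvPowerSeries ι R) (n : ℕ) :
    f - ((truncTotal n f : MvPolynomial ι R) : MvPowerSeries ι R) ∈
      coeffIdeal ι (⊥ : Ideal R) n := by
  intro e
  rw [map_sub, MvPolynomial.coeff_coe, coeff_truncTotal_eq_ite]
  split_ifs with h
  · rw [sub_self]; exact Ideal.zero_mem _
  · rw [sub_zero]
    have : n - e.degree = 0 := by omega
    rw [this, pow_zero, Ideal.one_eq_top]
    trivial

/-- An algebra map sending the variables into `J` and `I` into `J` sends `coeffIdeal I n`
into `J ^ n`. -/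
theorem coeffIdeal_le_comap {A : Type*} [CommRing A] [Algebra R A]
    (φ : MvPowerSeries ι R →ₐ[R] A) (I : Ideal R) (J : Ideal A)
    (hI : ∀ c ∈ I, algebraMap R A c ∈ J) (hX : ∀ i, φ (X i) ∈ J) (n : ℕ) :
    coeffIdeal ι I n ≤ Ideal.comap φ (J ^ n) := by
  haveI := Fintype.ofFinite ι
  have h1 : coeffIdeal ι I 1 ≤ Ideal.comap φ J := by
    intro f hf
    rw [mem_coeffIdeal_one] at hf
    obtain ⟨g, hfg, -⟩ := exists_X_decomp f
    rw [Ideal.mem_comap, hfg, map_add, map_sum]
    refine Ideal.add_mem _ ?_ (Ideal.sum_mem _ fun i _ => ?_)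
    · have : (C (constantCoeff f) : MvPowerSeries ι R) =
          algebraMap R (MvPowerSeries ι R) (constantCoeff f) := rfl
      rw [this, AlgHom.commutes]
      exact hI _ hf
    · rw [map_mul]
      exact Ideal.mul_mem_right _ _ (hX i)
  rw [← coeffIdeal_one_pow]
  exact (Ideal.pow_right_mono h1 n).trans (Ideal.le_comap_pow _ n)

/-- Two algebra maps out of a power series ring agreeing on polynomials in the variables
agree modulo `J ^ n` when the variables go into `J`. -/
theorem algHom_sub_mem_pow {A : Type*} [CommRing A] [Algebra R A] (J : Ideal A)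
    (φ φ' : MvPowerSeries ι R →ₐ[R] A) (h : ∀ i, φ (X i) = φ' (X i)) (hX : ∀ i, φ (X i) ∈ J)
    (f : MvPowerSeries ι R) (n : ℕ) : φ f - φ' f ∈ J ^ n := by
  have hpoly : ∀ P : MvPolynomial ι R, φ (P : MvPowerSeries ι R) = φ' (P : MvPowerSeries ι R) := by
    intro P
    have : φ.comp (MvPolynomial.coeToMvPowerSeries.algHom R) =
        φ'.comp (MvPolynomial.coeToMvPowerSeries.algHom R) := by
      apply MvPolynomial.algHom_ext
      intro i
      simpa using h i
    exact congrArg (fun ψ : MvPolynomial ι R →ₐ[R] A => ψ P) this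
  have hmem := sub_truncTotal_mem f n
  have hbot : ∀ c ∈ (⊥ : Ideal R), algebraMap R A c ∈ J := by
    intro c hc
    rw [Ideal.mem_bot.mp hc, map_zero]
    exact Ideal.zero_mem _
  have h1 := coeffIdeal_le_comap φ ⊥ J hbot hX n hmem
  have h2 := coeffIdeal_le_comap φ' ⊥ J hbot (fun i => h i ▸ hX i) n hmem
  rw [Ideal.mem_comap, map_sub] at h1 h2
  have := Ideal.sub_mem _ h1 h2
  rwa [hpoly, sub_sub_sub_cancel_right] at this

/-- **D3**: an algebra map out of a power series ring into a ring separated for an ideal `J`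
is determined by the images of the variables, if these lie in `J`. -/
theorem algHom_ext_X {A : Type*} [CommRing A] [Algebra R A] (J : Ideal A)
    (hJ : ⨅ n : ℕ, J ^ n = ⊥)
    (φ φ' : MvPowerSeries ι R →ₐ[R] A) (h : ∀ i, φ (X i) = φ' (X i)) (hX : ∀ i, φ (X i) ∈ J) :
    φ = φ' := by
  ext f
  rw [← sub_eq_zero, ← Ideal.mem_bot, ← hJ, Ideal.mem_iInf]
  exact fun n => algHom_sub_mem_pow J φ φ' h hX f n

/-- **D3'**: version for nilpotent images of the variables. -/
theorem algHom_ext_X_of_isNilpotent {A : Type*} [CommRing A] [Algebra R A]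
    (φ φ' : MvPowerSeries ι R →ₐ[R] A) (h : ∀ i, φ (X i) = φ' (X i))
    (hX : ∀ i, IsNilpotent (φ (X i))) : φ = φ' := by
  haveI := Fintype.ofFinite ι
  let J : Ideal A := Ideal.span (Set.range fun i => φ (X i))
  have hJnil : IsNilpotent J := by
    have hle : J ≤ nilradical A := by
      rw [Ideal.span_le]
      rintro _ ⟨i, rfl⟩
      exact hX i
    have hfg : J.FG := Submodule.fg_span (Set.finite_range _)
    obtain ⟨k, hk⟩ := Ideal.exists_pow_le_of_le_radical_of_fg
      (show J ≤ (⊥ : Ideal A).radical from hle) hfg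
    exact ⟨k, le_bot_iff.mp hk⟩
  obtain ⟨k, hk⟩ := hJnil
  refine algHom_ext_X J ?_ φ φ' h (fun i => Ideal.subset_span ⟨i, rfl⟩)
  rw [eq_bot_iff]
  exact (iInf_le _ k).trans (le_of_eq hk)

/-- **D5**: evaluation of power series at elements of an ideal `J` for which the target is
adically complete. -/
theorem exists_evalComplete {A : Type*} [CommRing A] [Algebra R A] (J : Ideal A)
    [IsAdicComplete J A] (a : ι → A) (ha : ∀ i, a i ∈ J) :
    ∃ ev : MvPowerSeries ι R →ₐ[R] A, ∀ i, ev (X i) = a i := by
  have hnil : ∀ n i, IsNilpotent (Ideal.Quotient.mk (J ^ n) (a i)) := by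
    intro n i
    refine ⟨n, ?_⟩
    rw [← map_pow, Ideal.Quotient.eq_zero_iff_mem]
    exact Ideal.pow_mem_pow (ha i) n
  choose ev hev using fun n =>
    exists_evalNilp (R := R) (fun i => Ideal.Quotient.mk (J ^ n) (a i)) (hnil n)
  have hcompat : ∀ {m n : ℕ} (hle : m ≤ n),
      (Ideal.Quotient.factorₐ R (Ideal.pow_le_pow_right hle)).comp (ev n) = ev m := by
    intro m n hle
    apply algHom_ext_X_of_isNilpotent
    · intro i
      rw [AlgHom.comp_apply, hev, hev]
      rfl
    · intro i
      rw [AlgHom.comp_apply, hev]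
      exact hnil m i
  refine ⟨IsAdicComplete.liftAlgHom J ev hcompat, fun i => ?_⟩
  rw [← sub_eq_zero]
  apply IsHausdorff.haus (inferInstance : IsHausdorff J A)
  intro n
  rw [SModEq.zero, smul_eq_mul, Ideal.mul_top, ← Ideal.Quotient.eq,
    IsAdicComplete.mk_liftAlgHom, hev]

end Eval

section Ideals

variable {ι : Type*} [Finite ι] {R : Type*} [CommRing R]

/-- **D4a**: generators of `coeffIdeal I 1`. -/
theorem coeffIdeal_one_eq (I : Ideal R) :
    coeffIdeal ι I 1 =
      Ideal.map (C : R →+* MvPowerSeries ι R) I ⊔ Ideal.span (Set.range (X : ι → MvPowerSeries ι R)) := by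
  haveI := Fintype.ofFinite ι
  apply le_antisymm
  · intro f hf
    rw [mem_coeffIdeal_one] at hf
    obtain ⟨g, hfg, -⟩ := exists_X_decomp f
    rw [hfg]
    refine Ideal.add_mem _ (Ideal.mem_sup_left (Ideal.mem_map_of_mem _ hf))
      (Ideal.mem_sup_right (Ideal.sum_mem _ fun i _ => ?_))
    exact Ideal.mul_mem_right _ _ (Ideal.subset_span ⟨i, rfl⟩)
  · refine sup_le ?_ ?_
    · rw [Ideal.map_le_iff_le_comap]
      intro c hc
      exact C_mem_coeffIdeal_one hc
    · rw [Ideal.span_le]
      rintro _ ⟨i, rfl⟩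
      exact X_mem_coeffIdeal_one I i

/-- **D4a'**: generators of the maximal ideal of a power series ring over a local ring. -/
theorem maximalIdeal_mvPowerSeries_eq [IsLocalRing R] :
    IsLocalRing.maximalIdeal (MvPowerSeries ι R) =
      Ideal.map (C : R →+* MvPowerSeries ι R) (IsLocalRing.maximalIdeal R) ⊔
        Ideal.span (Set.range (X : ι → MvPowerSeries ι R)) := by
  rw [maximalIdeal_eq_coeffIdeal, coeffIdeal_one_eq]

omit [Finite ι] in
theorem C_mem_maximalIdeal [IsLocalRing R] {c : R} (hc : c ∈ IsLocalRing.maximalIdeal R) :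
    (C c : MvPowerSeries ι R) ∈ IsLocalRing.maximalIdeal (MvPowerSeries ι R) := by
  rw [maximalIdeal_eq_coeffIdeal]
  exact C_mem_coeffIdeal_one hc

omit [Finite ι] in
theorem X_mem_maximalIdeal [IsLocalRing R] (i : ι) :
    (X i : MvPowerSeries ι R) ∈ IsLocalRing.maximalIdeal (MvPowerSeries ι R) := by
  rw [maximalIdeal_eq_coeffIdeal]
  exact X_mem_coeffIdeal_one _ i

omit [Finite ι] in
theorem sub_C_constantCoeff_mem_maximalIdeal [IsLocalRing R] (f : MvPowerSeries ι R) :
    f - C (constantCoeff f) ∈ IsLocalRing.maximalIdeal (MvPowerSeries ι R) := by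
  rw [maximalIdeal_eq_coeffIdeal, mem_coeffIdeal_one]
  simp

omit [Finite ι] in
/-- The residue field of a power series ring is finite if that of the base is. -/
theorem finite_quotient_maximalIdeal [IsLocalRing R] [Finite (IsLocalRing.ResidueField R)] :
    Finite (MvPowerSeries ι R ⧸ IsLocalRing.maximalIdeal (MvPowerSeries ι R)) := by
  let ψ : MvPowerSeries ι R ⧸ IsLocalRing.maximalIdeal (MvPowerSeries ι R) →+*
      IsLocalRing.ResidueField R :=
    Ideal.Quotient.lift _ ((IsLocalRing.residue R).comp constantCoeff) (by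
      intro f hf
      rw [maximalIdeal_eq_coeffIdeal, mem_coeffIdeal_one] at hf
      rw [RingHom.comp_apply]
      exact (IsLocalRing.residue_eq_zero_iff _).mpr hf)
  letI : Field (MvPowerSeries ι R ⧸ IsLocalRing.maximalIdeal (MvPowerSeries ι R)) :=
    Ideal.Quotient.field _
  exact Finite.of_injective ψ ψ.injective

/-- **D4b**: quotients of a power series ring by powers of the maximal ideal are finite
when the residue field is. -/
theorem finite_quotient_maximalIdeal_pow [IsLocalRing R] [IsNoetherianRing R]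
    [Finite (IsLocalRing.ResidueField R)] (n : ℕ) :
    Finite (MvPowerSeries ι R ⧸ IsLocalRing.maximalIdeal (MvPowerSeries ι R) ^ n) := by
  haveI := finite_quotient_maximalIdeal (ι := ι) (R := R)
  exact Ideal.finite_quotient_pow (IsNoetherian.noetherian _) n

end Ideals

section Cauchy

variable {Q : Type*} [CommRing Q]

/-- **Cauchy lemma**: if `K N + I ^ n = K n` for all `n ≤ N` and `Q` is `I`-adically precomplete
then `(⨅ N, K N) + I ^ n = K n`. -/
theorem iInf_sup_pow_eq (I : Ideal Q) [IsPrecomplete I Q] (K : ℕ → Ideal Q)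
    (hK : ∀ n N, n ≤ N → K N ⊔ I ^ n = K n) (n : ℕ) :
    (⨅ N, K N) ⊔ I ^ n = K n := by
  have hpow : ∀ m, I ^ m ≤ K m := fun m => by
    have := hK m m le_rfl
    exact le_sup_right.trans (le_of_eq this)
  have hanti : ∀ m N, m ≤ N → K N ≤ K m := fun m N h => by
    have := hK m N h
    exact le_sup_left.trans (le_of_eq this)
  apply le_antisymm
  · exact sup_le (iInf_le _ n) (hpow n)
  · intro x hx
    -- build the sequence
    have step : ∀ j (y : {y : Q // y ∈ K (n + j)}),
        ∃ y' : {y : Q // y ∈ K (n + (j + 1))}, y'.1 - y.1 ∈ I ^ (n + j) := by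
      rintro j ⟨y, hy⟩
      rw [← hK (n + j) (n + (j + 1)) (by omega), Submodule.mem_sup] at hy
      obtain ⟨u, hu, v, hv, rfl⟩ := hy
      refine ⟨⟨u, hu⟩, ?_⟩
      simp only [sub_add_cancel_left]
      exact Ideal.neg_mem_iff _ |>.mpr hv
    choose nxt hnxt using step
    let seq : ∀ j, {y : Q // y ∈ K (n + j)} :=
      fun j => Nat.rec (motive := fun j => {y : Q // y ∈ K (n + j)}) ⟨x, hx⟩
        (fun j y => nxt j y) j
    have hseq0 : (seq 0).1 = x := rfl
    have hseqS : ∀ j, (seq (j + 1)).1 - (seq j).1 ∈ I ^ (n + j) := fun j => hnxt j (seq j)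
    have hcauchy : ∀ j k, (seq (j + k)).1 - (seq j).1 ∈ I ^ (n + j) := by
      intro j k
      induction k with
      | zero => simp
      | succ k ih =>
        have h1 := hseqS (j + k)
        have h2 : (seq (j + (k + 1))).1 - (seq j).1 =
            ((seq (j + k + 1)).1 - (seq (j + k)).1) + ((seq (j + k)).1 - (seq j).1) := by
          change (seq (j + k + 1)).1 - (seq j).1 = _
          ring
        rw [h2]
        exact Ideal.add_mem _ (Ideal.pow_le_pow_right (by omega) h1) ih
    obtain ⟨L, hL⟩ := IsPrecomplete.prec (inferInstance : IsPrecomplete I Q)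
      (f := fun j => (seq j).1) (by
        intro a b hab
        obtain ⟨k, rfl⟩ := Nat.exists_eq_add_of_le hab
        rw [SModEq.sub_mem, smul_eq_mul, Ideal.mul_top]
        have := hcauchy a k
        rw [← Ideal.neg_mem_iff, neg_sub] at this
        exact Ideal.pow_le_pow_right (by omega) this)
    have hL' : ∀ j, (seq j).1 - L ∈ I ^ j := by
      intro j
      have := hL j
      rwa [SModEq.sub_mem, smul_eq_mul, Ideal.mul_top] at this
    have hLK : ∀ N, L ∈ K N := by
      intro N
      have h1 : (seq N).1 ∈ K N := hanti N (n + N) (by omega) (seq N).2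
      have h2 : (seq N).1 - L ∈ K N := hpow N (hL' N)
      have := Ideal.sub_mem _ h1 h2
      rwa [sub_sub_cancel] at this
    have hxL : x - L ∈ I ^ n := by
      have h1 := hL' n
      have h2 := hcauchy 0 n
      rw [zero_add, hseq0, add_zero] at h2
      have := Ideal.sub_mem _ h1 h2
      rwa [sub_sub_sub_cancel_left] at this
    have : x = L + (x - L) := by ring
    rw [this]
    exact Ideal.add_mem _ (Ideal.mem_sup_left (Ideal.mem_iInf.mpr hLK)) (Ideal.mem_sup_right hxL)

/-- A nonempty family of ideals containing `I`, closed under pairwise intersection, has a least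
element when `Q ⧸ I` is Artinian. -/
theorem exists_least_ideal (I : Ideal Q) [IsArtinianRing (Q ⧸ I)] (S : Set (Ideal Q))
    (hne : S.Nonempty) (hinf : ∀ J₁ ∈ S, ∀ J₂ ∈ S, J₁ ⊓ J₂ ∈ S) (hS : ∀ J ∈ S, I ≤ J) :
    ∃ K ∈ S, ∀ J ∈ S, K ≤ J := by
  obtain ⟨M', ⟨K, hKS, rfl⟩, hmin⟩ := IsArtinian.set_has_minimal
    (R := Q ⧸ I) (M := Q ⧸ I) (Ideal.map (Ideal.Quotient.mk I) '' S) (hne.image _)
  refine ⟨K, hKS, fun J hJ => ?_⟩
  have hsurj : Function.Surjective (Ideal.Quotient.mk I) := Ideal.Quotient.mk_surjective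
  have hcm : ∀ J' : Ideal Q, I ≤ J' →
      Ideal.comap (Ideal.Quotient.mk I) (Ideal.map (Ideal.Quotient.mk I) J') = J' := by
    intro J' hJ'
    rw [Ideal.comap_map_of_surjective _ hsurj, ← RingHom.ker_eq_comap_bot, Ideal.mk_ker]
    exact sup_eq_left.mpr hJ'
  have hKJ : K ⊓ J ∈ S := hinf K hKS J hJ
  have hle : Ideal.map (Ideal.Quotient.mk I) (K ⊓ J) ≤ Ideal.map (Ideal.Quotient.mk I) K :=
    Ideal.map_mono inf_le_left
  have heq : Ideal.map (Ideal.Quotient.mk I) (K ⊓ J) = Ideal.map (Ideal.Quotient.mk I) K := by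
    by_contra hne'
    exact hmin _ ⟨K ⊓ J, hKJ, rfl⟩ (lt_of_le_of_ne hle hne')
  have := congrArg (Ideal.comap (Ideal.Quotient.mk I)) heq
  rw [hcm _ (le_inf (hS K hKS) (hS J hJ)), hcm _ (hS K hKS)] at this
  exact inf_eq_left.mp this

end Cauchy

section Quot

variable {ι : Type*} {R : Type*} [CommRing R] [IsLocalRing R]

omit [IsLocalRing R] in
theorem isLocalHom_C : IsLocalHom (C : R →+* MvPowerSeries ι R) := by
  constructor
  intro c hc
  rw [isUnit_iff_constantCoeff, constantCoeff_C] at hc
  exact hc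

omit [IsLocalRing R] in
theorem isLocalHom_algebraMap_mvPowerSeries :
    IsLocalHom (algebraMap R (MvPowerSeries ι R)) :=
  isLocalHom_C

/-- The quotient of a power series ring over a local ring by a proper ideal is local. -/
theorem isLocalRing_mvPowerSeries_quotient (a : Ideal (MvPowerSeries ι R)) (ha : a ≠ ⊤) :
    IsLocalRing (MvPowerSeries ι R ⧸ a) := by
  haveI : Nontrivial (MvPowerSeries ι R ⧸ a) := Ideal.Quotient.nontrivial_iff.mpr ha
  exact IsLocalRing.of_surjective' (Ideal.Quotient.mk a) Ideal.Quotient.mk_surjective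

/-- All the structure needed on a proper quotient `MvPowerSeries ι R ⧸ a` to serve as a
deformation ring: local hom from the base, residue field generated by the base,
and (for finite `ι` and complete Noetherian `R`) completeness. -/
theorem isLocalHom_algebraMap_quotient (a : Ideal (MvPowerSeries ι R))
    [IsLocalRing (MvPowerSeries ι R ⧸ a)] :
    IsLocalHom (algebraMap R (MvPowerSeries ι R ⧸ a)) := by
  haveI : IsLocalHom (Ideal.Quotient.mk a) :=
    IsLocalHom.of_surjective (Ideal.Quotient.mk a) Ideal.Quotient.mk_surjective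
  haveI : IsLocalHom (C : R →+* MvPowerSeries ι R) := isLocalHom_C
  have : algebraMap R (MvPowerSeries ι R ⧸ a) = (Ideal.Quotient.mk a).comp C := rfl
  rw [this]
  exact RingHom.isLocalHom_comp _ _

theorem residue_algebraMap_quotient_surjective (a : Ideal (MvPowerSeries ι R))
    [IsLocalRing (MvPowerSeries ι R ⧸ a)] :
    Function.Surjective
      (IsLocalRing.residue (MvPowerSeries ι R ⧸ a) ∘ algebraMap R (MvPowerSeries ι R ⧸ a)) := by
  haveI : IsLocalHom (Ideal.Quotient.mk a) :=
    IsLocalHom.of_surjective (Ideal.Quotient.mk a) Ideal.Quotient.mk_surjective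
  intro y
  obtain ⟨x, rfl⟩ := IsLocalRing.residue_surjective y
  obtain ⟨f, rfl⟩ := Ideal.Quotient.mk_surjective x
  refine ⟨constantCoeff f, ?_⟩
  rw [Function.comp_apply, ← sub_eq_zero, ← map_sub, IsLocalRing.residue_eq_zero_iff]
  have h1 : algebraMap R (MvPowerSeries ι R ⧸ a) (constantCoeff f) - Ideal.Quotient.mk a f =
      Ideal.Quotient.mk a (C (constantCoeff f) - f) := by
    rw [map_sub]; rfl
  rw [h1]
  have h2 : C (constantCoeff f) - f ∈ IsLocalRing.maximalIdeal (MvPowerSeries ι R) := by
    rw [← Ideal.neg_mem_iff, neg_sub]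
    exact sub_C_constantCoeff_mem_maximalIdeal f
  intro hu
  exact h2 (IsUnit.of_map (Ideal.Quotient.mk a) _ hu)

theorem isAdicComplete_quotient [Finite ι] [IsNoetherianRing R]
    [IsAdicComplete (IsLocalRing.maximalIdeal R) R] (a : Ideal (MvPowerSeries ι R))
    [IsLocalRing (MvPowerSeries ι R ⧸ a)] :
    IsAdicComplete (IsLocalRing.maximalIdeal (MvPowerSeries ι R ⧸ a))
      (MvPowerSeries ι R ⧸ a) := by
  haveI : IsAdicComplete (IsLocalRing.maximalIdeal (MvPowerSeries ι R)) (MvPowerSeries ι R) :=
    isAdicComplete_mvPowerSeries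
  haveI : IsLocalHom (algebraMap (MvPowerSeries ι R) (MvPowerSeries ι R ⧸ a)) :=
    IsLocalHom.of_surjective (Ideal.Quotient.mk a) Ideal.Quotient.mk_surjective
  exact IsLocalRing.isAdicComplete_of_module_finite (𝒪 := MvPowerSeries ι R)

end Quot

end Fermat.Agent.S53Lib
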