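import Mathlib
import Fermat.Prelude.Def_GaloisRep_DeformationCondition

set_option autoImplicit false

/-!
# Rigid functors on Artinian test algebras: interface

`RigidFunctor 𝒪 ι c L` axiomatises a subfunctor `L` of the affine space `A ↦ (ι → A)` on Artinian
test algebras over `𝒪` which is stable under pullback along injections and under fibre products,
has a base point `c` and a finite separating set of coordinates on the dual numbers.
`ProRep 𝒪 ι L` is the data of a complete Noetherian local `𝒪`-algebra pro-representing `L`.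
-/

noncomputable section

namespace Fermat.Agent.S53Lib

open IsLocalRing GaloisRep

/-- The algebra structure on the dual numbers of the residue field which is used in
`GaloisRep.TangentFinite`. -/
abbrev dualNumberAlgebra (𝒪 : Type) [CommRing 𝒪] [IsLocalRing 𝒪] :
    Algebra 𝒪 (DualNumber (ResidueField 𝒪)) :=
  ((algebraMap (ResidueField 𝒪) (DualNumber (ResidueField 𝒪))).comp
    (algebraMap 𝒪 (ResidueField 𝒪))).toAlgebra

/-- A rigid functor: a family-valued subfunctor of affine space on Artinian test algebras. -/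
structure RigidFunctor (𝒪 : Type) [CommRing 𝒪] [IsLocalRing 𝒪] (ι : Type) (c : ι → 𝒪)
    (L : ∀ ⦃A : Type⦄ [CommRing A] [IsLocalRing A] [Algebra 𝒪 A], (ι → A) → Prop) : Prop where
  /-- functoriality -/
  map : ∀ ⦃A B : Type⦄ [CommRing A] [IsLocalRing A] [Algebra 𝒪 A]
    [CommRing B] [IsLocalRing B] [Algebra 𝒪 B],
    IsArtinianTestAlgebra 𝒪 A → IsArtinianTestAlgebra 𝒪 B →
    ∀ (φ : A →ₐ[𝒪] B) ⦃a : ι → A⦄, L a → L (fun i => φ (a i))
  /-- descent along injections -/
  of_injective : ∀ ⦃A B : Type⦄ [CommRing A] [IsLocalRing A] [Algebra 𝒪 A]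
    [CommRing B] [IsLocalRing B] [Algebra 𝒪 B],
    IsArtinianTestAlgebra 𝒪 A → IsArtinianTestAlgebra 𝒪 B →
    ∀ (φ : A →ₐ[𝒪] B), Function.Injective φ → ∀ ⦃a : ι → A⦄, L (fun i => φ (a i)) → L a
  /-- gluing over fibre products -/
  of_fibreProduct : ∀ ⦃A B C P : Type⦄ [CommRing A] [IsLocalRing A] [Algebra 𝒪 A]
    [CommRing B] [IsLocalRing B] [Algebra 𝒪 B] [CommRing C] [IsLocalRing C] [Algebra 𝒪 C]
    [CommRing P] [IsLocalRing P] [Algebra 𝒪 P],
    IsArtinianTestAlgebra 𝒪 A → IsArtinianTestAlgebra 𝒪 B → IsArtinianTestAlgebra 𝒪 C →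
    IsArtinianTestAlgebra 𝒪 P →
    ∀ (f : A →ₐ[𝒪] C) (g : B →ₐ[𝒪] C) (pA : P →ₐ[𝒪] A) (pB : P →ₐ[𝒪] B),
      f.comp pA = g.comp pB →
      Function.Injective (fun x => (pA x, pB x)) →
      (∀ a b, f a = g b → ∃ x, pA x = a ∧ pB x = b) →
      ∀ ⦃u : ι → P⦄, L (fun i => pA (u i)) → L (fun i => pB (u i)) → L u
  /-- every family in `L` reduces to the base point -/
  res : ∀ ⦃A : Type⦄ [CommRing A] [IsLocalRing A] [Algebra 𝒪 A], IsArtinianTestAlgebra 𝒪 A →
    ∀ ⦃a : ι → A⦄, L a → ∀ i, a i - algebraMap 𝒪 A (c i) ∈ maximalIdeal A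
  /-- the base point -/
  base : L (fun i => algebraMap 𝒪 (ResidueField 𝒪) (c i))
  /-- finitely many coordinates separate the families over the dual numbers -/
  tangent : letI := dualNumberAlgebra 𝒪
    ∃ S0 : Finset ι, ∀ a a' : ι → DualNumber (ResidueField 𝒪), L a → L a' →
      (∀ i ∈ S0, a i = a' i) → a = a'

/-- Pro-representability data for a rigid functor. -/
structure ProRep (𝒪 : Type) [CommRing 𝒪] [IsLocalRing 𝒪] (ι : Type)
    (L : ∀ ⦃A : Type⦄ [CommRing A] [IsLocalRing A] [Algebra 𝒪 A], (ι → A) → Prop) : Type 1 where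
  /-- the pro-representing ring -/
  R : Type
  [instCommRing : CommRing R]
  [instIsLocalRing : IsLocalRing R]
  [instIsNoetherianRing : IsNoetherianRing R]
  [instIsAdicComplete : IsAdicComplete (maximalIdeal R) R]
  [instAlgebra : Algebra 𝒪 R]
  [instIsLocalHom : IsLocalHom (algebraMap 𝒪 R)]
  residue_surjective : Function.Surjective (residue R ∘ algebraMap 𝒪 R)
  /-- the universal family -/
  u : ι → R
  /-- every Artinian specialisation of the universal family lies in `L` -/
  isL : ∀ ⦃B : Type⦄ [CommRing B] [IsLocalRing B] [Algebra 𝒪 B], IsArtinianTestAlgebra 𝒪 B →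
    ∀ q : R →ₐ[𝒪] B, L (fun i => q (u i))
  /-- the universal property -/
  universal : ∀ (A : Type) [CommRing A] [IsLocalRing A] [IsNoetherianRing A]
    [IsAdicComplete (maximalIdeal A) A] [Algebra 𝒪 A] [IsLocalHom (algebraMap 𝒪 A)],
    Function.Surjective (residue A ∘ algebraMap 𝒪 A) →
    ∀ a : ι → A,
      (∀ ⦃B : Type⦄ [CommRing B] [IsLocalRing B] [Algebra 𝒪 B], IsArtinianTestAlgebra 𝒪 B →
        ∀ q : A →ₐ[𝒪] B, Function.Surjective q → L (fun i => q (a i))) →
      ∃! φ : R →ₐ[𝒪] A, ∀ i, φ (u i) = a i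

attribute [instance] ProRep.instCommRing ProRep.instIsLocalRing ProRep.instIsNoetherianRing
  ProRep.instIsAdicComplete ProRep.instAlgebra ProRep.instIsLocalHom

end Fermat.Agent.S53Lib

end
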