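import Mathlib
import Fermat.Prelude.Def_GaloisRep_DeformationCondition
import Fermat.Agent.S53Lib.DefCond

set_option autoImplicit false
set_option linter.unusedSectionVars false
set_option linter.style.haveILetI false

noncomputable section

namespace Fermat.Agent.S53Lib

open IsLocalRing GaloisRep

/-! ### Basic facts on Artinian test algebras -/

section basics

variable {𝒪 : Type} [CommRing 𝒪] [IsLocalRing 𝒪]
variable {A : Type} [CommRing A] [IsLocalRing A] [Algebra 𝒪 A]

/-- Every element of a test algebra is a constant plus an element of the maximal ideal. -/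
theorem testAlg_exists_sub_mem (hA : IsArtinianTestAlgebra 𝒪 A) (a : A) :
    ∃ o : 𝒪, a - algebraMap 𝒪 A o ∈ maximalIdeal A := by
  obtain ⟨o, ho⟩ := hA.residue_surjective (residue A a)
  refine ⟨o, ?_⟩
  rw [← residue_eq_zero_iff, map_sub, sub_eq_zero]
  exact ho.symm

theorem testAlg_isNilpotent (hA : IsArtinianTestAlgebra 𝒪 A) {a : A}
    (ha : a ∈ maximalIdeal A) : IsNilpotent a := by
  haveI := hA.isArtinian
  obtain ⟨N, hN⟩ := exists_maximalIdeal_pow_eq_bot A
  refine ⟨N, ?_⟩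
  have := Ideal.pow_mem_pow ha N
  rwa [hN, Ideal.mem_bot] at this

/-- A local Artinian quotient of a local algebra with local structure map and surjective
residue map is a test algebra. -/
theorem isArtinianTestAlgebra_of_surjective {Q B : Type} [CommRing Q] [IsLocalRing Q]
    [Algebra 𝒪 Q] [CommRing B] [IsLocalRing B] [Algebra 𝒪 B] [IsArtinianRing B]
    (hloc : IsLocalHom (algebraMap 𝒪 Q))
    (hsurj : Function.Surjective (residue Q ∘ algebraMap 𝒪 Q))
    (φ : Q →ₐ[𝒪] B) (hφ : Function.Surjective φ) : IsArtinianTestAlgebra 𝒪 B where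
  isLocalHom := by
    haveI h1 : IsLocalHom (φ : Q →+* B) := IsLocalHom.of_surjective _ hφ
    have h2 : algebraMap 𝒪 B = (φ : Q →+* B).comp (algebraMap 𝒪 Q) := by
      ext o; simp
    rw [h2]
    exact RingHom.isLocalHom_comp _ _
  residue_surjective := by
    intro c
    obtain ⟨b, rfl⟩ := residue_surjective c
    obtain ⟨q, rfl⟩ := hφ b
    obtain ⟨o, ho⟩ := hsurj (residue Q q)
    refine ⟨o, ?_⟩
    haveI h1 : IsLocalHom (φ : Q →+* B) := IsLocalHom.of_surjective _ hφ
    have h3 : q - algebraMap 𝒪 Q o ∈ maximalIdeal Q := by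
      rw [← residue_eq_zero_iff, map_sub, sub_eq_zero]; exact ho.symm
    have h4 : (φ : Q →+* B) (q - algebraMap 𝒪 Q o) ∈ maximalIdeal B :=
      map_nonunit (φ : Q →+* B) _ h3
    rw [RingHom.coe_coe, map_sub, AlgHom.commutes, ← residue_eq_zero_iff, map_sub,
      sub_eq_zero] at h4
    exact h4.symm
  isArtinian := inferInstance

/-- Surjective images of test algebras are test algebras. -/
theorem testAlg_of_surjective {B : Type} [CommRing B] [IsLocalRing B] [Algebra 𝒪 B]
    (hA : IsArtinianTestAlgebra 𝒪 A) (φ : A →ₐ[𝒪] B) (hφ : Function.Surjective φ) :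
    IsArtinianTestAlgebra 𝒪 B := by
  haveI := hA.isArtinian
  haveI : IsArtinianRing B := Function.Surjective.isArtinianRing (f := (φ : A →+* B)) hφ
  exact isArtinianTestAlgebra_of_surjective hA.isLocalHom hA.residue_surjective φ hφ

/-- Proper quotients of local rings are local. -/
theorem isLocalRing_quotient {Q : Type} [CommRing Q] [IsLocalRing Q] (I : Ideal Q)
    (hI : I ≠ ⊤) : IsLocalRing (Q ⧸ I) := by
  haveI : Nontrivial (Q ⧸ I) := Ideal.Quotient.nontrivial_iff.mpr hI
  exact IsLocalRing.of_surjective' (Ideal.Quotient.mk I) Ideal.Quotient.mk_surjective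

theorem testAlg_quotient (hA : IsArtinianTestAlgebra 𝒪 A) (I : Ideal A)
    [IsLocalRing (A ⧸ I)] : IsArtinianTestAlgebra 𝒪 (A ⧸ I) :=
  testAlg_of_surjective hA (Ideal.Quotient.mkₐ 𝒪 I) Ideal.Quotient.mk_surjective

/-- Test algebras are finite rings when the residue field of `𝒪` is finite. -/
theorem testAlg_finite [Finite (ResidueField 𝒪)] (hA : IsArtinianTestAlgebra 𝒪 A) :
    Finite A := by
  haveI := hA.isArtinian
  haveI := hA.isLocalHom
  haveI : Finite (ResidueField A) := by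
    refine Finite.of_surjective (ResidueField.map (algebraMap 𝒪 A)) ?_
    intro c
    obtain ⟨o, ho⟩ := hA.residue_surjective c
    exact ⟨residue 𝒪 o, by rw [ResidueField.map_residue]; exact ho⟩
  obtain ⟨N, hN⟩ := exists_maximalIdeal_pow_eq_bot A
  have h1 : Finite (A ⧸ (⊥ : Ideal A)) := finite_quotient_iff.mpr ⟨N, hN.le⟩
  exact Finite.of_equiv _ (RingEquiv.quotientBot A).toEquiv

/-- A finite local algebra with local structure map and surjective residue map is a test
algebra. -/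
theorem testAlg_of_finite [Finite A] (hloc : IsLocalHom (algebraMap 𝒪 A))
    (hsurj : Function.Surjective (residue A ∘ algebraMap 𝒪 A)) : IsArtinianTestAlgebra 𝒪 A where
  isLocalHom := hloc
  residue_surjective := hsurj
  isArtinian := isArtinian_of_finite

end basics

/-! ### Subalgebras of test algebras -/

section subalgebra

variable {𝒪 : Type} [CommRing 𝒪] [IsLocalRing 𝒪]
variable {A : Type} [CommRing A] [IsLocalRing A] [Algebra 𝒪 A]

/-- An element of a subalgebra of a test algebra which is a unit in the big algebra is a unit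
in the subalgebra. -/
theorem testAlg_subalgebra_isUnit (hA : IsArtinianTestAlgebra 𝒪 A) (B : Subalgebra 𝒪 A)
    (x : B) (hx : IsUnit (x : A)) : IsUnit x := by
  obtain ⟨o, ho⟩ := testAlg_exists_sub_mem hA (x : A)
  have ho' : IsUnit o := by
    haveI := hA.isLocalHom
    apply isUnit_of_map_unit (algebraMap 𝒪 A)
    by_contra hcon
    have h1 : algebraMap 𝒪 A o ∈ maximalIdeal A := hcon
    have h2 : (x : A) ∈ maximalIdeal A := by
      have := (maximalIdeal A).add_mem ho h1
      rwa [sub_add_cancel] at this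
    exact h2 hx
  have hn : IsNilpotent (x - algebraMap 𝒪 B o) := by
    obtain ⟨N, hN⟩ := testAlg_isNilpotent hA ho
    refine ⟨N, Subtype.ext ?_⟩
    simpa using hN
  have hu : IsUnit (algebraMap 𝒪 B o) := ho'.map (algebraMap 𝒪 B)
  have := hn.isUnit_add_left_of_commute hu (Commute.all _ _)
  rwa [add_sub_cancel] at this

theorem testAlg_subalgebra_isLocalRing (hA : IsArtinianTestAlgebra 𝒪 A) (B : Subalgebra 𝒪 A) :
    IsLocalRing B := by
  refine IsLocalRing.of_isUnit_or_isUnit_one_sub_self fun x => ?_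
  rcases IsLocalRing.isUnit_or_isUnit_one_sub_self (x : A) with h | h
  · exact Or.inl (testAlg_subalgebra_isUnit hA B x h)
  · exact Or.inr (testAlg_subalgebra_isUnit hA B (1 - x) (by simpa using h))

theorem testAlg_subalgebra [Finite (ResidueField 𝒪)] (hA : IsArtinianTestAlgebra 𝒪 A)
    (B : Subalgebra 𝒪 A) [IsLocalRing B] : IsArtinianTestAlgebra 𝒪 B := by
  haveI : Finite A := testAlg_finite hA
  haveI : Finite B := Subtype.finite
  refine testAlg_of_finite ?_ ?_
  · constructor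
    intro o ho
    haveI := hA.isLocalHom
    apply isUnit_of_map_unit (algebraMap 𝒪 A)
    have := ho.map B.val
    simpa using this
  · intro c
    obtain ⟨y, rfl⟩ := residue_surjective c
    obtain ⟨o, ho⟩ := testAlg_exists_sub_mem hA (y : A)
    refine ⟨o, ?_⟩
    have h1 : y - algebraMap 𝒪 B o ∈ maximalIdeal B := by
      intro hu
      have := hu.map B.val
      exact ho (by simpa using this)
    rw [← residue_eq_zero_iff, map_sub, sub_eq_zero] at h1
    exact h1.symm

end subalgebra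

/-! ### Fibre products of test algebras -/

section fibre

variable {𝒪 : Type} [CommRing 𝒪] [IsLocalRing 𝒪]
variable {A B C : Type} [CommRing A] [IsLocalRing A] [Algebra 𝒪 A]
  [CommRing B] [IsLocalRing B] [Algebra 𝒪 B] [CommRing C] [IsLocalRing C] [Algebra 𝒪 C]

/-- The fibre product of two algebra homomorphisms, as a subalgebra of the product. -/
def fibreProd (f : A →ₐ[𝒪] C) (g : B →ₐ[𝒪] C) : Subalgebra 𝒪 (A × B) :=
  AlgHom.equalizer (f.comp (AlgHom.fst 𝒪 A B)) (g.comp (AlgHom.snd 𝒪 A B))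

theorem mem_fibreProd (f : A →ₐ[𝒪] C) (g : B →ₐ[𝒪] C) (x : A × B) :
    x ∈ fibreProd f g ↔ f x.1 = g x.2 := Iff.rfl

/-- First projection of the fibre product. -/
def fibreProdFst (f : A →ₐ[𝒪] C) (g : B →ₐ[𝒪] C) : fibreProd f g →ₐ[𝒪] A :=
  (AlgHom.fst 𝒪 A B).comp (fibreProd f g).val

/-- Second projection of the fibre product. -/
def fibreProdSnd (f : A →ₐ[𝒪] C) (g : B →ₐ[𝒪] C) : fibreProd f g →ₐ[𝒪] B :=
  (AlgHom.snd 𝒪 A B).comp (fibreProd f g).val

theorem fibreProdFst_apply (f : A →ₐ[𝒪] C) (g : B →ₐ[𝒪] C) (x : fibreProd f g) :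
    fibreProdFst f g x = (x : A × B).1 := rfl

theorem fibreProdSnd_apply (f : A →ₐ[𝒪] C) (g : B →ₐ[𝒪] C) (x : fibreProd f g) :
    fibreProdSnd f g x = (x : A × B).2 := rfl

theorem fibreProd_comm (f : A →ₐ[𝒪] C) (g : B →ₐ[𝒪] C) :
    f.comp (fibreProdFst f g) = g.comp (fibreProdSnd f g) := by
  ext x
  exact x.2

theorem fibreProd_injective (f : A →ₐ[𝒪] C) (g : B →ₐ[𝒪] C) :
    Function.Injective (fun x : fibreProd f g => (fibreProdFst f g x, fibreProdSnd f g x)) := by
  intro x y h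
  exact Subtype.ext h

theorem fibreProd_surjective (f : A →ₐ[𝒪] C) (g : B →ₐ[𝒪] C) (a : A) (b : B)
    (h : f a = g b) : ∃ x : fibreProd f g, fibreProdFst f g x = a ∧ fibreProdSnd f g x = b :=
  ⟨⟨(a, b), h⟩, rfl, rfl⟩

/-- An element of the fibre product whose first component is a unit is a unit. -/
theorem fibreProd_isUnit (hB : IsArtinianTestAlgebra 𝒪 B) (f : A →ₐ[𝒪] C) (g : B →ₐ[𝒪] C)
    (x : fibreProd f g) (hx : IsUnit (x : A × B).1) : IsUnit x := by
  haveI := hB.isArtinian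
  haveI : IsLocalHom (g : B →+* C) := isLocalHom_of_isArtinianRing _
  have hmem : f (x : A × B).1 = g (x : A × B).2 := x.2
  have hb : IsUnit (x : A × B).2 := by
    apply isUnit_of_map_unit (g : B →+* C)
    show IsUnit (g (x : A × B).2)
    rw [← hmem]
    exact hx.map f
  obtain ⟨a', ha'⟩ := hx.exists_right_inv
  obtain ⟨b', hb'⟩ := hb.exists_right_inv
  have hy : (a', b') ∈ fibreProd f g := by
    show f a' = g b'
    have h1 : f (x : A × B).1 * f a' = 1 := by rw [← map_mul, ha', map_one]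
    have h2 : f (x : A × B).1 * g b' = 1 := by rw [hmem, ← map_mul, hb', map_one]
    have hu : IsUnit (f (x : A × B).1) := hx.map f
    exact hu.mul_left_cancel (h1.trans h2.symm)
  refine IsUnit.of_mul_eq_one (⟨(a', b'), hy⟩ : fibreProd f g) ?_
  exact Subtype.ext (Prod.ext ha' hb')

theorem fibreProd_isLocalRing (hB : IsArtinianTestAlgebra 𝒪 B) (f : A →ₐ[𝒪] C)
    (g : B →ₐ[𝒪] C) : IsLocalRing (fibreProd f g) := by
  haveI : Nontrivial (fibreProd f g) := by
    refine ⟨⟨0, 1, fun h => ?_⟩⟩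
    have h1 := congrArg (fun x : fibreProd f g => (x : A × B).1) h
    exact zero_ne_one h1
  refine IsLocalRing.of_isUnit_or_isUnit_one_sub_self fun x => ?_
  rcases IsLocalRing.isUnit_or_isUnit_one_sub_self (x : A × B).1 with h | h
  · exact Or.inl (fibreProd_isUnit hB f g x h)
  · exact Or.inr (fibreProd_isUnit hB f g (1 - x) h)

theorem fibreProd_testAlg [Finite (ResidueField 𝒪)] (hA : IsArtinianTestAlgebra 𝒪 A)
    (hB : IsArtinianTestAlgebra 𝒪 B) (f : A →ₐ[𝒪] C) (g : B →ₐ[𝒪] C)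
    [IsLocalRing (fibreProd f g)] : IsArtinianTestAlgebra 𝒪 (fibreProd f g) := by
  haveI : Finite A := testAlg_finite hA
  haveI : Finite B := testAlg_finite hB
  haveI : Finite (fibreProd f g) := Subtype.finite
  refine testAlg_of_finite ?_ ?_
  · constructor
    intro o ho
    haveI := hA.isLocalHom
    apply isUnit_of_map_unit (algebraMap 𝒪 A)
    have := ho.map (fibreProdFst f g)
    simpa using this
  · intro c
    obtain ⟨y, rfl⟩ := residue_surjective c
    obtain ⟨o, ho⟩ := testAlg_exists_sub_mem hA (y : A × B).1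
    refine ⟨o, ?_⟩
    have h1 : y - algebraMap 𝒪 (fibreProd f g) o ∈ maximalIdeal (fibreProd f g) := by
      intro hu
      have h2 := hu.map (fibreProdFst f g)
      rw [map_sub, AlgHom.commutes] at h2
      exact ho h2
    rw [← residue_eq_zero_iff, map_sub, sub_eq_zero] at h1
    exact h1.symm

end fibre

/-! ### The residue field as a test algebra -/

section resfield

variable {𝒪 : Type} [CommRing 𝒪] [IsLocalRing 𝒪]
variable {A : Type} [CommRing A] [IsLocalRing A] [Algebra 𝒪 A]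

/-- The residue map as an algebra homomorphism. -/
def residueAlgHom (𝒪 A : Type) [CommRing 𝒪] [CommRing A] [IsLocalRing A] [Algebra 𝒪 A] :
    A →ₐ[𝒪] ResidueField A :=
  IsScalarTower.toAlgHom 𝒪 A (ResidueField A)

theorem residueAlgHom_apply (a : A) : residueAlgHom 𝒪 A a = residue A a := rfl

theorem residueAlgHom_surjective : Function.Surjective (residueAlgHom 𝒪 A) :=
  residue_surjective

theorem testAlg_residueField (hA : IsArtinianTestAlgebra 𝒪 A) :
    IsArtinianTestAlgebra 𝒪 (ResidueField A) :=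
  testAlg_of_surjective hA (residueAlgHom 𝒪 A) residueAlgHom_surjective

end resfield

/-! ### The fibre square of quotients by two ideals -/

section quotSquare

variable {𝒪 Q : Type} [CommRing 𝒪] [CommRing Q] [Algebra 𝒪 Q] (K₁ K₂ : Ideal Q)

theorem quotSquare_comm :
    (Ideal.Quotient.factorₐ 𝒪 (le_sup_left : K₁ ≤ K₁ ⊔ K₂)).comp
        (Ideal.Quotient.factorₐ 𝒪 (inf_le_left : K₁ ⊓ K₂ ≤ K₁)) =
      (Ideal.Quotient.factorₐ 𝒪 (le_sup_right : K₂ ≤ K₁ ⊔ K₂)).comp
        (Ideal.Quotient.factorₐ 𝒪 (inf_le_right : K₁ ⊓ K₂ ≤ K₂)) := by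
  apply AlgHom.ext
  intro x
  obtain ⟨q, rfl⟩ := Ideal.Quotient.mk_surjective x
  rfl

theorem quotSquare_injective :
    Function.Injective (fun x : Q ⧸ (K₁ ⊓ K₂) =>
      (Ideal.Quotient.factorₐ 𝒪 (inf_le_left : K₁ ⊓ K₂ ≤ K₁) x,
        Ideal.Quotient.factorₐ 𝒪 (inf_le_right : K₁ ⊓ K₂ ≤ K₂) x)) := by
  intro x y h
  obtain ⟨p, rfl⟩ := Ideal.Quotient.mk_surjective x
  obtain ⟨q, rfl⟩ := Ideal.Quotient.mk_surjective y
  have h1 : Ideal.Quotient.mk K₁ p = Ideal.Quotient.mk K₁ q := congrArg Prod.fst h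
  have h2 : Ideal.Quotient.mk K₂ p = Ideal.Quotient.mk K₂ q := congrArg Prod.snd h
  rw [Ideal.Quotient.eq] at h1 h2 ⊢
  exact ⟨h1, h2⟩

theorem quotSquare_surjective (a : Q ⧸ K₁) (b : Q ⧸ K₂)
    (h : Ideal.Quotient.factorₐ 𝒪 (le_sup_left : K₁ ≤ K₁ ⊔ K₂) a =
      Ideal.Quotient.factorₐ 𝒪 (le_sup_right : K₂ ≤ K₁ ⊔ K₂) b) :
    ∃ x : Q ⧸ (K₁ ⊓ K₂), Ideal.Quotient.factorₐ 𝒪 (inf_le_left : K₁ ⊓ K₂ ≤ K₁) x = a ∧
      Ideal.Quotient.factorₐ 𝒪 (inf_le_right : K₁ ⊓ K₂ ≤ K₂) x = b := by
  obtain ⟨p, rfl⟩ := Ideal.Quotient.mk_surjective a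
  obtain ⟨q, rfl⟩ := Ideal.Quotient.mk_surjective b
  have h1 : Ideal.Quotient.mk (K₁ ⊔ K₂) p = Ideal.Quotient.mk (K₁ ⊔ K₂) q := h
  rw [Ideal.Quotient.eq, Submodule.mem_sup] at h1
  obtain ⟨j₁, hj₁, j₂, hj₂, hj⟩ := h1
  refine ⟨Ideal.Quotient.mk (K₁ ⊓ K₂) (p - j₁), ?_, ?_⟩
  · show Ideal.Quotient.mk K₁ (p - j₁) = Ideal.Quotient.mk K₁ p
    rw [Ideal.Quotient.eq]
    simpa using K₁.neg_mem hj₁
  · show Ideal.Quotient.mk K₂ (p - j₁) = Ideal.Quotient.mk K₂ q
    rw [Ideal.Quotient.eq]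
    have : p - j₁ - q = j₂ := by linear_combination -hj
    rw [this]
    exact hj₂

end quotSquare

end Fermat.Agent.S53Lib
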