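import Mathlib
import Fermat.Agent.S53Lib.RigidDefs
import Fermat.Agent.S53Lib.TestAlg

set_option autoImplicit false
set_option linter.unusedSectionVars false
set_option linter.style.haveILetI false

/-!
# Separating subalgebras of test algebras by maps to the dual numbers (E3)

If `B` is a proper `𝒪`-subalgebra of an Artinian test algebra `C`, there are two distinct
`𝒪`-algebra homomorphisms `C → k[ε]` agreeing on `B`.
-/

noncomputable section

namespace Fermat.Agent.S53Lib

open IsLocalRing GaloisRep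

namespace PsiLam

variable {𝒪 : Type} [CommRing 𝒪] [IsLocalRing 𝒪]
variable {C : Type} [CommRing C] [IsLocalRing C] [Algebra 𝒪 C]

/-- The `𝒪`-submodule `B + 𝔪_C ^ 2` of `C`. -/
def subSq (B : Subalgebra 𝒪 C) : Submodule 𝒪 C :=
  Subalgebra.toSubmodule B ⊔ ((maximalIdeal C) ^ 2).restrictScalars 𝒪

theorem mem_subSq_of_mem {B : Subalgebra 𝒪 C} {b : C} (hb : b ∈ B) : b ∈ subSq B :=
  Submodule.mem_sup_left hb

theorem mem_subSq_of_mem_sq {B : Subalgebra 𝒪 C} {y : C} (hy : y ∈ maximalIdeal C ^ 2) :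
    y ∈ subSq B :=
  Submodule.mem_sup_right hy

/-- Key step: if `B + 𝔪² = C` then `𝔪 ^ n ⊆ B + 𝔪 ^ (n + 1)` for all `n ≥ 1`. -/
theorem pow_le_sup_pow_succ (B : Subalgebra 𝒪 C) (h : subSq B = ⊤) (n : ℕ) :
    ((maximalIdeal C) ^ (n + 1)).restrictScalars 𝒪 ≤
      Subalgebra.toSubmodule B ⊔ ((maximalIdeal C) ^ (n + 2)).restrictScalars 𝒪 := by
  induction n with
  | zero =>
    intro x _
    have hx : x ∈ subSq B := h ▸ Submodule.mem_top
    exact hx
  | succ n ih =>
    intro x hx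
    have hx' : x ∈ maximalIdeal C * maximalIdeal C ^ (n + 1) := by
      rw [← pow_succ']; exact hx
    refine Submodule.mul_induction_on hx' ?_ ?_
    · intro m hm z hz
      -- decompose `m` and `z`
      have hm' : m ∈ subSq B := h ▸ Submodule.mem_top
      obtain ⟨b, hb, y, hy, rfl⟩ := Submodule.mem_sup.mp hm'
      obtain ⟨b', hb', z', hz', rfl⟩ := Submodule.mem_sup.mp (ih hz)
      have hy' : y ∈ maximalIdeal C ^ 2 := hy
      have hz'' : z' ∈ maximalIdeal C ^ (n + 2) := hz'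
      have hbm : b ∈ maximalIdeal C := by
        have : b = (b + y) - y := by ring
        rw [this]
        exact Ideal.sub_mem _ hm (Ideal.pow_le_self two_ne_zero hy')
      have hbz : b' + z' ∈ maximalIdeal C ^ (n + 1) := hz
      have e : (b + y) * (b' + z') = b * b' + (b * z' + y * (b' + z')) := by ring
      rw [e]
      refine Submodule.add_mem _ (Submodule.mem_sup_left (B.mul_mem hb hb'))
        (Submodule.mem_sup_right ?_)
      show b * z' + y * (b' + z') ∈ maximalIdeal C ^ (n + 1 + 2)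
      refine Ideal.add_mem _ ?_ ?_
      · have : b * z' ∈ maximalIdeal C * maximalIdeal C ^ (n + 2) := Ideal.mul_mem_mul hbm hz''
        rwa [← pow_succ'] at this
      · have : y * (b' + z') ∈ maximalIdeal C ^ 2 * maximalIdeal C ^ (n + 1) :=
          Ideal.mul_mem_mul hy' hbz
        rw [← pow_add] at this
        have e2 : 2 + (n + 1) = n + 1 + 2 := by omega
        rwa [e2] at this
    · intro x y hx hy
      exact Submodule.add_mem _ hx hy

theorem sup_pow_eq_top (B : Subalgebra 𝒪 C) (h : subSq B = ⊤) (n : ℕ) :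
    Subalgebra.toSubmodule B ⊔ ((maximalIdeal C) ^ (n + 2)).restrictScalars 𝒪 = ⊤ := by
  induction n with
  | zero => exact h
  | succ n ih =>
    rw [eq_top_iff, ← ih]
    exact sup_le le_sup_left (pow_le_sup_pow_succ B h (n + 1))

/-- **Claim 1**: a proper subalgebra of an Artinian local algebra satisfies `B + 𝔪² ≠ C`. -/
theorem subSq_ne_top [IsArtinianRing C] (B : Subalgebra 𝒪 C) (hB : B ≠ ⊤) : subSq B ≠ ⊤ := by
  intro h
  apply hB
  obtain ⟨N, hN⟩ := exists_maximalIdeal_pow_eq_bot C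
  have h1 := sup_pow_eq_top B h N
  have h2 : maximalIdeal C ^ (N + 2) = ⊥ := by
    rw [pow_add, hN, Ideal.bot_mul]
  rw [h2] at h1
  have h3 : ((⊥ : Ideal C)).restrictScalars 𝒪 = (⊥ : Submodule 𝒪 C) := by
    ext x
    simp
  rw [h3, sup_bot_eq] at h1
  rw [eq_top_iff]
  intro x _
  have : x ∈ Subalgebra.toSubmodule B := h1 ▸ Submodule.mem_top
  exact this

/-- The residue map of a test algebra, with values in the residue field of `𝒪`. -/
def resO (hC : IsArtinianTestAlgebra 𝒪 C) : C →+* ResidueField 𝒪 :=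
  haveI := hC.isLocalHom
  ((RingEquiv.ofBijective (ResidueField.map (algebraMap 𝒪 C))
    ⟨RingHom.injective _, fun y => by
      obtain ⟨o, ho⟩ := hC.residue_surjective y
      exact ⟨residue 𝒪 o, ho⟩⟩).symm : ResidueField C →+* ResidueField 𝒪).comp (residue C)

theorem resO_algebraMap (hC : IsArtinianTestAlgebra 𝒪 C) (o : 𝒪) :
    resO hC (algebraMap 𝒪 C o) = residue 𝒪 o := by
  haveI := hC.isLocalHom
  unfold resO
  rw [RingHom.comp_apply]
  show (RingEquiv.ofBijective (ResidueField.map (algebraMap 𝒪 C)) _).symm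
    (residue C (algebraMap 𝒪 C o)) = residue 𝒪 o
  rw [RingEquiv.symm_apply_eq]
  rfl

theorem resO_eq_zero (hC : IsArtinianTestAlgebra 𝒪 C) {x : C} (hx : x ∈ maximalIdeal C) :
    resO hC x = 0 := by
  unfold resO
  rw [RingHom.comp_apply, (residue_eq_zero_iff x).mpr hx, map_zero]

theorem algebraMap_mem_maximalIdeal (hC : IsArtinianTestAlgebra 𝒪 C) {o : 𝒪}
    (ho : o ∈ maximalIdeal 𝒪) : algebraMap 𝒪 C o ∈ maximalIdeal C := by
  haveI := hC.isLocalHom
  intro hu
  exact ho (isUnit_of_map_unit (algebraMap 𝒪 C) o hu)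

/-- `C ⧸ (B + 𝔪²)` is killed by the maximal ideal of `𝒪`. -/
theorem smul_mem_subSq (hC : IsArtinianTestAlgebra 𝒪 C) (B : Subalgebra 𝒪 C) {o : 𝒪}
    (ho : o ∈ maximalIdeal 𝒪) (c : C) : o • c ∈ subSq B := by
  obtain ⟨o', ho'⟩ := testAlg_exists_sub_mem hC c
  have e : o • c = algebraMap 𝒪 C (o * o') + algebraMap 𝒪 C o * (c - algebraMap 𝒪 C o') := by
    rw [Algebra.smul_def, map_mul]; ring
  rw [e]
  refine Submodule.add_mem _ (mem_subSq_of_mem (B.algebraMap_mem _)) (mem_subSq_of_mem_sq ?_)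
  rw [pow_two]
  exact Ideal.mul_mem_mul (algebraMap_mem_maximalIdeal hC ho) ho'

/-- A nonzero `𝒪`-linear functional on `C` with values in the residue field of `𝒪`,
vanishing on `B + 𝔪²`. -/
theorem exists_functional (hC : IsArtinianTestAlgebra 𝒪 C) (B : Subalgebra 𝒪 C) (hB : B ≠ ⊤) :
    ∃ D : C →ₗ[𝒪] ResidueField 𝒪, (∀ c ∈ subSq B, D c = 0) ∧ ∃ c₀, D c₀ ≠ 0 := by
  haveI := hC.isArtinian
  have hne := subSq_ne_top B hB
  obtain ⟨c₀, hc₀⟩ : ∃ c₀ : C, c₀ ∉ subSq B := by
    by_contra hcon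
    push Not at hcon
    exact hne (eq_top_iff.mpr fun x _ => hcon x)
  have htors : Module.IsTorsionBySet 𝒪 (C ⧸ subSq B) (maximalIdeal 𝒪 : Set 𝒪) := by
    intro v a
    obtain ⟨c, rfl⟩ := Submodule.Quotient.mk_surjective _ v
    rw [← Submodule.Quotient.mk_smul, Submodule.Quotient.mk_eq_zero]
    exact smul_mem_subSq hC B a.2 c
  letI : Module (ResidueField 𝒪) (C ⧸ subSq B) := htors.module
  have hv₀ : (Submodule.Quotient.mk c₀ : C ⧸ subSq B) ≠ 0 := by
    rw [Ne, Submodule.Quotient.mk_eq_zero]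
    exact hc₀
  obtain ⟨f, hf⟩ : ∃ f : Module.Dual (ResidueField 𝒪) (C ⧸ subSq B),
      f (Submodule.Quotient.mk c₀) ≠ 0 := by
    by_contra hcon
    push Not at hcon
    exact hv₀ ((Module.forall_dual_apply_eq_zero_iff (ResidueField 𝒪) _).mp hcon)
  refine ⟨{ toFun := fun c => f (Submodule.Quotient.mk c)
            map_add' := fun x y => by rw [Submodule.Quotient.mk_add, map_add]
            map_smul' := fun o c => ?_ }, ?_, c₀, hf⟩
  · have h1 : (Submodule.Quotient.mk (o • c) : C ⧸ subSq B) =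
        (residue 𝒪 o) • (Submodule.Quotient.mk c : C ⧸ subSq B) := rfl
    rw [h1, map_smul, RingHom.id_apply, Algebra.smul_def]
    rfl
  · intro c hc
    show f (Submodule.Quotient.mk c) = 0
    rw [(Submodule.Quotient.mk_eq_zero _).mpr hc, map_zero]

/-- Leibniz rule for a functional vanishing on `B + 𝔪²`. -/
theorem leibniz (hC : IsArtinianTestAlgebra 𝒪 C) (B : Subalgebra 𝒪 C)
    (D : C →ₗ[𝒪] ResidueField 𝒪) (hD : ∀ c ∈ subSq B, D c = 0) (c c' : C) :
    D (c * c') = resO hC c * D c' + resO hC c' * D c := by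
  obtain ⟨o, ho⟩ := testAlg_exists_sub_mem hC c
  obtain ⟨o', ho'⟩ := testAlg_exists_sub_mem hC c'
  have e : c * c' = o • c' + o' • (c - algebraMap 𝒪 C o) +
      (c - algebraMap 𝒪 C o) * (c' - algebraMap 𝒪 C o') := by
    rw [Algebra.smul_def, Algebra.smul_def]; ring
  have h1 : D ((c - algebraMap 𝒪 C o) * (c' - algebraMap 𝒪 C o')) = 0 :=
    hD _ (mem_subSq_of_mem_sq (by rw [pow_two]; exact Ideal.mul_mem_mul ho ho'))
  have h2 : D (c - algebraMap 𝒪 C o) = D c := by
    rw [map_sub, hD _ (mem_subSq_of_mem (B.algebraMap_mem o)), sub_zero]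
  have h3 : resO hC c = residue 𝒪 o := by
    have := resO_eq_zero hC ho
    rwa [map_sub, resO_algebraMap, sub_eq_zero] at this
  have h4 : resO hC c' = residue 𝒪 o' := by
    have := resO_eq_zero hC ho'
    rwa [map_sub, resO_algebraMap, sub_eq_zero] at this
  rw [e, map_add, map_add, map_smul, map_smul, h1, h2, h3, h4, add_zero, Algebra.smul_def,
    Algebra.smul_def]
  rfl

/-- The algebra map `c ↦ resO c + D c • ε` into the dual numbers. -/
def psi (hC : IsArtinianTestAlgebra 𝒪 C) (B : Subalgebra 𝒪 C)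
    (D : C →ₗ[𝒪] ResidueField 𝒪) (hD : ∀ c ∈ subSq B, D c = 0) :
    letI := dualNumberAlgebra 𝒪
    C →ₐ[𝒪] DualNumber (ResidueField 𝒪) :=
  letI := dualNumberAlgebra 𝒪
  { toFun := fun c => TrivSqZeroExt.inl (resO hC c) + TrivSqZeroExt.inr (D c)
    map_one' := by
      rw [hD 1 (mem_subSq_of_mem B.one_mem), map_one, TrivSqZeroExt.inr_zero, add_zero,
        TrivSqZeroExt.inl_one]
    map_mul' := fun c c' => by
      apply TrivSqZeroExt.ext
      · simp
      · simp only [TrivSqZeroExt.snd_add, TrivSqZeroExt.snd_inl, TrivSqZeroExt.snd_inr, zero_add,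
          TrivSqZeroExt.snd_mul, TrivSqZeroExt.fst_add, TrivSqZeroExt.fst_inl,
          TrivSqZeroExt.fst_inr, add_zero, smul_eq_mul, MulOpposite.smul_eq_mul_unop,
          MulOpposite.unop_op]
        rw [leibniz hC B D hD c c']
        ring
    map_zero' := by
      rw [map_zero, map_zero, TrivSqZeroExt.inr_zero, add_zero, TrivSqZeroExt.inl_zero]
    map_add' := fun c c' => by
      rw [map_add, map_add, TrivSqZeroExt.inl_add, TrivSqZeroExt.inr_add]
      abel
    commutes' := fun o => by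
      show TrivSqZeroExt.inl (resO hC (algebraMap 𝒪 C o)) +
        TrivSqZeroExt.inr (D (algebraMap 𝒪 C o)) = TrivSqZeroExt.inl (residue 𝒪 o)
      rw [resO_algebraMap, hD _ (mem_subSq_of_mem (B.algebraMap_mem o)), TrivSqZeroExt.inr_zero,
        add_zero] }

theorem psi_apply (hC : IsArtinianTestAlgebra 𝒪 C) (B : Subalgebra 𝒪 C)
    (D : C →ₗ[𝒪] ResidueField 𝒪) (hD : ∀ c ∈ subSq B, D c = 0) (c : C) :
    psi hC B D hD c = TrivSqZeroExt.inl (resO hC c) + TrivSqZeroExt.inr (D c) :=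
  rfl

end PsiLam

/-- **E3** (`psi_lam`): a proper subalgebra of an Artinian test algebra is separated from the
whole algebra by two distinct algebra maps to the dual numbers. -/
theorem exists_algHom_ne_of_subalgebra_ne_top {𝒪 : Type} [CommRing 𝒪] [IsLocalRing 𝒪]
    {C : Type} [CommRing C] [IsLocalRing C] [Algebra 𝒪 C] (hC : IsArtinianTestAlgebra 𝒪 C)
    (B : Subalgebra 𝒪 C) (hB : B ≠ ⊤) :
    letI := dualNumberAlgebra 𝒪
    ∃ ψ₁ ψ₂ : C →ₐ[𝒪] DualNumber (ResidueField 𝒪), ψ₁ ≠ ψ₂ ∧ ∀ b ∈ B, ψ₁ b = ψ₂ b := by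
  letI := dualNumberAlgebra 𝒪
  obtain ⟨D, hD, c₀, hc₀⟩ := PsiLam.exists_functional hC B hB
  refine ⟨PsiLam.psi hC B D hD, PsiLam.psi hC B 0 (fun _ _ => rfl), ?_, ?_⟩
  · intro h
    apply hc₀
    have h1 := congrArg (fun ψ : C →ₐ[𝒪] DualNumber (ResidueField 𝒪) => (ψ c₀).snd) h
    simpa [PsiLam.psi_apply] using h1
  · intro b hb
    rw [PsiLam.psi_apply, PsiLam.psi_apply, hD b (PsiLam.mem_subSq_of_mem hb)]
    rfl

end Fermat.Agent.S53Lib
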