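import Mathlib
import Fermat.Agent.S53Lib.RigidDefs
import Fermat.Agent.S53Lib.TestAlg
import Fermat.Agent.S53Lib.PsiLam
import Fermat.Agent.S53Lib.PowerSeries

set_option autoImplicit false
set_option linter.unusedSectionVars false
set_option linter.style.haveILetI false

/-!
# Bundled test algebras

`IsTest 𝒪 T` says that the `𝒪`-algebra `T` is a local ring and an Artinian test algebra, without
requiring an `IsLocalRing` instance on `T`. This avoids instance juggling for quotients,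
subalgebras and fibre products.
-/

noncomputable section

namespace Fermat.Agent.S53Lib.Abs

open IsLocalRing GaloisRep Fermat.Agent.S53Lib

variable {𝒪 : Type} [CommRing 𝒪] [IsLocalRing 𝒪]

/-- `T` is a local ring and an Artinian test algebra over `𝒪`. -/
def IsTest (𝒪 : Type) [CommRing 𝒪] [IsLocalRing 𝒪] (T : Type) [CommRing T] [Algebra 𝒪 T] : Prop :=
  ∃ h : IsLocalRing T, @IsArtinianTestAlgebra 𝒪 _ T _ h _

theorem IsTest.finite [Finite (ResidueField 𝒪)] {T : Type} [CommRing T] [Algebra 𝒪 T]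
    (h : IsTest 𝒪 T) : Finite T := by
  obtain ⟨h1, h2⟩ := h
  letI := h1
  exact testAlg_finite h2

/-- Criterion: a nontrivial Artinian `𝒪`-algebra which is `𝒪 + 𝔫` for a nil ideal `𝔫` is a
test algebra. -/
theorem isTest_of_nil {T : Type} [CommRing T] [Algebra 𝒪 T] [Nontrivial T] [IsArtinianRing T]
    (𝔫 : Ideal T) (hnil : ∀ x ∈ 𝔫, IsNilpotent x)
    (hres : ∀ t : T, ∃ c : 𝒪, t - algebraMap 𝒪 T c ∈ 𝔫) : IsTest 𝒪 T := by
  -- (1) constants from the maximal ideal are not units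
  have h1 : ∀ c : 𝒪, IsUnit (algebraMap 𝒪 T c) → IsUnit c := by
    intro c hc
    by_contra hcu
    have hcm : c ∈ maximalIdeal 𝒪 := hcu
    obtain ⟨s, hs⟩ := hc.exists_right_inv
    obtain ⟨d, hd⟩ := hres s
    have hu : IsUnit (1 - c * d) := by
      by_contra hnu
      have h1m : (1 - c * d) ∈ maximalIdeal 𝒪 := hnu
      have : (1 : 𝒪) ∈ maximalIdeal 𝒪 := by
        have := Ideal.add_mem _ h1m (Ideal.mul_mem_right d _ hcm)
        rwa [sub_add_cancel] at this
      exact (Ideal.ne_top_iff_one _).mp (Ideal.IsMaximal.ne_top inferInstance) this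
    have hmem : algebraMap 𝒪 T (1 - c * d) ∈ 𝔫 := by
      have e : algebraMap 𝒪 T (1 - c * d) = algebraMap 𝒪 T c * (s - algebraMap 𝒪 T d) := by
        rw [map_sub, map_one, map_mul, mul_sub, hs]
      rw [e]
      exact Ideal.mul_mem_left _ _ hd
    exact (hu.map (algebraMap 𝒪 T)).not_isNilpotent (hnil _ hmem)
  -- (2) units are detected by the constant
  have h2 : ∀ (t : T) (c : 𝒪), t - algebraMap 𝒪 T c ∈ 𝔫 → (IsUnit t ↔ IsUnit c) := by
    intro t c htc
    constructor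
    · intro ht
      apply h1
      have e : algebraMap 𝒪 T c = -(t - algebraMap 𝒪 T c) + t := by ring
      rw [e]
      exact (hnil _ htc).neg.isUnit_add_right_of_commute ht (Commute.all _ _)
    · intro hc
      have e : t = (t - algebraMap 𝒪 T c) + algebraMap 𝒪 T c := by ring
      rw [e]
      exact (hnil _ htc).isUnit_add_right_of_commute (hc.map (algebraMap 𝒪 T)) (Commute.all _ _)
  have hloc : IsLocalRing T := by
    apply IsLocalRing.of_nonunits_add
    intro a b ha hb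
    obtain ⟨ca, hca⟩ := hres a
    obtain ⟨cb, hcb⟩ := hres b
    have hca' : ¬ IsUnit ca := fun h => ha ((h2 a ca hca).mpr h)
    have hcb' : ¬ IsUnit cb := fun h => hb ((h2 b cb hcb).mpr h)
    have hab : a + b - algebraMap 𝒪 T (ca + cb) ∈ 𝔫 := by
      have e : a + b - algebraMap 𝒪 T (ca + cb) =
          (a - algebraMap 𝒪 T ca) + (b - algebraMap 𝒪 T cb) := by
        rw [map_add]; ring
      rw [e]
      exact Ideal.add_mem _ hca hcb
    intro hu
    have : IsUnit (ca + cb) := (h2 _ _ hab).mp hu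
    have hmem : ca + cb ∈ maximalIdeal 𝒪 :=
      Ideal.add_mem _ (show ca ∈ maximalIdeal 𝒪 from hca') (show cb ∈ maximalIdeal 𝒪 from hcb')
    exact hmem this
  refine ⟨hloc, ⟨⟨fun c hc => h1 c hc⟩, ?_, inferInstance⟩⟩
  intro y
  obtain ⟨t, rfl⟩ := @IsLocalRing.residue_surjective T _ hloc y
  obtain ⟨c, hc⟩ := hres t
  refine ⟨c, ?_⟩
  rw [Function.comp_apply, ← sub_eq_zero, ← map_sub]
  rw [@IsLocalRing.residue_eq_zero_iff T _ hloc]
  have : t - algebraMap 𝒪 T c ∈ @maximalIdeal T _ hloc := by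
    intro hu
    exact hu.not_isNilpotent (hnil _ hc)
  rw [← Ideal.neg_mem_iff, neg_sub] at this
  exact this

theorem IsTest.of_injective [Finite (ResidueField 𝒪)] {T A : Type} [CommRing T] [Algebra 𝒪 T]
    [CommRing A] [Algebra 𝒪 A] (hA : IsTest 𝒪 A) (φ : T →ₐ[𝒪] A)
    (hφ : Function.Injective φ) : IsTest 𝒪 T := by
  haveI := hA.finite
  obtain ⟨hAl, hA'⟩ := hA
  letI := hAl
  haveI : Finite T := Finite.of_injective φ hφ
  haveI : IsArtinianRing T := isArtinian_of_finite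
  haveI : Nontrivial T := ⟨⟨0, 1, fun h => by
    have := congrArg φ h
    rw [map_zero, map_one] at this
    exact zero_ne_one this⟩⟩
  refine isTest_of_nil (Ideal.comap φ (maximalIdeal A)) ?_ ?_
  · intro x hx
    obtain ⟨N, hN⟩ := testAlg_isNilpotent hA' (Ideal.mem_comap.mp hx)
    refine ⟨N, hφ ?_⟩
    rw [map_pow, hN, map_zero]
  · intro t
    obtain ⟨c, hc⟩ := testAlg_exists_sub_mem hA' (φ t)
    refine ⟨c, ?_⟩
    rw [Ideal.mem_comap, map_sub, AlgHom.commutes]
    exact hc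

theorem IsTest.of_surjective {A T : Type} [CommRing T] [Algebra 𝒪 T] [CommRing A] [Algebra 𝒪 A]
    (hA : IsTest 𝒪 A) (φ : A →ₐ[𝒪] T) (hφ : Function.Surjective φ) [Nontrivial T] :
    IsTest 𝒪 T := by
  obtain ⟨hAl, hA'⟩ := hA
  letI := hAl
  have hT : IsLocalRing T := IsLocalRing.of_surjective' (φ : A →+* T) hφ
  letI := hT
  exact ⟨hT, testAlg_of_surjective hA' φ hφ⟩

theorem IsTest.of_fibre [Finite (ResidueField 𝒪)] {P A B C : Type} [CommRing P] [Algebra 𝒪 P]
    [CommRing A] [Algebra 𝒪 A] [CommRing B] [Algebra 𝒪 B] [CommRing C] [Algebra 𝒪 C]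
    (hA : IsTest 𝒪 A) (hB : IsTest 𝒪 B) (hC : IsTest 𝒪 C) (f : A →ₐ[𝒪] C) (g : B →ₐ[𝒪] C)
    (pA : P →ₐ[𝒪] A) (pB : P →ₐ[𝒪] B) (hcomm : f.comp pA = g.comp pB)
    (hinj : Function.Injective (fun x => (pA x, pB x))) : IsTest 𝒪 P := by
  haveI := hA.finite
  haveI := hB.finite
  obtain ⟨hAl, hA'⟩ := hA
  obtain ⟨hBl, hB'⟩ := hB
  obtain ⟨hCl, hC'⟩ := hC
  letI := hAl
  letI := hBl
  letI := hCl
  haveI : Finite P := Finite.of_injective _ hinj
  haveI : IsArtinianRing P := isArtinian_of_finite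
  haveI : Nontrivial P := ⟨⟨0, 1, fun h => by
    have := congrArg pA h
    rw [map_zero, map_one] at this
    exact zero_ne_one this⟩⟩
  refine isTest_of_nil (Ideal.comap pA (maximalIdeal A) ⊓ Ideal.comap pB (maximalIdeal B)) ?_ ?_
  · rintro x ⟨hxA, hxB⟩
    obtain ⟨N, hN⟩ := testAlg_isNilpotent hA' (Ideal.mem_comap.mp hxA)
    obtain ⟨M, hM⟩ := testAlg_isNilpotent hB' (Ideal.mem_comap.mp hxB)
    refine ⟨N + M, hinj ?_⟩
    show (pA (x ^ (N + M)), pB (x ^ (N + M))) = (pA 0, pB 0)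
    rw [map_pow, map_pow, map_zero, map_zero, pow_add, hN, zero_mul, pow_add, hM, mul_zero]
  · intro t
    obtain ⟨c, hc⟩ := testAlg_exists_sub_mem hA' (pA t)
    refine ⟨c, ⟨?_, ?_⟩⟩
    · show pA (t - algebraMap 𝒪 P c) ∈ maximalIdeal A
      rw [map_sub, AlgHom.commutes]
      exact hc
    · show pB (t - algebraMap 𝒪 P c) ∈ maximalIdeal B
      rw [map_sub, AlgHom.commutes]
      -- the image under `g` is nilpotent, hence `pB t - c` is not a unit
      intro hu
      have hgu : IsUnit (g (pB t - algebraMap 𝒪 B c)) := hu.map g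
      have e : g (pB t - algebraMap 𝒪 B c) = f (pA t - algebraMap 𝒪 A c) := by
        rw [map_sub, map_sub, AlgHom.commutes, AlgHom.commutes]
        have := congrArg (fun ψ : P →ₐ[𝒪] C => ψ t) hcomm
        simp only [AlgHom.comp_apply] at this
        rw [this]
      rw [e] at hgu
      exact hgu.not_isNilpotent ((testAlg_isNilpotent hA' hc).map f)

theorem isTest_dualNumber :
    @IsTest 𝒪 _ _ (DualNumber (ResidueField 𝒪)) _ (dualNumberAlgebra 𝒪) := by
  letI := dualNumberAlgebra 𝒪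
  have halg : ∀ o : 𝒪, algebraMap 𝒪 (DualNumber (ResidueField 𝒪)) o =
      TrivSqZeroExt.inl (residue 𝒪 o) := fun _ => rfl
  haveI : Module.Finite (ResidueField 𝒪) (DualNumber (ResidueField 𝒪)) :=
    inferInstanceAs (Module.Finite (ResidueField 𝒪) (ResidueField 𝒪 × ResidueField 𝒪))
  refine ⟨inferInstance, ⟨⟨?_⟩, ?_, IsArtinianRing.of_finite (ResidueField 𝒪) _⟩⟩
  · intro o ho
    rw [halg, TrivSqZeroExt.isUnit_iff_isUnit_fst, TrivSqZeroExt.fst_inl] at ho
    exact isUnit_of_map_unit (residue 𝒪) o ho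
  · intro x
    obtain ⟨y, rfl⟩ := residue_surjective x
    obtain ⟨o, ho⟩ := residue_surjective (TrivSqZeroExt.fst y)
    refine ⟨o, ?_⟩
    show residue _ (algebraMap 𝒪 (DualNumber (ResidueField 𝒪)) o) = residue _ y
    rw [← sub_eq_zero, ← map_sub, residue_eq_zero_iff, mem_maximalIdeal, mem_nonunits_iff,
      TrivSqZeroExt.isUnit_iff_isUnit_fst, halg, TrivSqZeroExt.fst_sub,
      TrivSqZeroExt.fst_inl, ho, sub_self]
    exact not_isUnit_zero

theorem exists_two_algHom {C : Type} [CommRing C] [Algebra 𝒪 C] (hC : IsTest 𝒪 C)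
    (B : Subalgebra 𝒪 C) (hB : B ≠ ⊤) :
    letI := dualNumberAlgebra 𝒪
    ∃ ψ₁ ψ₂ : C →ₐ[𝒪] DualNumber (ResidueField 𝒪), ψ₁ ≠ ψ₂ ∧ ∀ b ∈ B, ψ₁ b = ψ₂ b := by
  obtain ⟨hCl, hC'⟩ := hC
  letI := hCl
  exact exists_algHom_ne_of_subalgebra_ne_top hC' B hB

/-- Membership in the image of an ideal under a quotient map, raised to a power. -/
theorem quotient_pow_mem_map_pow {Q : Type} [CommRing Q] (K I : Ideal Q) {x : Q ⧸ K}
    (hx : x ∈ Ideal.map (Ideal.Quotient.mk K) I) (n : ℕ) :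
    x ^ n ∈ Ideal.map (Ideal.Quotient.mk K) (I ^ n) := by
  rw [Ideal.map_pow]
  exact Ideal.pow_mem_pow hx n

theorem isTest_quotient_pow {A : Type} [CommRing A] [IsLocalRing A] [IsNoetherianRing A]
    [Algebra 𝒪 A] (hA : Function.Surjective (residue A ∘ algebraMap 𝒪 A)) (n : ℕ) (hn : n ≠ 0) :
    IsTest 𝒪 (A ⧸ maximalIdeal A ^ n) := by
  have hne : maximalIdeal A ^ n ≠ ⊤ := by
    intro h
    have h1 : maximalIdeal A ^ n ≤ maximalIdeal A := Ideal.pow_le_self hn
    rw [h] at h1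
    exact (Ideal.IsMaximal.ne_top inferInstance) (top_le_iff.mp h1)
  haveI : Nontrivial (A ⧸ maximalIdeal A ^ n) := Ideal.Quotient.nontrivial_iff.mpr hne
  have hloc : IsLocalRing (A ⧸ maximalIdeal A ^ n) :=
    IsLocalRing.of_surjective' (Ideal.Quotient.mk _) Ideal.Quotient.mk_surjective
  have hnilp : ∀ x ∈ Ideal.map (Ideal.Quotient.mk (maximalIdeal A ^ n)) (maximalIdeal A),
      x ^ n = 0 := by
    intro x hx
    have := quotient_pow_mem_map_pow _ _ hx n
    rwa [Ideal.map_quotient_self, Ideal.mem_bot] at this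
  haveI : IsArtinianRing (A ⧸ maximalIdeal A ^ n) := by
    letI := hloc
    rw [isArtinianRing_iff_isNilpotent_maximalIdeal]
    refine ⟨n, ?_⟩
    have hle : maximalIdeal (A ⧸ maximalIdeal A ^ n) ≤
        Ideal.map (Ideal.Quotient.mk (maximalIdeal A ^ n)) (maximalIdeal A) := by
      intro x hx
      obtain ⟨a, rfl⟩ := Ideal.Quotient.mk_surjective x
      refine Ideal.mem_map_of_mem _ ?_
      intro hu
      exact hx (hu.map (Ideal.Quotient.mk _))
    rw [Ideal.zero_eq_bot, eq_bot_iff]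
    refine (Ideal.pow_right_mono hle n).trans ?_
    rw [← Ideal.map_pow, Ideal.map_quotient_self]
  refine isTest_of_nil (Ideal.map (Ideal.Quotient.mk (maximalIdeal A ^ n)) (maximalIdeal A))
    (fun x hx => ⟨n, hnilp x hx⟩) ?_
  intro t
  obtain ⟨a, rfl⟩ := Ideal.Quotient.mk_surjective t
  obtain ⟨c, hc⟩ := hA (residue A a)
  refine ⟨c, ?_⟩
  have e : Ideal.Quotient.mk (maximalIdeal A ^ n) a -
      algebraMap 𝒪 (A ⧸ maximalIdeal A ^ n) c =
      Ideal.Quotient.mk (maximalIdeal A ^ n) (a - algebraMap 𝒪 A c) := by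
    rw [map_sub]; rfl
  rw [e]
  refine Ideal.mem_map_of_mem _ ?_
  rw [← residue_eq_zero_iff, map_sub, sub_eq_zero]
  exact hc.symm

theorem isTest_mvPowerSeries_quotient [IsNoetherianRing 𝒪] [Finite (ResidueField 𝒪)]
    {κ : Type} [Finite κ] (K : Ideal (MvPowerSeries κ 𝒪)) (hK : K ≠ ⊤) {n : ℕ}
    (hn : maximalIdeal (MvPowerSeries κ 𝒪) ^ n ≤ K) : IsTest 𝒪 (MvPowerSeries κ 𝒪 ⧸ K) := by
  haveI : Nontrivial (MvPowerSeries κ 𝒪 ⧸ K) := Ideal.Quotient.nontrivial_iff.mpr hK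
  haveI : Finite (MvPowerSeries κ 𝒪 ⧸ maximalIdeal (MvPowerSeries κ 𝒪) ^ n) :=
    finite_quotient_maximalIdeal_pow n
  haveI : Finite (MvPowerSeries κ 𝒪 ⧸ K) :=
    Finite.of_surjective (Ideal.Quotient.factor hn) (Ideal.Quotient.factor_surjective hn)
  haveI : IsArtinianRing (MvPowerSeries κ 𝒪 ⧸ K) := isArtinian_of_finite
  refine isTest_of_nil (Ideal.map (Ideal.Quotient.mk K) (maximalIdeal (MvPowerSeries κ 𝒪)))
    ?_ ?_
  · intro x hx
    refine ⟨n, ?_⟩
    have := quotient_pow_mem_map_pow _ _ hx n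
    have hle : Ideal.map (Ideal.Quotient.mk K) (maximalIdeal (MvPowerSeries κ 𝒪) ^ n) ≤ ⊥ := by
      rw [← Ideal.map_quotient_self K]
      exact Ideal.map_mono hn
    exact (Ideal.mem_bot.mp (hle this))
  · intro t
    obtain ⟨f, rfl⟩ := Ideal.Quotient.mk_surjective t
    refine ⟨MvPowerSeries.constantCoeff f, ?_⟩
    have e : Ideal.Quotient.mk K f -
        algebraMap 𝒪 (MvPowerSeries κ 𝒪 ⧸ K) (MvPowerSeries.constantCoeff f) =
        Ideal.Quotient.mk K (f - MvPowerSeries.C (MvPowerSeries.constantCoeff f)) := by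
      rw [map_sub]; rfl
    rw [e]
    exact Ideal.mem_map_of_mem _ (sub_C_constantCoeff_mem_maximalIdeal f)

end Fermat.Agent.S53Lib.Abs
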