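import Mathlib
import Fermat.Prelude.Def_GaloisRep_DeformationCondition
import Fermat.Prelude.Def_GaloisRep_DeformationRingData
import Fermat.Agent.S53Lib.MatRep
import Fermat.Agent.S53Lib.DefCond

set_option autoImplicit false
set_option linter.unusedSectionVars false
set_option linter.style.haveILetI false

noncomputable section

namespace Fermat.Agent.S53Lib

open IsLocalRing GaloisRep

/-- The residue field of a local ring is an Artinian test algebra. -/
theorem isArtinianTestAlgebra_residueField (𝒪 : Type) [CommRing 𝒪] [IsLocalRing 𝒪] :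
    IsArtinianTestAlgebra 𝒪 (ResidueField 𝒪) where
  isLocalHom := by
    show IsLocalHom (residue 𝒪)
    infer_instance
  residue_surjective := by
    intro c
    obtain ⟨y, hy⟩ := residue_surjective (R := ResidueField 𝒪) c
    obtain ⟨x, hx⟩ := residue_surjective (R := 𝒪) y
    exact ⟨x, by rw [Function.comp_apply, ← hy, ← hx]; rfl⟩
  isArtinian := inferInstance

/-- Transport of the hypothesis `hbar` to matrix form. -/
theorem DM_resMatrix {𝒪 : Type} [CommRing 𝒪] [IsLocalRing 𝒪]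
    {𝒟 : ∀ ⦃A : Type⦄ [CommRing A] [IsLocalRing A] [Algebra 𝒪 A], GaloisRepAdic A → Prop}
    (h𝒟 : IsDeformationCondition 𝒪 𝒟) (ρbar : ResidualGaloisRep (ResidueField 𝒪))
    (b : Module.Basis (Fin 2) (ResidueField 𝒪) ρbar.V)
    (hbar : 𝒟 (GaloisRepAdic.ofResidualGaloisRep ρbar)) :
    DM 𝒟 (resMatrix ρbar b) :=
  ⟨isAdicCont_of_factorsFinite (resMatrix_factorsFinite ρbar b),
    h𝒟.of_isEquiv (isArtinianTestAlgebra_residueField 𝒪) (ofResidual_isEquiv ρbar b) hbar⟩

/-- **Boundary theorem.** A universal object for a rigid ("canonical") class of matrix lifts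
gives `DeformationRingData`. The predicate `Can` is arbitrary; it has to be contained in the
framed lifts (`hframed`), reachable by conjugation (`hexists`), rigid (`hrigid`) and
functorial (`hmap`). -/
theorem nonempty_deformationRingData_of_matrix
    (𝒪 : Type) [CommRing 𝒪] [IsDomain 𝒪] [IsDiscreteValuationRing 𝒪]
    [IsAdicComplete (maximalIdeal 𝒪) 𝒪]
    (ρbar : ResidualGaloisRep (ResidueField 𝒪))
    (𝒟 : ∀ ⦃A : Type⦄ [CommRing A] [IsLocalRing A] [Algebra 𝒪 A], GaloisRepAdic A → Prop)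
    (habs : ρbar.IsAbsolutelyIrreducible)
    (h𝒟 : IsDeformationCondition 𝒪 𝒟)
    (b : Module.Basis (Fin 2) (ResidueField 𝒪) ρbar.V)
    (Can : ∀ ⦃A : Type⦄ [CommRing A] [IsLocalRing A] [Algebra 𝒪 A], (GQ →* M2 A) → Prop)
    (hframed : ∀ ⦃A : Type⦄ [CommRing A] [IsLocalRing A] [IsNoetherianRing A]
      [IsAdicComplete (maximalIdeal A) A] [Algebra 𝒪 A] [IsLocalHom (algebraMap 𝒪 A)],
      Function.Surjective (residue A ∘ algebraMap 𝒪 A) → ∀ m : GQ →* M2 A, Can m →
        mapRep (residue A) m =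
          mapRep (ResidueField.map (algebraMap 𝒪 A)) (resMatrix ρbar b))
    (hexists : ∀ ⦃A : Type⦄ [CommRing A] [IsLocalRing A] [IsNoetherianRing A]
      [IsAdicComplete (maximalIdeal A) A] [Algebra 𝒪 A] [IsLocalHom (algebraMap 𝒪 A)],
      Function.Surjective (residue A ∘ algebraMap 𝒪 A) → ∀ m : GQ →* M2 A,
        mapRep (residue A) m =
          mapRep (ResidueField.map (algebraMap 𝒪 A)) (resMatrix ρbar b) →
        ∃ u : (M2 A)ˣ, Can (conjRep u m))
    (hrigid : ∀ ⦃A : Type⦄ [CommRing A] [IsLocalRing A] [IsNoetherianRing A]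
      [IsAdicComplete (maximalIdeal A) A] [Algebra 𝒪 A] [IsLocalHom (algebraMap 𝒪 A)],
      Function.Surjective (residue A ∘ algebraMap 𝒪 A) → ∀ m m' : GQ →* M2 A, Can m → Can m' →
        (∃ u : (M2 A)ˣ, ∀ σ, ↑u * m σ = m' σ * ↑u) → m = m')
    (R : Type) [CommRing R] [IsLocalRing R] [IsNoetherianRing R]
    [IsAdicComplete (maximalIdeal R) R] [Algebra 𝒪 R] [IsLocalHom (algebraMap 𝒪 R)]
    (hRsurj : Function.Surjective (residue R ∘ algebraMap 𝒪 R))
    (mR : GQ →* M2 R) (hcan : Can mR) (hDM : DM 𝒟 mR)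
    (hmap : ∀ ⦃A : Type⦄ [CommRing A] [IsLocalRing A] [IsNoetherianRing A]
      [IsAdicComplete (maximalIdeal A) A] [Algebra 𝒪 A] [IsLocalHom (algebraMap 𝒪 A)],
      Function.Surjective (residue A ∘ algebraMap 𝒪 A) → ∀ φ : R →ₐ[𝒪] A,
        Can (mapRep (φ : R →+* A) mR))
    (huniv : ∀ ⦃A : Type⦄ [CommRing A] [IsLocalRing A] [IsNoetherianRing A]
      [IsAdicComplete (maximalIdeal A) A] [Algebra 𝒪 A] [IsLocalHom (algebraMap 𝒪 A)],
      Function.Surjective (residue A ∘ algebraMap 𝒪 A) → ∀ mA : GQ →* M2 A, Can mA →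
        DM 𝒟 mA → ∃ φ : R →ₐ[𝒪] A, mapRep (φ : R →+* A) mR = mA)
    (hinj : ∀ ⦃A : Type⦄ [CommRing A] [IsLocalRing A] [IsNoetherianRing A]
      [IsAdicComplete (maximalIdeal A) A] [Algebra 𝒪 A] [IsLocalHom (algebraMap 𝒪 A)],
      Function.Surjective (residue A ∘ algebraMap 𝒪 A) → ∀ φ φ' : R →ₐ[𝒪] A,
        mapRep (φ : R →+* A) mR = mapRep (φ' : R →+* A) mR → φ = φ') :
    Nonempty (DeformationRingData 𝒪 ρbar 𝒟) := by
  obtain ⟨hmR, hDR⟩ := hDM
  refine ⟨{ R := R
            residue_surjective := hRsurj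
            absIrr := habs
            ρ := ofMatrix mR hmR
            isOfType := hDR
            residual_isEquiv := residual_isEquiv_of_framed ρbar b _ mR hmR
              (hframed hRsurj mR hcan)
            universal := ?_ }⟩
  intro A _ _ _ _ _ _ hAsurj ρA hDA hres
  have hlocA : IsLocalHom (algebraMap 𝒪 A) := inferInstance
  obtain ⟨m₀, hm₀, he₀, hfr⟩ := exists_framed ρbar b _ ρA hres
  obtain ⟨u, hu⟩ := hexists hAsurj m₀ hfr
  have heA : ρA.IsEquiv (ofMatrix (conjRep u m₀) (hm₀.conj u)) :=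
    adicIsEquiv_trans he₀ (isEquiv_ofMatrix_conjRep u hm₀)
  have hDMA : DM 𝒟 (conjRep u m₀) :=
    ⟨hm₀.conj u, of_isEquiv_complete h𝒟 hlocA hAsurj heA hDA⟩
  obtain ⟨φ, hφ⟩ := huniv hAsurj _ hu hDMA
  have key : ∀ ψ : R →ₐ[𝒪] A, ∀ hψ : IsLocalHom (ψ : R →+* A),
      ((ofMatrix mR hmR).baseChangeAlong (ψ : R →+* A) hψ).IsEquiv ρA ↔
        mapRep (ψ : R →+* A) mR = conjRep u m₀ := by
    intro ψ hψ
    constructor
    · intro h
      have h1 : (ofMatrix (mapRep (ψ : R →+* A) mR) (hmR.map _ hψ)).IsEquiv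
          (ofMatrix (conjRep u m₀) (hm₀.conj u)) :=
        adicIsEquiv_trans (adicIsEquiv_symm (ofMatrix_baseChangeAlong _ hψ mR hmR))
          (adicIsEquiv_trans h heA)
      exact hrigid hAsurj _ _ (hmap hAsurj ψ) hu ((isEquiv_ofMatrix_iff _ _).mp h1)
    · intro h
      exact adicIsEquiv_trans (ofMatrix_baseChangeAlong _ hψ mR hmR)
        (adicIsEquiv_trans (ofMatrix_congr _ (hm₀.conj u) h) (adicIsEquiv_symm heA))
  refine ⟨φ, ⟨isLocalHom_of_residue_surjective hAsurj φ, ?_⟩, ?_⟩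
  · exact (key φ _).mpr hφ
  · rintro φ' ⟨hφ', h'⟩
    exact hinj hAsurj φ' φ (((key φ' hφ').mp h').trans hφ.symm)

end Fermat.Agent.S53Lib
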