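import Mathlib
import Fermat.Agent.S53Lib.RigidDefs
import Fermat.Agent.S53Lib.PowerSeries
import Fermat.Agent.S53Lib.DefCond
import Fermat.Agent.S53Lib.Univ
import Fermat.Agent.S53Lib.IsTest

set_option autoImplicit false
set_option linter.unusedSectionVars false
set_option linter.style.haveILetI false

/-!
# Pro-representability of rigid functors
-/

noncomputable section

namespace Fermat.Agent.S53Lib.Abs

open IsLocalRing GaloisRep

variable {𝒪 : Type} [CommRing 𝒪] [IsLocalRing 𝒪]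

/-! ### The bundled predicate -/

variable {ι : Type} {c : ι → 𝒪}
  {L : ∀ ⦃A : Type⦄ [CommRing A] [IsLocalRing A] [Algebra 𝒪 A], (ι → A) → Prop}

/-- `T` is a test algebra and the family `a` lies in `L`. -/
def LT (L : ∀ ⦃A : Type⦄ [CommRing A] [IsLocalRing A] [Algebra 𝒪 A], (ι → A) → Prop)
    (T : Type) [CommRing T] [Algebra 𝒪 T] (a : ι → T) : Prop :=
  ∃ h : IsLocalRing T, @IsArtinianTestAlgebra 𝒪 _ T _ h _ ∧ @L T _ h _ a

theorem LT.isTest {T : Type} [CommRing T] [Algebra 𝒪 T] {a : ι → T} (h : LT L T a) :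
    IsTest 𝒪 T := by
  obtain ⟨h1, h2, -⟩ := h
  exact ⟨h1, h2⟩

theorem LT.map (hL : RigidFunctor 𝒪 ι c L) {A T : Type} [CommRing A] [Algebra 𝒪 A]
    [CommRing T] [Algebra 𝒪 T] (φ : A →ₐ[𝒪] T) (hT : IsTest 𝒪 T) {a : ι → A} (h : LT L A a) :
    LT L T (fun i => φ (a i)) := by
  obtain ⟨hA1, hA2, ha⟩ := h
  obtain ⟨hT1, hT2⟩ := hT
  exact ⟨hT1, hT2, hL.map hA2 hT2 φ ha⟩

theorem LT.of_injective [Finite (ResidueField 𝒪)] (hL : RigidFunctor 𝒪 ι c L) {T A : Type}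
    [CommRing T] [Algebra 𝒪 T] [CommRing A] [Algebra 𝒪 A] (φ : T →ₐ[𝒪] A)
    (hφ : Function.Injective φ) {b : ι → T} (h : LT L A (fun i => φ (b i))) : LT L T b := by
  obtain ⟨hA1, hA2, ha⟩ := h
  obtain ⟨hT1, hT2⟩ := IsTest.of_injective ⟨hA1, hA2⟩ φ hφ
  exact ⟨hT1, hT2, hL.of_injective hT2 hA2 φ hφ ha⟩

theorem LT.res (hL : RigidFunctor 𝒪 ι c L) {A : Type} [CommRing A] [Algebra 𝒪 A] {a : ι → A}
    (h : LT L A a) (i : ι) : IsNilpotent (a i - algebraMap 𝒪 A (c i)) := by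
  obtain ⟨hA1, hA2, ha⟩ := h
  haveI := hA2.isArtinian
  obtain ⟨N, hN⟩ := exists_maximalIdeal_pow_eq_bot A
  refine ⟨N, ?_⟩
  have := Ideal.pow_mem_pow (hL.res hA2 ha i) N
  rwa [hN, Ideal.mem_bot] at this

theorem LT.of_inf_eq_bot [Finite (ResidueField 𝒪)] (hL : RigidFunctor 𝒪 ι c L) {P : Type}
    [CommRing P] [Algebra 𝒪 P] (I₁ I₂ : Ideal P) (hinf : I₁ ⊓ I₂ = ⊥) (hsup : I₁ ⊔ I₂ ≠ ⊤)
    {u : ι → P} (h₁ : LT L (P ⧸ I₁) (fun i => Ideal.Quotient.mk I₁ (u i)))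
    (h₂ : LT L (P ⧸ I₂) (fun i => Ideal.Quotient.mk I₂ (u i))) : LT L P u := by
  obtain ⟨hA1, hA2, ha⟩ := h₁
  obtain ⟨hB1, hB2, hb⟩ := h₂
  let f : P ⧸ I₁ →ₐ[𝒪] P ⧸ (I₁ ⊔ I₂) := Ideal.Quotient.factorₐ 𝒪 le_sup_left
  let g : P ⧸ I₂ →ₐ[𝒪] P ⧸ (I₁ ⊔ I₂) := Ideal.Quotient.factorₐ 𝒪 le_sup_right
  haveI : Nontrivial (P ⧸ (I₁ ⊔ I₂)) := Ideal.Quotient.nontrivial_iff.mpr hsup
  have hf : Function.Surjective f := Ideal.Quotient.factor_surjective le_sup_left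
  obtain ⟨hC1, hC2⟩ := IsTest.of_surjective ⟨hA1, hA2⟩ f hf
  have hcomm : f.comp (Ideal.Quotient.mkₐ 𝒪 I₁) = g.comp (Ideal.Quotient.mkₐ 𝒪 I₂) := by
    ext x
    rfl
  have hinj : Function.Injective
      (fun x => (Ideal.Quotient.mkₐ 𝒪 I₁ x, Ideal.Quotient.mkₐ 𝒪 I₂ x)) := by
    intro x y hxy
    have h1 : Ideal.Quotient.mk I₁ x = Ideal.Quotient.mk I₁ y := congrArg Prod.fst hxy
    have h2 : Ideal.Quotient.mk I₂ x = Ideal.Quotient.mk I₂ y := congrArg Prod.snd hxy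
    rw [Ideal.Quotient.eq] at h1 h2
    have : x - y ∈ I₁ ⊓ I₂ := ⟨h1, h2⟩
    rw [hinf, Ideal.mem_bot] at this
    exact sub_eq_zero.mp this
  have hsurj : ∀ a b, f a = g b →
      ∃ x, Ideal.Quotient.mkₐ 𝒪 I₁ x = a ∧ Ideal.Quotient.mkₐ 𝒪 I₂ x = b := by
    intro a b hab
    obtain ⟨x, rfl⟩ := Ideal.Quotient.mk_surjective a
    obtain ⟨y, rfl⟩ := Ideal.Quotient.mk_surjective b
    have h : Ideal.Quotient.mk (I₁ ⊔ I₂) x = Ideal.Quotient.mk (I₁ ⊔ I₂) y := hab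
    rw [Ideal.Quotient.eq] at h
    obtain ⟨k1, hk1, k2, hk2, hk⟩ := Submodule.mem_sup.mp h
    refine ⟨x - k1, ?_, ?_⟩
    · show Ideal.Quotient.mk I₁ (x - k1) = Ideal.Quotient.mk I₁ x
      rw [Ideal.Quotient.eq]
      simpa using I₁.neg_mem hk1
    · show Ideal.Quotient.mk I₂ (x - k1) = Ideal.Quotient.mk I₂ y
      rw [Ideal.Quotient.eq]
      have : x - k1 - y = k2 := by
        have hk' : k2 = x - y - k1 := by rw [← hk]; ring
        rw [hk']; ring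
      rw [this]
      exact hk2
  obtain ⟨hP1, hP2⟩ := IsTest.of_fibre ⟨hA1, hA2⟩ ⟨hB1, hB2⟩ ⟨hC1, hC2⟩ f g
    (Ideal.Quotient.mkₐ 𝒪 I₁) (Ideal.Quotient.mkₐ 𝒪 I₂) hcomm hinj
  exact ⟨hP1, hP2, hL.of_fibreProduct hA2 hB2 hC2 hP2 f g (Ideal.Quotient.mkₐ 𝒪 I₁)
    (Ideal.Quotient.mkₐ 𝒪 I₂) hcomm hinj hsurj ha hb⟩

theorem LT.of_prod [Finite (ResidueField 𝒪)] (hL : RigidFunctor 𝒪 ι c L) {P A B : Type}
    [CommRing P] [Algebra 𝒪 P] [CommRing A] [Algebra 𝒪 A] [CommRing B] [Algebra 𝒪 B]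
    (pA : P →ₐ[𝒪] A) (pB : P →ₐ[𝒪] B) (hinj : Function.Injective (fun x => (pA x, pB x)))
    (hsup : RingHom.ker pA ⊔ RingHom.ker pB ≠ ⊤) {u : ι → P}
    (h₁ : LT L A (fun i => pA (u i))) (h₂ : LT L B (fun i => pB (u i))) : LT L P u := by
  refine LT.of_inf_eq_bot hL (RingHom.ker pA) (RingHom.ker pB) ?_ hsup ?_ ?_
  · rw [eq_bot_iff]
    intro x hx
    rw [Ideal.mem_bot]
    apply hinj
    have h1 : pA x = 0 := hx.1
    have h2 : pB x = 0 := hx.2
    simp [h1, h2]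
  · exact LT.of_injective hL (Ideal.kerLiftAlg pA) (Ideal.kerLiftAlg_injective pA) h₁
  · exact LT.of_injective hL (Ideal.kerLiftAlg pB) (Ideal.kerLiftAlg_injective pB) h₂

/-! ### Generation and rigidity -/

/-- The coordinates `e s` separate the families over the dual numbers. -/
def Sep (L : ∀ ⦃A : Type⦄ [CommRing A] [IsLocalRing A] [Algebra 𝒪 A], (ι → A) → Prop)
    {κ : Type} (e : κ → ι) : Prop :=
  letI := dualNumberAlgebra 𝒪
  ∀ a a' : ι → DualNumber (ResidueField 𝒪), L a → L a' → (∀ s, a (e s) = a' (e s)) → a = a'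

variable {κ : Type} {e : κ → ι}

/-- Generation: the entries of a family in `L` lie in the subalgebra generated by the
separating coordinates. -/
theorem LT.mem_adjoin [Finite (ResidueField 𝒪)] (hL : RigidFunctor 𝒪 ι c L) (hsep : Sep L e)
    {A : Type} [CommRing A] [Algebra 𝒪 A] {a : ι → A} (h : LT L A a) (i : ι) :
    a i ∈ Algebra.adjoin 𝒪 (Set.range fun s => a (e s)) := by
  let T : Subalgebra 𝒪 A := Algebra.adjoin 𝒪 (Set.range a)
  let b : ι → T := fun i => ⟨a i, Algebra.subset_adjoin ⟨i, rfl⟩⟩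
  have hb : LT L T b := LT.of_injective hL T.val Subtype.val_injective h
  let B : Subalgebra 𝒪 T := Algebra.adjoin 𝒪 (Set.range fun s => b (e s))
  have hB : B = ⊤ := by
    by_contra hne
    letI := dualNumberAlgebra 𝒪
    obtain ⟨ψ₁, ψ₂, hne', hag⟩ := exists_two_algHom hb.isTest B hne
    obtain ⟨h1a, h1b, h1⟩ := LT.map hL ψ₁ isTest_dualNumber hb
    obtain ⟨h2a, h2b, h2⟩ := LT.map hL ψ₂ isTest_dualNumber hb
    have heq := hsep _ _ h1 h2 (fun s => hag _ (Algebra.subset_adjoin ⟨s, rfl⟩))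
    apply hne'
    refine AlgHom.ext ?_
    rintro ⟨x, hx⟩
    induction hx using Algebra.adjoin_induction with
    | mem x hx =>
      obtain ⟨j, rfl⟩ := hx
      exact congrFun heq j
    | algebraMap r =>
      have : (⟨algebraMap 𝒪 A r, Subalgebra.algebraMap_mem _ r⟩ : T) = algebraMap 𝒪 T r := rfl
      rw [this, AlgHom.commutes, AlgHom.commutes]
    | add x y hx hy hx' hy' =>
      have : (⟨x + y, Subalgebra.add_mem _ hx hy⟩ : T) = ⟨x, hx⟩ + ⟨y, hy⟩ := rfl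
      rw [this, map_add, map_add, hx', hy']
    | mul x y hx hy hx' hy' =>
      have : (⟨x * y, Subalgebra.mul_mem _ hx hy⟩ : T) = ⟨x, hx⟩ * ⟨y, hy⟩ := rfl
      rw [this, map_mul, map_mul, hx', hy']
  have hbi : b i ∈ B := by rw [hB]; exact Algebra.mem_top
  have hmap : B.map T.val = Algebra.adjoin 𝒪 (Set.range fun s => a (e s)) := by
    rw [AlgHom.map_adjoin]
    congr 1
    ext x
    constructor
    · rintro ⟨_, ⟨s, rfl⟩, rfl⟩
      exact ⟨s, rfl⟩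
    · rintro ⟨s, rfl⟩
      exact ⟨b (e s), ⟨s, rfl⟩, rfl⟩
  rw [← hmap]
  exact ⟨b i, hbi, rfl⟩

/-- Rigidity: two families in `L` over the same test algebra agreeing on the separating
coordinates are equal. -/
theorem LT.ext_of_eqOn [Finite (ResidueField 𝒪)] (hL : RigidFunctor 𝒪 ι c L) (hsep : Sep L e)
    {A : Type} [CommRing A] [Algebra 𝒪 A] {a a' : ι → A} (h : LT L A a) (h' : LT L A a')
    (heq : ∀ s, a (e s) = a' (e s)) : a = a' := by
  obtain ⟨hA1, hA2, ha⟩ := id h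
  have ha' : L a' := by
    obtain ⟨_, _, ha'⟩ := id h'
    exact ha'
  let T : Subalgebra 𝒪 (A × A) := Algebra.adjoin 𝒪 (Set.range fun i => (a i, a' i))
  let u : ι → T := fun i => ⟨(a i, a' i), Algebra.subset_adjoin ⟨i, rfl⟩⟩
  let pA : T →ₐ[𝒪] A := (AlgHom.fst 𝒪 A A).comp T.val
  let pB : T →ₐ[𝒪] A := (AlgHom.snd 𝒪 A A).comp T.val
  have hinj : Function.Injective (fun x => (pA x, pB x)) := by
    intro x y hxy
    exact Subtype.ext hxy
  have hdiff : ∀ x ∈ T, x.1 - x.2 ∈ maximalIdeal A := by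
    intro x hx
    induction hx using Algebra.adjoin_induction with
    | mem x hx =>
      obtain ⟨j, rfl⟩ := hx
      have h1 := hL.res hA2 ha j
      have h2 := hL.res hA2 ha' j
      have : a j - a' j = (a j - algebraMap 𝒪 A (c j)) - (a' j - algebraMap 𝒪 A (c j)) := by ring
      show a j - a' j ∈ maximalIdeal A
      rw [this]
      exact Ideal.sub_mem _ h1 h2
    | algebraMap r =>
      show algebraMap 𝒪 A r - algebraMap 𝒪 A r ∈ maximalIdeal A
      rw [sub_self]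
      exact Ideal.zero_mem _
    | add x y hx hy hx' hy' =>
      have : (x + y).1 - (x + y).2 = (x.1 - x.2) + (y.1 - y.2) := by
        simp only [Prod.fst_add, Prod.snd_add]; ring
      rw [this]
      exact Ideal.add_mem _ hx' hy'
    | mul x y hx hy hx' hy' =>
      have : (x * y).1 - (x * y).2 = (x.1 - x.2) * y.1 + x.2 * (y.1 - y.2) := by
        simp only [Prod.fst_mul, Prod.snd_mul]; ring
      rw [this]
      exact Ideal.add_mem _ (Ideal.mul_mem_right _ _ hx') (Ideal.mul_mem_left _ _ hy')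
  have hsup : RingHom.ker pA ⊔ RingHom.ker pB ≠ ⊤ := by
    intro htop
    have h1 : (1 : T) ∈ RingHom.ker pA ⊔ RingHom.ker pB := by rw [htop]; trivial
    obtain ⟨x, hx, y, hy, hxy⟩ := Submodule.mem_sup.mp h1
    have hx1 : (x : A × A).1 = 0 := hx
    have hy2 : (y : A × A).2 = 0 := hy
    have hsum : (x : A × A) + (y : A × A) = 1 := congrArg Subtype.val hxy
    have hx2 : (x : A × A).2 = 1 := by
      have := congrArg Prod.snd hsum
      simpa [hy2] using this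
    have := hdiff x x.2
    rw [hx1, hx2, zero_sub, Ideal.neg_mem_iff] at this
    exact (Ideal.ne_top_iff_one _).mp (maximalIdeal.isMaximal A).ne_top this
  have hu : LT L T u := LT.of_prod hL pA pB hinj hsup h h'
  funext i
  have hmem := LT.mem_adjoin hL hsep hu i
  have hle : Algebra.adjoin 𝒪 (Set.range fun s => u (e s)) ≤ AlgHom.equalizer pA pB := by
    apply Algebra.adjoin_le
    rintro _ ⟨s, rfl⟩
    exact heq s
  exact hle hmem

/-! ### Lifted families over quotients of the power series ring -/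

section Ring

variable [IsNoetherianRing 𝒪] [IsAdicComplete (maximalIdeal 𝒪) 𝒪] [Finite (ResidueField 𝒪)]
variable [Finite κ]

/-- `f` is a lifted `L`-family for the quotient by `K`, normalised at the separating
coordinates. -/
def IsWit (c : ι → 𝒪)
    (L : ∀ ⦃A : Type⦄ [CommRing A] [IsLocalRing A] [Algebra 𝒪 A], (ι → A) → Prop) (e : κ → ι)
    (K : Ideal (MvPowerSeries κ 𝒪)) (f : ι → MvPowerSeries κ 𝒪) : Prop :=
  LT L (MvPowerSeries κ 𝒪 ⧸ K) (fun i => Ideal.Quotient.mk K (f i)) ∧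
    ∀ s, f (e s) - (MvPowerSeries.X s + MvPowerSeries.C (c (e s))) ∈ K

variable {K K' K₁ K₂ : Ideal (MvPowerSeries κ 𝒪)} {f f' f₁ f₂ : ι → MvPowerSeries κ 𝒪}

omit [IsNoetherianRing 𝒪] [IsAdicComplete (maximalIdeal 𝒪) 𝒪] [Finite (ResidueField 𝒪)]
  [Finite κ] in
theorem IsWit.ne_top (h : IsWit c L e K f) : K ≠ ⊤ := by
  obtain ⟨⟨h1, -, -⟩, -⟩ := h
  exact Ideal.Quotient.nontrivial_iff.mp inferInstance

omit [IsNoetherianRing 𝒪] [IsAdicComplete (maximalIdeal 𝒪) 𝒪] [Finite (ResidueField 𝒪)]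
  [Finite κ] in
theorem IsWit.mono (hL : RigidFunctor 𝒪 ι c L) (h : IsWit c L e K f) (hKK' : K ≤ K')
    (hK' : K' ≠ ⊤) : IsWit c L e K' f := by
  haveI : Nontrivial (MvPowerSeries κ 𝒪 ⧸ K') := Ideal.Quotient.nontrivial_iff.mpr hK'
  have hT : IsTest 𝒪 (MvPowerSeries κ 𝒪 ⧸ K') :=
    IsTest.of_surjective h.1.isTest (Ideal.Quotient.factorₐ 𝒪 hKK')
      (Ideal.Quotient.factor_surjective hKK')
  exact ⟨LT.map hL (Ideal.Quotient.factorₐ 𝒪 hKK') hT h.1, fun s => hKK' (h.2 s)⟩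

omit [IsNoetherianRing 𝒪] [IsAdicComplete (maximalIdeal 𝒪) 𝒪] [Finite κ] in
theorem IsWit.unique (hL : RigidFunctor 𝒪 ι c L) (hsep : Sep L e) (h : IsWit c L e K f)
    (h' : IsWit c L e K f') (i : ι) : f i - f' i ∈ K := by
  have heq := LT.ext_of_eqOn hL hsep h.1 h'.1 (fun s => by
    rw [Ideal.Quotient.eq]
    have : f (e s) - f' (e s) =
        (f (e s) - (MvPowerSeries.X s + MvPowerSeries.C (c (e s)))) -
          (f' (e s) - (MvPowerSeries.X s + MvPowerSeries.C (c (e s)))) := by ring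
    rw [this]
    exact K.sub_mem (h.2 s) (h'.2 s))
  exact Ideal.Quotient.eq.mp (congrFun heq i)

omit [IsNoetherianRing 𝒪] [IsAdicComplete (maximalIdeal 𝒪) 𝒪] [Finite (ResidueField 𝒪)]
  [Finite κ] in
theorem IsWit.congr (h : IsWit c L e K f) {g : ι → MvPowerSeries κ 𝒪}
    (hg : ∀ i, g i - f i ∈ K) : IsWit c L e K g := by
  have : (fun i => Ideal.Quotient.mk K (g i)) = fun i => Ideal.Quotient.mk K (f i) :=
    funext fun i => Ideal.Quotient.eq.mpr (hg i)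
  refine ⟨?_, fun s => ?_⟩
  · rw [this]
    exact h.1
  · have h2 : g (e s) - (MvPowerSeries.X s + MvPowerSeries.C (c (e s))) =
        (g (e s) - f (e s)) + (f (e s) - (MvPowerSeries.X s + MvPowerSeries.C (c (e s)))) := by
      ring
    rw [h2]
    exact K.add_mem (hg (e s)) (h.2 s)

omit [IsNoetherianRing 𝒪] [IsAdicComplete (maximalIdeal 𝒪) 𝒪] [Finite κ] in
theorem IsWit.inf (hL : RigidFunctor 𝒪 ι c L) (hsep : Sep L e) (h₁ : IsWit c L e K₁ f₁)
    (h₂ : IsWit c L e K₂ f₂) : ∃ g, IsWit c L e (K₁ ⊓ K₂) g := by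
  have hK₁ : K₁ ≤ maximalIdeal (MvPowerSeries κ 𝒪) := le_maximalIdeal h₁.ne_top
  have hK₂ : K₂ ≤ maximalIdeal (MvPowerSeries κ 𝒪) := le_maximalIdeal h₂.ne_top
  have hmtop : maximalIdeal (MvPowerSeries κ 𝒪) ≠ ⊤ := (maximalIdeal.isMaximal _).ne_top
  have hsup : K₁ ⊔ K₂ ≠ ⊤ := fun htop => hmtop (top_le_iff.mp (htop ▸ sup_le hK₁ hK₂))
  have w₁ : IsWit c L e (K₁ ⊔ K₂) f₁ := h₁.mono hL le_sup_left hsup
  have w₂ : IsWit c L e (K₁ ⊔ K₂) f₂ := h₂.mono hL le_sup_right hsup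
  have hdiff : ∀ i, f₁ i - f₂ i ∈ K₁ ⊔ K₂ := w₁.unique hL hsep w₂
  choose k₁ hk₁ k₂ hk₂ hk using fun i => Submodule.mem_sup.mp (hdiff i)
  let g : ι → MvPowerSeries κ 𝒪 := fun i => f₁ i - k₁ i
  have hg₁ : ∀ i, g i - f₁ i ∈ K₁ := fun i => by
    have : g i - f₁ i = -k₁ i := by simp [g]
    rw [this]
    exact K₁.neg_mem (hk₁ i)
  have hg₂ : ∀ i, g i - f₂ i ∈ K₂ := fun i => by
    have : g i - f₂ i = k₂ i := by
      have h := hk i
      have h' : k₂ i = f₁ i - f₂ i - k₁ i := by rw [← h]; ring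
      rw [h']
      simp only [g]
      ring
    rw [this]
    exact hk₂ i
  refine ⟨g, ?_, fun s => ⟨?_, ?_⟩⟩
  · refine LT.of_prod hL (Ideal.Quotient.factorₐ 𝒪 (inf_le_left : K₁ ⊓ K₂ ≤ K₁))
      (Ideal.Quotient.factorₐ 𝒪 (inf_le_right : K₁ ⊓ K₂ ≤ K₂)) ?_ ?_ ?_ ?_
    · intro x y hxy
      obtain ⟨p, rfl⟩ := Ideal.Quotient.mk_surjective x
      obtain ⟨q, rfl⟩ := Ideal.Quotient.mk_surjective y
      have e1 : Ideal.Quotient.mk K₁ p = Ideal.Quotient.mk K₁ q := congrArg Prod.fst hxy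
      have e2 : Ideal.Quotient.mk K₂ p = Ideal.Quotient.mk K₂ q := congrArg Prod.snd hxy
      rw [Ideal.Quotient.eq] at e1 e2 ⊢
      exact ⟨e1, e2⟩
    · intro htop
      have h1 : (1 : MvPowerSeries κ 𝒪 ⧸ K₁ ⊓ K₂) ∈
          RingHom.ker (Ideal.Quotient.factorₐ 𝒪 (inf_le_left : K₁ ⊓ K₂ ≤ K₁)) ⊔
            RingHom.ker (Ideal.Quotient.factorₐ 𝒪 (inf_le_right : K₁ ⊓ K₂ ≤ K₂)) := by
        rw [htop]; trivial
      obtain ⟨x, hx, y, hy, hxy⟩ := Submodule.mem_sup.mp h1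
      obtain ⟨p, rfl⟩ := Ideal.Quotient.mk_surjective x
      obtain ⟨q, rfl⟩ := Ideal.Quotient.mk_surjective y
      have hp : p ∈ K₁ := Ideal.Quotient.eq_zero_iff_mem.mp hx
      have hq : q ∈ K₂ := Ideal.Quotient.eq_zero_iff_mem.mp hy
      have hpq : p + q - 1 ∈ K₁ ⊓ K₂ := by
        rw [← Ideal.Quotient.eq, map_add, map_one]
        exact hxy
      have h1m : (1 : MvPowerSeries κ 𝒪) ∈ maximalIdeal (MvPowerSeries κ 𝒪) := by
        have : (1 : MvPowerSeries κ 𝒪) = p + q - (p + q - 1) := by ring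
        rw [this]
        exact Ideal.sub_mem _ (Ideal.add_mem _ (hK₁ hp) (hK₂ hq)) (hK₁ hpq.1)
      exact (Ideal.ne_top_iff_one _).mp hmtop h1m
    · have : (fun i => Ideal.Quotient.mk K₁ (g i)) = fun i => Ideal.Quotient.mk K₁ (f₁ i) :=
        funext fun i => Ideal.Quotient.eq.mpr (hg₁ i)
      show LT L _ (fun i => Ideal.Quotient.mk K₁ (g i))
      rw [this]
      exact h₁.1
    · have : (fun i => Ideal.Quotient.mk K₂ (g i)) = fun i => Ideal.Quotient.mk K₂ (f₂ i) :=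
        funext fun i => Ideal.Quotient.eq.mpr (hg₂ i)
      show LT L _ (fun i => Ideal.Quotient.mk K₂ (g i))
      rw [this]
      exact h₂.1
  · have h2 : g (e s) - (MvPowerSeries.X s + MvPowerSeries.C (c (e s))) =
        (g (e s) - f₁ (e s)) + (f₁ (e s) - (MvPowerSeries.X s + MvPowerSeries.C (c (e s)))) := by
      ring
    rw [h2]
    exact K₁.add_mem (hg₁ (e s)) (h₁.2 s)
  · have h2 : g (e s) - (MvPowerSeries.X s + MvPowerSeries.C (c (e s))) =
        (g (e s) - f₂ (e s)) + (f₂ (e s) - (MvPowerSeries.X s + MvPowerSeries.C (c (e s)))) := by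
      ring
    rw [h2]
    exact K₂.add_mem (hg₂ (e s)) (h₂.2 s)

omit [IsAdicComplete (maximalIdeal 𝒪) 𝒪] in
theorem isWit_maximalIdeal (hL : RigidFunctor 𝒪 ι c L) :
    IsWit c L e (maximalIdeal (MvPowerSeries κ 𝒪)) (fun i => MvPowerSeries.C (c i)) := by
  have hmtop : maximalIdeal (MvPowerSeries κ 𝒪) ≠ ⊤ := (maximalIdeal.isMaximal _).ne_top
  refine ⟨?_, fun s => ?_⟩
  · let φ : ResidueField 𝒪 →ₐ[𝒪] MvPowerSeries κ 𝒪 ⧸ maximalIdeal (MvPowerSeries κ 𝒪) :=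
      Ideal.Quotient.liftₐ (maximalIdeal 𝒪)
        (Algebra.ofId 𝒪 (MvPowerSeries κ 𝒪 ⧸ maximalIdeal (MvPowerSeries κ 𝒪)))
        (fun a ha => Ideal.Quotient.eq_zero_iff_mem.mpr (C_mem_maximalIdeal ha))
    have hbase : LT L (ResidueField 𝒪) (fun i => algebraMap 𝒪 (ResidueField 𝒪) (c i)) :=
      ⟨inferInstance, isArtinianTestAlgebra_residueField 𝒪, hL.base⟩
    have hT : IsTest 𝒪 (MvPowerSeries κ 𝒪 ⧸ maximalIdeal (MvPowerSeries κ 𝒪)) :=
      isTest_mvPowerSeries_quotient _ hmtop (n := 1) (by rw [pow_one])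
    have := LT.map hL φ hT hbase
    have heq : (fun i => φ (algebraMap 𝒪 (ResidueField 𝒪) (c i))) =
        fun i => Ideal.Quotient.mk (maximalIdeal (MvPowerSeries κ 𝒪))
          (MvPowerSeries.C (c i)) := by
      funext i
      rw [AlgHom.commutes]
      rfl
    rw [heq] at this
    exact this
  · have : (MvPowerSeries.C (c (e s)) : MvPowerSeries κ 𝒪) -
        (MvPowerSeries.X s + MvPowerSeries.C (c (e s))) = -MvPowerSeries.X s := by ring
    rw [this]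
    exact neg_mem (X_mem_maximalIdeal s)

omit [IsNoetherianRing 𝒪] [IsAdicComplete (maximalIdeal 𝒪) 𝒪] in
theorem IsWit.of_eval (hL : RigidFunctor 𝒪 ι c L) (hsep : Sep L e) {A : Type} [CommRing A]
    [Algebra 𝒪 A] {a : ι → A} (ha : LT L A a) (ev : MvPowerSeries κ 𝒪 →ₐ[𝒪] A)
    (hev : ∀ s, ev (MvPowerSeries.X s) = a (e s) - algebraMap 𝒪 A (c (e s))) :
    ∃ f, IsWit c L e (RingHom.ker ev) f ∧ ∀ i, ev (f i) = a i := by
  have hC : ∀ x : 𝒪, ev (MvPowerSeries.C x) = algebraMap 𝒪 A x := fun x => by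
    have : (MvPowerSeries.C x : MvPowerSeries κ 𝒪) = algebraMap 𝒪 (MvPowerSeries κ 𝒪) x := rfl
    rw [this, AlgHom.commutes]
  have hrange : ∀ i, ∃ x, ev x = a i := by
    intro i
    have hmem := LT.mem_adjoin hL hsep ha i
    have hle : Algebra.adjoin 𝒪 (Set.range fun s => a (e s)) ≤ ev.range := by
      apply Algebra.adjoin_le
      rintro _ ⟨s, rfl⟩
      refine ⟨MvPowerSeries.X s + MvPowerSeries.C (c (e s)), ?_⟩
      show ev (MvPowerSeries.X s + MvPowerSeries.C (c (e s))) = a (e s)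
      rw [map_add, hev, hC]
      ring
    exact hle hmem
  choose f hf using hrange
  refine ⟨f, ⟨?_, fun s => ?_⟩, hf⟩
  · refine LT.of_injective hL (Ideal.kerLiftAlg ev) (Ideal.kerLiftAlg_injective ev) ?_
    have : (fun i => Ideal.kerLiftAlg ev (Ideal.Quotient.mk (RingHom.ker ev) (f i))) = a :=
      funext fun i => by rw [Ideal.kerLiftAlg_mk, hf]
    rw [this]
    exact ha
  · rw [RingHom.mem_ker, map_sub, map_add, hf, hev, hC]
    ring

omit [IsNoetherianRing 𝒪] [IsAdicComplete (maximalIdeal 𝒪) 𝒪] [Finite (ResidueField 𝒪)]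
  [Finite κ] in
theorem IsWit.exists_pow_le (h : IsWit c L e K f) :
    ∃ n, maximalIdeal (MvPowerSeries κ 𝒪) ^ n ≤ K := by
  obtain ⟨⟨h1, h2, -⟩, -⟩ := h
  haveI := h2.isArtinian
  obtain ⟨N, hN⟩ := exists_maximalIdeal_pow_eq_bot (MvPowerSeries κ 𝒪 ⧸ K)
  refine ⟨N, fun x hx => ?_⟩
  haveI : IsLocalHom (Ideal.Quotient.mk K) :=
    IsLocalHom.of_surjective (Ideal.Quotient.mk K) Ideal.Quotient.mk_surjective
  have hle : Ideal.map (Ideal.Quotient.mk K) (maximalIdeal (MvPowerSeries κ 𝒪)) ≤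
      maximalIdeal (MvPowerSeries κ 𝒪 ⧸ K) := by
    rw [Ideal.map_le_iff_le_comap]
    intro y hy
    exact map_nonunit (Ideal.Quotient.mk K) y hy
  have h3 : Ideal.Quotient.mk K x ∈ maximalIdeal (MvPowerSeries κ 𝒪 ⧸ K) ^ N := by
    have := Ideal.mem_map_of_mem (Ideal.Quotient.mk K) hx
    rw [Ideal.map_pow] at this
    exact Ideal.pow_right_mono hle N this
  rw [hN, Ideal.mem_bot] at h3
  exact Ideal.Quotient.eq_zero_iff_mem.mp h3

/-! ### The chain of minimal ideals -/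

/-- The least ideal in the family containing the `n`-th power of the maximal ideal. -/
def Kseq (c : ι → 𝒪)
    (L : ∀ ⦃A : Type⦄ [CommRing A] [IsLocalRing A] [Algebra 𝒪 A], (ι → A) → Prop) (e : κ → ι)
    (n : ℕ) : Ideal (MvPowerSeries κ 𝒪) :=
  sInf {K | (∃ f, IsWit c L e K f) ∧ maximalIdeal (MvPowerSeries κ 𝒪) ^ n ≤ K}

omit [IsNoetherianRing 𝒪] [IsAdicComplete (maximalIdeal 𝒪) 𝒪] [Finite (ResidueField 𝒪)]
  [Finite κ] in
theorem kseq_le (h : IsWit c L e K f) {n : ℕ}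
    (hn : maximalIdeal (MvPowerSeries κ 𝒪) ^ n ≤ K) : Kseq c L e n ≤ K :=
  sInf_le ⟨⟨f, h⟩, hn⟩

omit [IsNoetherianRing 𝒪] [IsAdicComplete (maximalIdeal 𝒪) 𝒪] [Finite (ResidueField 𝒪)]
  [Finite κ] in
theorem pow_le_kseq (n : ℕ) : maximalIdeal (MvPowerSeries κ 𝒪) ^ n ≤ Kseq c L e n :=
  le_sInf fun _ hK => hK.2

omit [IsNoetherianRing 𝒪] [IsAdicComplete (maximalIdeal 𝒪) 𝒪] [Finite (ResidueField 𝒪)]
  [Finite κ] in
theorem kseq_antitone {n N : ℕ} (h : n ≤ N) : Kseq c L e N ≤ Kseq c L e n :=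
  sInf_le_sInf fun _ hK => ⟨hK.1, (Ideal.pow_le_pow_right h).trans hK.2⟩

omit [IsAdicComplete (maximalIdeal 𝒪) 𝒪] in
theorem exists_isWit_kseq (hL : RigidFunctor 𝒪 ι c L) (hsep : Sep L e) (n : ℕ) (hn : n ≠ 0) :
    ∃ f, IsWit c L e (Kseq c L e n) f := by
  haveI : Finite (MvPowerSeries κ 𝒪 ⧸ maximalIdeal (MvPowerSeries κ 𝒪) ^ n) :=
    finite_quotient_maximalIdeal_pow n
  obtain ⟨K, ⟨⟨f, hf⟩, hK⟩, hleast⟩ := exists_least_ideal
    (maximalIdeal (MvPowerSeries κ 𝒪) ^ n)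
    {K | (∃ f, IsWit c L e K f) ∧ maximalIdeal (MvPowerSeries κ 𝒪) ^ n ≤ K}
    ⟨maximalIdeal (MvPowerSeries κ 𝒪), ⟨_, isWit_maximalIdeal hL⟩, Ideal.pow_le_self hn⟩
    (fun J₁ h₁ J₂ h₂ => by
      obtain ⟨⟨f₁, hf₁⟩, hJ₁⟩ := h₁
      obtain ⟨⟨f₂, hf₂⟩, hJ₂⟩ := h₂
      exact ⟨hf₁.inf hL hsep hf₂, le_inf hJ₁ hJ₂⟩)
    (fun J hJ => hJ.2)
  have : Kseq c L e n = K := le_antisymm (sInf_le ⟨⟨f, hf⟩, hK⟩) (le_sInf fun J hJ => hleast J hJ)
  rw [this]
  exact ⟨f, hf⟩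

omit [IsAdicComplete (maximalIdeal 𝒪) 𝒪] in
theorem kseq_sup (hL : RigidFunctor 𝒪 ι c L) (hsep : Sep L e) {n N : ℕ} (h : n ≤ N) :
    Kseq c L e N ⊔ maximalIdeal (MvPowerSeries κ 𝒪) ^ n = Kseq c L e n := by
  rcases Nat.eq_zero_or_pos n with rfl | hn
  · rw [pow_zero, Ideal.one_eq_top, sup_top_eq]
    symm
    rw [eq_top_iff]
    refine le_sInf fun K hK => ?_
    have := hK.2
    rwa [pow_zero, Ideal.one_eq_top] at this
  · have hN : N ≠ 0 := by omega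
    have hn' : n ≠ 0 := by omega
    refine le_antisymm (sup_le (kseq_antitone h) (pow_le_kseq n)) ?_
    obtain ⟨f, hf⟩ := exists_isWit_kseq hL hsep N hN
    have hmtop : maximalIdeal (MvPowerSeries κ 𝒪) ≠ ⊤ := (maximalIdeal.isMaximal _).ne_top
    have hne : Kseq c L e N ⊔ maximalIdeal (MvPowerSeries κ 𝒪) ^ n ≠ ⊤ := fun htop =>
      hmtop (top_le_iff.mp (htop ▸ sup_le (le_maximalIdeal hf.ne_top) (Ideal.pow_le_self hn')))
    exact kseq_le (hf.mono hL le_sup_left hne) le_sup_right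

/-- The defining ideal of the pro-representing ring. -/
def aIdeal (c : ι → 𝒪)
    (L : ∀ ⦃A : Type⦄ [CommRing A] [IsLocalRing A] [Algebra 𝒪 A], (ι → A) → Prop) (e : κ → ι) :
    Ideal (MvPowerSeries κ 𝒪) :=
  ⨅ N, Kseq c L e N

theorem aIdeal_sup (hL : RigidFunctor 𝒪 ι c L) (hsep : Sep L e) (n : ℕ) :
    aIdeal c L e ⊔ maximalIdeal (MvPowerSeries κ 𝒪) ^ n = Kseq c L e n := by
  haveI : IsAdicComplete (maximalIdeal (MvPowerSeries κ 𝒪)) (MvPowerSeries κ 𝒪) :=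
    isAdicComplete_mvPowerSeries
  exact iInf_sup_pow_eq (maximalIdeal (MvPowerSeries κ 𝒪)) (Kseq c L e)
    (fun n N h => kseq_sup hL hsep h) n

omit [IsAdicComplete (maximalIdeal 𝒪) 𝒪] in
theorem aIdeal_le_maximalIdeal (hL : RigidFunctor 𝒪 ι c L) (hsep : Sep L e) :
    aIdeal c L e ≤ maximalIdeal (MvPowerSeries κ 𝒪) := by
  obtain ⟨f, hf⟩ := exists_isWit_kseq hL hsep 1 one_ne_zero
  exact (iInf_le _ 1).trans (le_maximalIdeal hf.ne_top)

omit [IsAdicComplete (maximalIdeal 𝒪) 𝒪] in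
theorem aIdeal_ne_top (hL : RigidFunctor 𝒪 ι c L) (hsep : Sep L e) : aIdeal c L e ≠ ⊤ :=
  fun htop => (maximalIdeal.isMaximal (MvPowerSeries κ 𝒪)).ne_top
    (top_le_iff.mp (htop ▸ aIdeal_le_maximalIdeal hL hsep))

/-! ### The universal family -/

omit [IsNoetherianRing 𝒪] [IsAdicComplete (maximalIdeal 𝒪) 𝒪] [Finite (ResidueField 𝒪)]
  [Finite κ] in
theorem mk_mem_maximalIdeal_pow (𝔞 : Ideal (MvPowerSeries κ 𝒪))
    [IsLocalRing (MvPowerSeries κ 𝒪 ⧸ 𝔞)] {x : MvPowerSeries κ 𝒪} {k : ℕ}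
    (hx : x ∈ 𝔞 ⊔ maximalIdeal (MvPowerSeries κ 𝒪) ^ k) :
    Ideal.Quotient.mk 𝔞 x ∈ maximalIdeal (MvPowerSeries κ 𝒪 ⧸ 𝔞) ^ k := by
  haveI : IsLocalHom (Ideal.Quotient.mk 𝔞) :=
    IsLocalHom.of_surjective (Ideal.Quotient.mk 𝔞) Ideal.Quotient.mk_surjective
  have hle : Ideal.map (Ideal.Quotient.mk 𝔞) (maximalIdeal (MvPowerSeries κ 𝒪)) ≤
      maximalIdeal (MvPowerSeries κ 𝒪 ⧸ 𝔞) := by
    rw [Ideal.map_le_iff_le_comap]
    intro y hy
    exact map_nonunit (Ideal.Quotient.mk 𝔞) y hy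
  obtain ⟨a, ha, y, hy, rfl⟩ := Submodule.mem_sup.mp hx
  rw [map_add, Ideal.Quotient.eq_zero_iff_mem.mpr ha, zero_add]
  have := Ideal.mem_map_of_mem (Ideal.Quotient.mk 𝔞) hy
  rw [Ideal.map_pow] at this
  exact Ideal.pow_right_mono hle k this

omit [IsNoetherianRing 𝒪] [IsAdicComplete (maximalIdeal 𝒪) 𝒪] [Finite (ResidueField 𝒪)]
  [Finite κ] in
theorem mem_sup_of_mk_mem_maximalIdeal_pow (𝔞 : Ideal (MvPowerSeries κ 𝒪))
    [IsLocalRing (MvPowerSeries κ 𝒪 ⧸ 𝔞)] {x : MvPowerSeries κ 𝒪} {k : ℕ}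
    (hx : Ideal.Quotient.mk 𝔞 x ∈ maximalIdeal (MvPowerSeries κ 𝒪 ⧸ 𝔞) ^ k) :
    x ∈ 𝔞 ⊔ maximalIdeal (MvPowerSeries κ 𝒪) ^ k := by
  have hsurj : Function.Surjective (Ideal.Quotient.mk 𝔞) := Ideal.Quotient.mk_surjective
  have hle : maximalIdeal (MvPowerSeries κ 𝒪 ⧸ 𝔞) ≤
      Ideal.map (Ideal.Quotient.mk 𝔞) (maximalIdeal (MvPowerSeries κ 𝒪)) := by
    intro y hy
    obtain ⟨z, rfl⟩ := hsurj y
    refine Ideal.mem_map_of_mem _ ?_
    rw [mem_maximalIdeal, mem_nonunits_iff]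
    intro hz
    exact hy (hz.map (Ideal.Quotient.mk 𝔞))
  have h1 := Ideal.pow_right_mono hle k hx
  rw [← Ideal.map_pow] at h1
  have h2 : x ∈ Ideal.comap (Ideal.Quotient.mk 𝔞)
      (Ideal.map (Ideal.Quotient.mk 𝔞) (maximalIdeal (MvPowerSeries κ 𝒪) ^ k)) := h1
  rw [Ideal.comap_map_of_surjective _ hsurj, ← RingHom.ker_eq_comap_bot, Ideal.mk_ker,
    sup_comm] at h2
  exact h2

theorem exists_univ (hL : RigidFunctor 𝒪 ι c L) (hsep : Sep L e) :
    ∃ U : ι → MvPowerSeries κ 𝒪, ∀ K f, IsWit c L e K f → ∀ i, U i - f i ∈ K := by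
  choose F hF using fun n : ℕ => exists_isWit_kseq hL hsep (n + 1) (Nat.succ_ne_zero n)
  have key : ∀ K f, IsWit c L e K f → ∀ n, Kseq c L e (n + 1) ≤ K → ∀ i, F n i - f i ∈ K :=
    fun K f h n hle i => ((hF n).mono hL hle h.ne_top).unique hL hsep h i
  haveI : IsLocalRing (MvPowerSeries κ 𝒪 ⧸ aIdeal c L e) :=
    isLocalRing_quotient _ (aIdeal_ne_top hL hsep)
  haveI : IsAdicComplete (maximalIdeal (MvPowerSeries κ 𝒪 ⧸ aIdeal c L e))
      (MvPowerSeries κ 𝒪 ⧸ aIdeal c L e) := isAdicComplete_quotient _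
  have hlim : ∀ i, ∃ u : MvPowerSeries κ 𝒪, ∀ n, F n i - u ∈ Kseq c L e n := by
    intro i
    obtain ⟨lim, hlim⟩ := IsPrecomplete.prec
      (inferInstance : IsPrecomplete (maximalIdeal (MvPowerSeries κ 𝒪 ⧸ aIdeal c L e))
        (MvPowerSeries κ 𝒪 ⧸ aIdeal c L e))
      (f := fun n => Ideal.Quotient.mk (aIdeal c L e) (F n i)) (by
        intro m n hmn
        rw [SModEq.sub_mem, smul_eq_mul, Ideal.mul_top, ← map_sub, ← Ideal.neg_mem_iff,
          ← map_neg, neg_sub]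
        have h1 : F n i - F m i ∈ Kseq c L e (m + 1) :=
          key _ _ (hF m) n (kseq_antitone (by omega)) i
        rw [← aIdeal_sup hL hsep] at h1
        exact Ideal.pow_le_pow_right (Nat.le_succ m) (mk_mem_maximalIdeal_pow _ h1))
    obtain ⟨u, rfl⟩ := Ideal.Quotient.mk_surjective lim
    refine ⟨u, fun n => ?_⟩
    have h2 := hlim n
    rw [SModEq.sub_mem, smul_eq_mul, Ideal.mul_top, ← map_sub] at h2
    rw [← aIdeal_sup hL hsep]
    exact mem_sup_of_mk_mem_maximalIdeal_pow _ h2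
  choose U hU using hlim
  refine ⟨U, fun K f h i => ?_⟩
  obtain ⟨n, hn⟩ := h.exists_pow_le
  have hle : Kseq c L e n ≤ K := kseq_le h hn
  have h1 : F n i - f i ∈ K := key K f h n ((kseq_antitone (Nat.le_succ n)).trans hle) i
  have h2 : F n i - U i ∈ K := hle (hU i n)
  have : U i - f i = (F n i - f i) - (F n i - U i) := by ring
  rw [this]
  exact K.sub_mem h1 h2

/-! ### Pro-representability -/

theorem nonempty_proRep_aux (hL : RigidFunctor 𝒪 ι c L) (hsep : Sep L e) :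
    Nonempty (ProRep 𝒪 ι L) := by
  obtain ⟨U, hU⟩ := exists_univ hL hsep
  have hUw : ∀ K f, IsWit c L e K f → IsWit c L e K U := fun K f h => h.congr (hU K f h)
  have h𝔞top : aIdeal c L e ≠ ⊤ := aIdeal_ne_top hL hsep
  have hUa : ∀ s, U (e s) - (MvPowerSeries.X s + MvPowerSeries.C (c (e s))) ∈ aIdeal c L e := by
    intro s
    refine Ideal.mem_iInf.mpr fun n => Submodule.mem_sInf.mpr fun K hK => ?_
    obtain ⟨⟨f, hf⟩, -⟩ := hK
    exact (hUw K f hf).2 s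
  haveI : IsLocalRing (MvPowerSeries κ 𝒪 ⧸ aIdeal c L e) := isLocalRing_quotient _ h𝔞top
  refine ⟨{
    R := MvPowerSeries κ 𝒪 ⧸ aIdeal c L e
    instIsAdicComplete := isAdicComplete_quotient _
    instIsLocalHom := isLocalHom_algebraMap_quotient _
    residue_surjective := residue_algebraMap_quotient_surjective _
    u := fun i => Ideal.Quotient.mk (aIdeal c L e) (U i)
    isL := ?_
    universal := ?_ }⟩
  · intro B _ _ _ hB q
    let q' : MvPowerSeries κ 𝒪 →ₐ[𝒪] B := q.comp (Ideal.Quotient.mkₐ 𝒪 (aIdeal c L e))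
    have hKtop : RingHom.ker q' ≠ ⊤ := RingHom.ker_ne_top _
    have h𝔞K : aIdeal c L e ≤ RingHom.ker q' := by
      intro x hx
      rw [RingHom.mem_ker]
      show q (Ideal.Quotient.mk (aIdeal c L e) x) = 0
      rw [Ideal.Quotient.eq_zero_iff_mem.mpr hx, map_zero]
    haveI := hB.isArtinian
    obtain ⟨N, hN⟩ := exists_maximalIdeal_pow_eq_bot B
    haveI : IsLocalHom (q' : MvPowerSeries κ 𝒪 →+* B) :=
      isLocalHom_of_residue_surjective hB.residue_surjective q'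
    have hpow : maximalIdeal (MvPowerSeries κ 𝒪) ^ (N + 1) ≤ RingHom.ker q' := by
      intro x hx
      have hx' := Ideal.pow_le_pow_right (Nat.le_succ N) hx
      have hle : Ideal.map (q' : MvPowerSeries κ 𝒪 →+* B) (maximalIdeal (MvPowerSeries κ 𝒪)) ≤
          maximalIdeal B := by
        rw [Ideal.map_le_iff_le_comap]
        intro y hy
        exact map_nonunit (q' : MvPowerSeries κ 𝒪 →+* B) y hy
      have h3 := Ideal.mem_map_of_mem (q' : MvPowerSeries κ 𝒪 →+* B) hx'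
      rw [Ideal.map_pow] at h3
      have h4 := Ideal.pow_right_mono hle N h3
      rw [hN, Ideal.mem_bot] at h4
      exact h4
    have hle : Kseq c L e (N + 1) ≤ RingHom.ker q' := by
      rw [← aIdeal_sup hL hsep]
      exact sup_le h𝔞K hpow
    obtain ⟨f, hf⟩ := exists_isWit_kseq hL hsep (N + 1) (Nat.succ_ne_zero N)
    have hw : IsWit c L e (RingHom.ker q') U := (hUw _ f hf).mono hL hle hKtop
    obtain ⟨_, _, h⟩ := LT.map hL (Ideal.kerLiftAlg q') ⟨inferInstance, hB⟩ hw.1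
    exact h
  · intro A _ _ _ _ _ _ hA a ha
    have hlev : ∀ n, n ≠ 0 →
        LT L (A ⧸ maximalIdeal A ^ n) (fun i => Ideal.Quotient.mk (maximalIdeal A ^ n) (a i)) := by
      intro n hn
      obtain ⟨h1, h2⟩ := isTest_quotient_pow hA n hn
      exact ⟨h1, h2, ha h2 (Ideal.Quotient.mkₐ 𝒪 _) (Ideal.Quotient.mkₐ_surjective 𝒪 _)⟩
    have hm : ∀ s, a (e s) - algebraMap 𝒪 A (c (e s)) ∈ maximalIdeal A := by
      intro s
      obtain ⟨k, hk⟩ := LT.res hL (hlev 1 one_ne_zero) (e s)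
      have h1 : Ideal.Quotient.mk (maximalIdeal A ^ 1)
          ((a (e s) - algebraMap 𝒪 A (c (e s))) ^ k) = 0 := by
        rw [map_pow, map_sub]
        exact hk
      have h2 := Ideal.Quotient.eq_zero_iff_mem.mp h1
      rw [pow_one] at h2
      exact (maximalIdeal.isMaximal A).isPrime.mem_of_pow_mem k h2
    obtain ⟨ev, hev⟩ := exists_evalComplete (R := 𝒪) (maximalIdeal A)
      (fun s : κ => a (e s) - algebraMap 𝒪 A (c (e s))) hm
    have hkey : ∀ n, n ≠ 0 →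
        (∀ x ∈ aIdeal c L e, ev x ∈ maximalIdeal A ^ n) ∧
          ∀ i, ev (U i) - a i ∈ maximalIdeal A ^ n := by
      intro n hn
      let evn : MvPowerSeries κ 𝒪 →ₐ[𝒪] A ⧸ maximalIdeal A ^ n :=
        (Ideal.Quotient.mkₐ 𝒪 (maximalIdeal A ^ n)).comp ev
      have hevn : ∀ s, evn (MvPowerSeries.X s) =
          Ideal.Quotient.mk (maximalIdeal A ^ n) (a (e s)) -
            algebraMap 𝒪 (A ⧸ maximalIdeal A ^ n) (c (e s)) := by
        intro s
        show Ideal.Quotient.mk (maximalIdeal A ^ n) (ev (MvPowerSeries.X s)) = _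
        rw [hev, map_sub]
        rfl
      obtain ⟨f, hf, hfa⟩ := IsWit.of_eval hL hsep (hlev n hn) evn hevn
      constructor
      · intro x hx
        obtain ⟨N, hN⟩ := hf.exists_pow_le
        have h1 : x ∈ RingHom.ker evn := (iInf_le _ N).trans (kseq_le hf hN) hx
        exact Ideal.Quotient.eq_zero_iff_mem.mp h1
      · intro i
        have h1 : U i - f i ∈ RingHom.ker evn := hU _ f hf i
        have h2 : evn (U i) = evn (f i) := by
          rw [← sub_eq_zero, ← map_sub]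
          exact h1
        rw [hfa] at h2
        exact Ideal.Quotient.eq.mp h2
    have hbot : ⨅ n, maximalIdeal A ^ n = ⊥ :=
      Ideal.iInf_pow_eq_bot_of_isLocalRing _ (maximalIdeal.isMaximal A).ne_top
    have hsepA : ∀ x : A, (∀ n, n ≠ 0 → x ∈ maximalIdeal A ^ n) → x = 0 := by
      intro x hx
      have : x ∈ ⨅ n, maximalIdeal A ^ n := by
        refine Ideal.mem_iInf.mpr fun n => ?_
        by_cases hn : n = 0
        · subst hn
          rw [pow_zero, Ideal.one_eq_top]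
          trivial
        · exact hx n hn
      rwa [hbot, Ideal.mem_bot] at this
    have hUev : ∀ i, ev (U i) = a i := fun i =>
      sub_eq_zero.mp (hsepA _ fun n hn => (hkey n hn).2 i)
    have h𝔞ker : ∀ x ∈ aIdeal c L e, ev x = 0 := fun x hx =>
      hsepA _ fun n hn => (hkey n hn).1 x hx
    let φ : MvPowerSeries κ 𝒪 ⧸ aIdeal c L e →ₐ[𝒪] A :=
      Ideal.Quotient.liftₐ (aIdeal c L e) ev h𝔞ker
    have hφ : φ.comp (Ideal.Quotient.mkₐ 𝒪 (aIdeal c L e)) = ev :=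
      Ideal.Quotient.liftₐ_comp _ _ _
    refine ⟨φ, fun i => hUev i, ?_⟩
    intro φ' hφ'
    apply Ideal.Quotient.algHom_ext
    rw [hφ]
    have hX : ∀ s, (φ'.comp (Ideal.Quotient.mkₐ 𝒪 (aIdeal c L e))) (MvPowerSeries.X s) =
        ev (MvPowerSeries.X s) := by
      intro s
      have h2 : Ideal.Quotient.mk (aIdeal c L e) (MvPowerSeries.X s) =
          Ideal.Quotient.mk (aIdeal c L e) (U (e s)) -
            algebraMap 𝒪 (MvPowerSeries κ 𝒪 ⧸ aIdeal c L e) (c (e s)) := by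
        have h3 : Ideal.Quotient.mk (aIdeal c L e) (U (e s)) =
            Ideal.Quotient.mk (aIdeal c L e)
              (MvPowerSeries.X s + MvPowerSeries.C (c (e s))) :=
          Ideal.Quotient.eq.mpr (hUa s)
        rw [h3, map_add]
        have : Ideal.Quotient.mk (aIdeal c L e) (MvPowerSeries.C (c (e s))) =
            algebraMap 𝒪 (MvPowerSeries κ 𝒪 ⧸ aIdeal c L e) (c (e s)) := rfl
        rw [this]
        ring
      show φ' (Ideal.Quotient.mk (aIdeal c L e) (MvPowerSeries.X s)) = _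
      rw [h2, map_sub, hφ' (e s), AlgHom.commutes, hev]
    refine algHom_ext_X (maximalIdeal A) hbot _ _ hX (fun s => ?_)
    rw [hX, hev]
    exact hm s

end Ring

/-- **Pro-representability of rigid functors.** -/
theorem nonempty_proRep (𝒪 : Type) [CommRing 𝒪] [IsLocalRing 𝒪] [IsNoetherianRing 𝒪]
    [IsAdicComplete (maximalIdeal 𝒪) 𝒪] [Finite (ResidueField 𝒪)] {ι : Type} {c : ι → 𝒪}
    {L : ∀ ⦃A : Type⦄ [CommRing A] [IsLocalRing A] [Algebra 𝒪 A], (ι → A) → Prop}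
    (hL : RigidFunctor 𝒪 ι c L) : Nonempty (ProRep 𝒪 ι L) := by
  obtain ⟨S0, hS0⟩ := hL.tangent
  exact nonempty_proRep_aux (κ := ↥S0) (e := Subtype.val) hL
    (fun a a' ha ha' h => hS0 a a' ha ha' (fun i hi => h ⟨i, hi⟩))

end Fermat.Agent.S53Lib.Abs

end
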