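import Mathlib
import Fermat.Prelude.Def_GaloisRep_Residual

set_option autoImplicit false

/-!
# Burnside's theorem in dimension two, and matrix units in the span of a residual representation
-/

namespace Fermat.Agent.S53Lib.Burnside

open scoped TensorProduct


/-- Auxiliary dimension count: a subspace of dimension `≤ 3` mapping onto a plane has a kernel
of dimension `≤ 1`. -/
theorem ker_proportional {K V W : Type*} [Field K] [AddCommGroup V] [Module K V]
    [AddCommGroup W] [Module K W] [Module.Finite K V] (p : Submodule K V) (f : V →ₗ[K] W)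
    (hp : Module.finrank K p ≤ 3) (hW : Module.finrank K W = 2) (hsurj : p.map f = ⊤)
    (n : V) (hn : n ∈ p) (hn0 : n ≠ 0) (hfn : f n = 0) :
    ∀ c ∈ p, f c = 0 → ∃ t : K, c = t • n := by
  intro c hc hfc
  let E : p →ₗ[K] W := f.domRestrict p
  have hrange : LinearMap.range E = ⊤ := by
    rw [LinearMap.range_domRestrict]
    exact hsurj
  have hker : Module.finrank K (LinearMap.ker E) ≤ 1 := by
    have h1 := LinearMap.finrank_range_add_finrank_ker E
    rw [hrange, finrank_top, hW] at h1
    omega
  obtain ⟨g, hg⟩ := finrank_le_one_iff.mp hker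
  obtain ⟨s, hs⟩ := hg ⟨⟨n, hn⟩, hfn⟩
  obtain ⟨t, ht⟩ := hg ⟨⟨c, hc⟩, hfc⟩
  have hs' : s • ((g : p) : V) = n := by
    have := congrArg (fun z : LinearMap.ker E => ((z : p) : V)) hs
    simpa using this
  have ht' : t • ((g : p) : V) = c := by
    have := congrArg (fun z : LinearMap.ker E => ((z : p) : V)) ht
    simpa using this
  have hs0 : s ≠ 0 := by
    rintro rfl
    apply hn0
    rw [← hs', zero_smul]
  refine ⟨t * s⁻¹, ?_⟩
  rw [← ht', ← hs', smul_smul, mul_assoc, inv_mul_cancel₀ hs0, mul_one]

/-- Burnside in dimension `2` over an algebraically closed field: a subalgebra of `End W`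
without nontrivial invariant subspace is everything. -/
theorem burnside_two {K W : Type*} [Field K] [IsAlgClosed K] [AddCommGroup W] [Module K W]
    (h2 : Module.finrank K W = 2) (B : Subalgebra K (Module.End K W))
    (hirr : ∀ U : Submodule K W, (∀ b ∈ B, ∀ u ∈ U, b u ∈ U) → U = ⊥ ∨ U = ⊤) :
    B = ⊤ := by
  classical
  have : Module.Finite K W := Module.finite_of_finrank_eq_succ h2
  have : Nontrivial W := Module.nontrivial_of_finrank_pos (R := K) (by omega)
  by_contra hB
  have hfr4 : Module.finrank K (Module.End K W) = 4 := by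
    rw [Module.finrank_linearMap, h2]
  have hlt : Module.finrank K (Subalgebra.toSubmodule B) < 4 := by
    have : Subalgebra.toSubmodule B ≠ ⊤ := by
      intro h
      apply hB
      exact Subalgebra.toSubmodule_injective (by rw [h]; rfl)
    have := Submodule.finrank_lt this
    omega
  -- a non-scalar element
  have hns : ∃ a ∈ B, ∀ μ : K, a ≠ μ • (1 : Module.End K W) := by
    by_contra hcon
    push Not at hcon
    obtain ⟨w, hw⟩ := exists_ne (0 : W)
    have hinv : ∀ b ∈ B, ∀ u ∈ (K ∙ w), b u ∈ (K ∙ w) := by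
      intro b hb u hu
      obtain ⟨μ, hμ⟩ := hcon b hb
      rw [hμ]
      simpa using Submodule.smul_mem _ μ hu
    rcases hirr _ hinv with h | h
    · exact hw ((Submodule.span_singleton_eq_bot).mp h)
    · have h1 : Module.finrank K (K ∙ w) = 1 := finrank_span_singleton hw
      rw [h, finrank_top, h2] at h1
      omega
  obtain ⟨a, haB, hans⟩ := hns
  obtain ⟨μ, hμ⟩ := Module.End.exists_eigenvalue a
  obtain ⟨v, hv⟩ := hμ.exists_hasEigenvector
  have hv0 : v ≠ 0 := hv.2
  have hav : a v = μ • v := hv.apply_eq_smul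
  -- evaluation at v
  let E : Module.End K W →ₗ[K] W := LinearMap.applyₗ v
  have hE : ∀ b : Module.End K W, E b = b v := fun b => rfl
  have hrange : (Subalgebra.toSubmodule B).map E = ⊤ := by
    have hinv : ∀ b ∈ B, ∀ u ∈ (Subalgebra.toSubmodule B).map E,
        b u ∈ (Subalgebra.toSubmodule B).map E := by
      rintro b hb _ ⟨c, hc, rfl⟩
      exact ⟨b * c, B.mul_mem hb hc, rfl⟩
    rcases hirr _ hinv with h | h
    · exfalso
      have : v ∈ (Subalgebra.toSubmodule B).map E := ⟨1, B.one_mem, rfl⟩
      rw [h] at this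
      exact hv0 ((Submodule.mem_bot K).mp this)
    · exact h
  -- n = a - μ
  set n : Module.End K W := a - μ • 1 with hn
  have hnB : n ∈ B := B.sub_mem haB (B.smul_mem B.one_mem μ)
  have hn0 : n ≠ 0 := by
    intro h
    exact hans μ (sub_eq_zero.mp h)
  have hnv : n v = 0 := by
    rw [hn, LinearMap.sub_apply, hav]
    simp
  -- every element of the kernel is a multiple of n
  have hkerspan : ∀ c ∈ B, c v = 0 → ∃ t : K, c = t • n :=
    ker_proportional (Subalgebra.toSubmodule B) E (by omega) h2 hrange n hnB hn0 hnv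
  -- the range of n is invariant
  have hinv : ∀ b ∈ B, ∀ u ∈ LinearMap.range n, b u ∈ LinearMap.range n := by
    rintro b hb _ ⟨w, rfl⟩
    have hbn : (b * n) v = 0 := by
      show b (n v) = 0
      rw [hnv, map_zero]
    obtain ⟨t, ht⟩ := hkerspan _ (B.mul_mem hb hnB) hbn
    refine ⟨t • w, ?_⟩
    rw [map_smul]
    have := congrArg (fun f : Module.End K W => f w) ht
    simpa using this.symm
  rcases hirr _ hinv with h | h
  · apply hn0
    exact LinearMap.range_eq_bot.mp h
  · have hsurj : Function.Surjective n := LinearMap.range_eq_top.mp h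
    have hinj : Function.Injective n := LinearMap.injective_iff_surjective.mpr hsurj
    exact hv0 (hinj (by rw [hnv, map_zero]))


/-- For an absolutely irreducible residual representation the `k`-span of the image is the
whole endomorphism algebra. -/
theorem span_range_eq_top {k : Type} [Field k] (ρ : ResidualGaloisRep k)
    (h : ρ.IsAbsolutelyIrreducible) :
    Submodule.span k (Set.range ρ.ρ) = ⊤ := by
  classical
  by_contra hne
  obtain ⟨φ, hφ0, hφ⟩ := Submodule.exists_le_ker_of_lt_top _ (lt_top_iff_ne_top.mpr hne)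
  let K := AlgebraicClosure k
  let b : Module.Basis (Fin 2) k ρ.V := Module.finBasisOfFinrankEq k ρ.V ρ.finrank_eq
  let bK : Module.Basis (Fin 2) K (K ⊗[k] ρ.V) := Algebra.TensorProduct.basis K b
  let c : Fin 2 → Fin 2 → k := fun i j => φ (Matrix.toLin b b (Matrix.single i j 1))
  let Ψ' : Matrix (Fin 2) (Fin 2) K →ₗ[K] K :=
    ∑ i, ∑ j, (algebraMap k K (c i j)) • Matrix.entryLinearMap K K i j
  have hΨ' : ∀ M : Matrix (Fin 2) (Fin 2) K, Ψ' M = ∑ i, ∑ j, algebraMap k K (c i j) * M i j := by
    intro M
    simp [Ψ', Algebra.smul_def]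
  let Ψ : Module.End K (K ⊗[k] ρ.V) →ₗ[K] K := Ψ'.comp (LinearMap.toMatrix bK bK).toLinearMap
  have hφc : ∀ f : Module.End k ρ.V, φ f = ∑ i, ∑ j, c i j * LinearMap.toMatrix b b f i j := by
    intro f
    have hf : f = ∑ i, ∑ j, (LinearMap.toMatrix b b f i j) •
        Matrix.toLin b b (Matrix.single i j 1) := by
      apply (LinearMap.toMatrix b b).injective
      rw [map_sum]
      conv_lhs => rw [Matrix.matrix_eq_sum_single (LinearMap.toMatrix b b f)]
      refine Finset.sum_congr rfl fun i _ => ?_
      rw [map_sum]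
      refine Finset.sum_congr rfl fun j _ => ?_
      rw [map_smul, LinearMap.toMatrix_toLin, Matrix.smul_single, smul_eq_mul, mul_one]
    conv_lhs => rw [hf]
    rw [map_sum]
    refine Finset.sum_congr rfl fun i _ => ?_
    rw [map_sum]
    refine Finset.sum_congr rfl fun j _ => ?_
    rw [map_smul, smul_eq_mul, mul_comm]
  have hΨbase : ∀ f : Module.End k ρ.V, Ψ (f.baseChange K) = algebraMap k K (φ f) := by
    intro f
    show Ψ' (LinearMap.toMatrix bK bK (f.baseChange K)) = _
    rw [hΨ', LinearMap.toMatrix_baseChange, hφc, map_sum]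
    refine Finset.sum_congr rfl fun i _ => ?_
    rw [map_sum]
    refine Finset.sum_congr rfl fun j _ => ?_
    rw [map_mul, Matrix.map_apply]
  -- Burnside over the algebraic closure
  let r : (AlgebraicClosure ℚ ≃ₐ[ℚ] AlgebraicClosure ℚ) →* Module.End K (K ⊗[k] ρ.V) :=
    (ρ.baseChange K).ρ
  have hr : ∀ g, r g = (ρ.ρ g).baseChange K := fun g => rfl
  let B : Subalgebra K (Module.End K (K ⊗[k] ρ.V)) := Algebra.adjoin K (Set.range r)
  have hB : B = ⊤ := by
    apply burnside_two (ρ.baseChange K).finrank_eq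
    intro U hU
    apply h U
    intro σ x hx
    exact hU _ (Algebra.subset_adjoin ⟨σ, rfl⟩) x hx
  have hspan : Submodule.span K (Set.range r) = ⊤ := by
    have h1 : Subalgebra.toSubmodule B = Submodule.span K (Submonoid.closure (Set.range r)) :=
      Algebra.adjoin_eq_span K (Set.range r)
    have h2 : (Submonoid.closure (Set.range r) : Set _) = Set.range r := by
      have : Set.range r = (MonoidHom.mrange r : Set _) := (MonoidHom.coe_mrange r).symm
      rw [this, Submonoid.closure_eq]
    rw [h2, hB] at h1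
    exact h1.symm
  have hΨ0 : Ψ = 0 := by
    have hle : Submodule.span K (Set.range r) ≤ LinearMap.ker Ψ := by
      rw [Submodule.span_le]
      rintro _ ⟨g, rfl⟩
      rw [SetLike.mem_coe, LinearMap.mem_ker, hr, hΨbase]
      have : ρ.ρ g ∈ LinearMap.ker φ := hφ (Submodule.subset_span ⟨g, rfl⟩)
      rw [LinearMap.mem_ker.mp this, map_zero]
    rw [hspan] at hle
    ext f
    exact LinearMap.mem_ker.mp (hle Submodule.mem_top)
  apply hφ0
  ext f
  rw [LinearMap.zero_apply]
  have := hΨbase f
  rw [hΨ0, LinearMap.zero_apply] at this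
  exact ((algebraMap k K).injective (by rw [map_zero]; exact this.symm))

/-- Matrix units in the span of an absolutely irreducible residual representation. -/
theorem exists_basis_matrixUnits {k : Type} [Field k] (ρ : ResidualGaloisRep k)
    (h : ρ.IsAbsolutelyIrreducible) :
    ∃ (b : Module.Basis (Fin 2) k ρ.V)
      (x y : (AlgebraicClosure ℚ ≃ₐ[ℚ] AlgebraicClosure ℚ) →₀ k),
      LinearMap.toMatrix b b (x.sum fun s c => c • ρ.ρ s) = Matrix.single 0 0 1 ∧
      LinearMap.toMatrix b b (y.sum fun s c => c • ρ.ρ s) = Matrix.single 1 0 1 := by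
  classical
  let b : Module.Basis (Fin 2) k ρ.V := Module.finBasisOfFinrankEq k ρ.V ρ.finrank_eq
  have hspan := span_range_eq_top ρ h
  have hx : Matrix.toLin b b (Matrix.single 0 0 1) ∈ Submodule.span k (Set.range ρ.ρ) := by
    rw [hspan]; exact Submodule.mem_top
  have hy : Matrix.toLin b b (Matrix.single 1 0 1) ∈ Submodule.span k (Set.range ρ.ρ) := by
    rw [hspan]; exact Submodule.mem_top
  obtain ⟨x, hx⟩ := Finsupp.mem_span_range_iff_exists_finsupp.mp hx
  obtain ⟨y, hy⟩ := Finsupp.mem_span_range_iff_exists_finsupp.mp hy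
  refine ⟨b, x, y, ?_, ?_⟩
  · rw [hx, LinearMap.toMatrix_toLin]
  · rw [hy, LinearMap.toMatrix_toLin]

end Fermat.Agent.S53Lib.Burnside
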