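import Mathlib
import Fermat.Agent.S53Lib.MatRep
import Fermat.Agent.S53Lib.Burnside

set_option autoImplicit false
set_option linter.unusedSectionVars false
set_option linter.unusedSimpArgs false
set_option linter.unusedVariables false

noncomputable section

namespace Fermat.Agent.S53Lib

open IsLocalRing

/-! ### Pure matrix lemmas over a local ring -/

section pure

variable {A : Type} [CommRing A] [IsLocalRing A]

theorem isUnit_of_residue_eq_one {a : A} (h : residue A a = 1) : IsUnit a := by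
  rw [← residue_ne_zero_iff_isUnit, h]
  exact one_ne_zero

/-- Rigidity: a matrix intertwining two "canonical" pairs `(e, f)` and `(e', f')` is scalar. -/
theorem scalar_of_intertwine (e e' f f' u : M2 A)
    (he01 : e 0 1 = 0) (he10 : e 1 0 = 0) (he'01 : e' 0 1 = 0) (he'10 : e' 1 0 = 0)
    (h1 : IsUnit (e' 0 0 - e 1 1)) (h2 : IsUnit (e 0 0 - e' 1 1))
    (hf : f 1 0 = 1) (hf' : f' 1 0 = 1)
    (hue : u * e = e' * u) (huf : u * f = f' * u) :
    u 0 1 = 0 ∧ u 1 0 = 0 ∧ u 1 1 = u 0 0 := by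
  have e01 := congrFun (congrFun hue 0) 1
  have e10 := congrFun (congrFun hue 1) 0
  have f10 := congrFun (congrFun huf 1) 0
  simp only [Matrix.mul_apply, Fin.sum_univ_two] at e01 e10 f10
  rw [he01] at e01
  rw [he'01] at e01
  rw [he10, he'10] at e10
  have hu01 : u 0 1 = 0 := by
    have h : (e' 0 0 - e 1 1) * u 0 1 = 0 := by linear_combination -e01
    exact (h1.mul_right_eq_zero).mp h
  have hu10 : u 1 0 = 0 := by
    have h : (e 0 0 - e' 1 1) * u 1 0 = 0 := by linear_combination e10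
    exact (h2.mul_right_eq_zero).mp h
  refine ⟨hu01, hu10, ?_⟩
  rw [hu10, hf, hf'] at f10
  linear_combination f10

/-- A matrix which is scalar and invertible can be cancelled from an intertwining relation. -/
theorem eq_of_scalar_intertwine (u : (M2 A)ˣ) (a a' : M2 A)
    (h01 : (u : M2 A) 0 1 = 0) (h10 : (u : M2 A) 1 0 = 0) (h11 : (u : M2 A) 1 1 = (u : M2 A) 0 0)
    (h : (u : M2 A) * a = a' * (u : M2 A)) : a = a' := by
  have hu : (u : M2 A) = (u : M2 A) 0 0 • (1 : M2 A) := by
    ext i j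
    fin_cases i <;> fin_cases j <;> simp [h01, h10, h11]
  have hdet : IsUnit ((u : M2 A) 0 0) := by
    have h1 : IsUnit (u : M2 A).det := (Matrix.isUnit_iff_isUnit_det _).mp u.isUnit
    rw [Matrix.det_fin_two, h01, h10, h11] at h1
    simp only [mul_zero, sub_zero] at h1
    exact isUnit_of_mul_isUnit_left h1
  rw [hu] at h
  rw [smul_mul_assoc, one_mul, mul_smul_comm, mul_one] at h
  exact hdet.smul_left_cancel.mp h

/-- Hensel's lemma for the characteristic polynomial of a matrix reducing to `E₁₁`. -/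
theorem exists_eigenvalue [IsAdicComplete (maximalIdeal A) A] (e : M2 A)
    (he : (residue A).mapMatrix e = Matrix.single 0 0 1) :
    ∃ l : A, residue A l = 1 ∧
      l * l - (e 0 0 + e 1 1) * l + (e 0 0 * e 1 1 - e 0 1 * e 1 0) = 0 := by
  have h00 : residue A (e 0 0) = 1 := by
    have := congrFun (congrFun he 0) 0
    simpa using this
  have h01 : residue A (e 0 1) = 0 := by
    have := congrFun (congrFun he 0) 1
    simpa using this
  have h10 : residue A (e 1 0) = 0 := by
    have := congrFun (congrFun he 1) 0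
    simpa using this
  have h11 : residue A (e 1 1) = 0 := by
    have := congrFun (congrFun he 1) 1
    simpa using this
  let p : Polynomial A := Polynomial.X ^ 2 - Polynomial.C (e 0 0 + e 1 1) * Polynomial.X +
    Polynomial.C (e 0 0 * e 1 1 - e 0 1 * e 1 0)
  have hp : p.Monic := by
    have : p = Polynomial.X ^ 2 + (- Polynomial.C (e 0 0 + e 1 1) * Polynomial.X +
        Polynomial.C (e 0 0 * e 1 1 - e 0 1 * e 1 0)) := by
      simp only [p]; ring
    rw [this]
    apply Polynomial.monic_X_pow_add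
    refine lt_of_le_of_lt (Polynomial.degree_add_le _ _) ?_
    refine max_lt ?_ ?_
    · rw [← Polynomial.C_neg]
      exact lt_of_le_of_lt (Polynomial.degree_C_mul_X_le _) (by norm_num)
    · exact lt_of_le_of_lt Polynomial.degree_C_le (by norm_num)
  have hev : p.eval 1 ∈ maximalIdeal A := by
    rw [← residue_eq_zero_iff]
    simp only [p, Polynomial.eval_add, Polynomial.eval_sub, Polynomial.eval_pow, Polynomial.eval_X,
      Polynomial.eval_mul, Polynomial.eval_C, map_add, map_sub, map_mul, map_pow, map_one,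
      h00, h01, h10, h11]
    ring
  have hder : IsUnit (Ideal.Quotient.mk (maximalIdeal A) (p.derivative.eval 1)) := by
    have h : residue A (p.derivative.eval 1) = 1 := by
      simp only [p, Polynomial.derivative_add, Polynomial.derivative_sub,
        Polynomial.derivative_X_pow, Polynomial.derivative_mul, Polynomial.derivative_C,
        Polynomial.derivative_X, Polynomial.eval_add, Polynomial.eval_sub, Polynomial.eval_pow,
        Polynomial.eval_X, Polynomial.eval_mul, Polynomial.eval_C, map_add, map_sub, map_mul,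
        map_pow, map_one, h00, h01, h10, h11, Polynomial.eval_zero, Polynomial.eval_one,
        Polynomial.eval_natCast, map_natCast, map_zero]
      norm_num
    exact (isUnit_of_residue_eq_one h).map _
  obtain ⟨l, hroot, hl⟩ := HenselianRing.is_henselian (I := maximalIdeal A) p hp 1 hev hder
  refine ⟨l, ?_, ?_⟩
  · rw [← residue_eq_zero_iff, map_sub, map_one, sub_eq_zero] at hl
    exact hl
  · have := hroot
    simp only [Polynomial.IsRoot, p, Polynomial.eval_add, Polynomial.eval_sub, Polynomial.eval_pow,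
      Polynomial.eval_X, Polynomial.eval_mul, Polynomial.eval_C] at this
    linear_combination this

theorem residue_mapMatrix_inv (U : (M2 A)ˣ) (hU : (residue A).mapMatrix (U : M2 A) = 1) :
    (residue A).mapMatrix ((U⁻¹ : (M2 A)ˣ) : M2 A) = 1 := by
  have h : (residue A).mapMatrix ((U : M2 A) * ((U⁻¹ : (M2 A)ˣ) : M2 A)) = 1 := by
    rw [Units.mul_inv, map_one]
  rw [map_mul, hU, one_mul] at h
  exact h

/-- Hensel: a pair `(e, f)` reducing to `(E₁₁, E₂₁)` can be conjugated, by a matrix reducing to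
the identity, to a pair with `e` diagonal and `f 1 0 = 1`. -/
theorem exists_canonical_conj [IsAdicComplete (maximalIdeal A) A] (e f : M2 A)
    (he : (residue A).mapMatrix e = Matrix.single 0 0 1)
    (hf : residue A (f 1 0) = 1) :
    ∃ U : (M2 A)ˣ, (residue A).mapMatrix (U : M2 A) = 1 ∧
      ((U : M2 A) * e * ((U⁻¹ : (M2 A)ˣ) : M2 A)) 0 1 = 0 ∧
      ((U : M2 A) * e * ((U⁻¹ : (M2 A)ˣ) : M2 A)) 1 0 = 0 ∧
      ((U : M2 A) * f * ((U⁻¹ : (M2 A)ˣ) : M2 A)) 1 0 = 1 := by
  have h00 : residue A (e 0 0) = 1 := by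
    have := congrFun (congrFun he 0) 0
    simpa using this
  have h01 : residue A (e 0 1) = 0 := by
    have := congrFun (congrFun he 0) 1
    simpa using this
  have h10 : residue A (e 1 0) = 0 := by
    have := congrFun (congrFun he 1) 0
    simpa using this
  have h11 : residue A (e 1 1) = 0 := by
    have := congrFun (congrFun he 1) 1
    simpa using this
  obtain ⟨l, hl1, hl⟩ := exists_eigenvalue e he
  -- the diagonalising matrix
  let u : M2 A := !![l - e 1 1, -e 0 1; e 1 0, l - e 1 1]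
  let D : M2 A := !![l, 0; 0, e 0 0 + e 1 1 - l]
  have hures : (residue A).mapMatrix u = 1 := by
    ext i j
    fin_cases i <;> fin_cases j <;> simp [u, hl1, h01, h10, h11]
  have hudet : IsUnit u.det := by
    apply isUnit_of_residue_eq_one
    rw [RingHom.map_det, hures, Matrix.det_one]
  have huu : IsUnit u := (Matrix.isUnit_iff_isUnit_det _).mpr hudet
  obtain ⟨U₀, hU₀⟩ := huu
  have heu : e * u = u * D := by
    ext i j
    fin_cases i <;> fin_cases j
    · simp [u, D, Matrix.mul_apply, Fin.sum_univ_two]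
      linear_combination -hl
    · simp [u, D, Matrix.mul_apply, Fin.sum_univ_two]
      ring
    · simp [u, D, Matrix.mul_apply, Fin.sum_univ_two]
      ring
    · simp [u, D, Matrix.mul_apply, Fin.sum_univ_two]
      linear_combination hl
  have hU₀res : (residue A).mapMatrix (U₀ : M2 A) = 1 := by rw [hU₀]; exact hures
  have hU₀inv := residue_mapMatrix_inv U₀ hU₀res
  -- `g = U₀⁻¹ f U₀`
  let g : M2 A := ((U₀⁻¹ : (M2 A)ˣ) : M2 A) * f * (U₀ : M2 A)
  have hgres : residue A (g 1 0) = 1 := by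
    have h : (residue A).mapMatrix g = (residue A).mapMatrix f := by
      simp only [g, map_mul, hU₀res, hU₀inv, one_mul, mul_one]
    have h2 := congrFun (congrFun h 1) 0
    simp only [RingHom.mapMatrix_apply, Matrix.map_apply] at h2
    rw [h2, hf]
  have hw : IsUnit (g 1 0) := isUnit_of_residue_eq_one hgres
  obtain ⟨w, hw⟩ := hw
  -- the rescaling matrix `diag(1, w⁻¹)`
  let v : M2 A := !![1, 0; 0, ((w⁻¹ : Aˣ) : A)]
  let v' : M2 A := !![1, 0; 0, (w : A)]
  have hvv' : v * v' = 1 := by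
    ext i j
    fin_cases i <;> fin_cases j <;> simp [v, v', Matrix.mul_apply, Fin.sum_univ_two]
  have hv'v : v' * v = 1 := by
    ext i j
    fin_cases i <;> fin_cases j <;> simp [v, v', Matrix.mul_apply, Fin.sum_univ_two]
  let V : (M2 A)ˣ := ⟨v, v', hvv', hv'v⟩
  have hwres : residue A (w : A) = 1 := by rw [hw]; exact hgres
  have hwinvres : residue A ((w⁻¹ : Aˣ) : A) = 1 := by
    have h : residue A ((w : A) * ((w⁻¹ : Aˣ) : A)) = 1 := by rw [Units.mul_inv, map_one]
    rw [map_mul, hwres, one_mul] at h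
    exact h
  have hvres : (residue A).mapMatrix v = 1 := by
    ext i j
    fin_cases i <;> fin_cases j <;> simp [v, hwinvres]
  refine ⟨V * U₀⁻¹, ?_, ?_, ?_, ?_⟩
  · rw [Units.val_mul, map_mul]
    show (residue A).mapMatrix v * _ = 1
    rw [hvres, hU₀inv, one_mul]
  · have key : ((V * U₀⁻¹ : (M2 A)ˣ) : M2 A) * e * (((V * U₀⁻¹)⁻¹ : (M2 A)ˣ) : M2 A) =
        v * D * v' := by
      have h1 : (((V * U₀⁻¹)⁻¹ : (M2 A)ˣ) : M2 A) = (U₀ : M2 A) * v' := by
        rw [mul_inv_rev, inv_inv, Units.val_mul]; rfl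
      rw [h1, Units.val_mul]
      show v * ((U₀⁻¹ : (M2 A)ˣ) : M2 A) * e * ((U₀ : M2 A) * v') = _
      calc v * ((U₀⁻¹ : (M2 A)ˣ) : M2 A) * e * ((U₀ : M2 A) * v')
          = v * (((U₀⁻¹ : (M2 A)ˣ) : M2 A) * (e * (U₀ : M2 A))) * v' := by
            simp only [mul_assoc]
        _ = v * (((U₀⁻¹ : (M2 A)ˣ) : M2 A) * ((U₀ : M2 A) * D)) * v' := by rw [hU₀, heu]
        _ = v * D * v' := by rw [← mul_assoc _ (U₀ : M2 A) D, Units.inv_mul, one_mul]
    rw [key]
    simp [v, v', D, Matrix.mul_apply, Fin.sum_univ_two]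
  · have key : ((V * U₀⁻¹ : (M2 A)ˣ) : M2 A) * e * (((V * U₀⁻¹)⁻¹ : (M2 A)ˣ) : M2 A) =
        v * D * v' := by
      have h1 : (((V * U₀⁻¹)⁻¹ : (M2 A)ˣ) : M2 A) = (U₀ : M2 A) * v' := by
        rw [mul_inv_rev, inv_inv, Units.val_mul]; rfl
      rw [h1, Units.val_mul]
      show v * ((U₀⁻¹ : (M2 A)ˣ) : M2 A) * e * ((U₀ : M2 A) * v') = _
      calc v * ((U₀⁻¹ : (M2 A)ˣ) : M2 A) * e * ((U₀ : M2 A) * v')
          = v * (((U₀⁻¹ : (M2 A)ˣ) : M2 A) * (e * (U₀ : M2 A))) * v' := by
            simp only [mul_assoc]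
        _ = v * (((U₀⁻¹ : (M2 A)ˣ) : M2 A) * ((U₀ : M2 A) * D)) * v' := by rw [hU₀, heu]
        _ = v * D * v' := by rw [← mul_assoc _ (U₀ : M2 A) D, Units.inv_mul, one_mul]
    rw [key]
    simp [v, v', D, Matrix.mul_apply, Fin.sum_univ_two]
  · have key : ((V * U₀⁻¹ : (M2 A)ˣ) : M2 A) * f * (((V * U₀⁻¹)⁻¹ : (M2 A)ˣ) : M2 A) =
        v * g * v' := by
      have h1 : (((V * U₀⁻¹)⁻¹ : (M2 A)ˣ) : M2 A) = (U₀ : M2 A) * v' := by
        rw [mul_inv_rev, inv_inv, Units.val_mul]; rfl
      rw [h1, Units.val_mul]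
      show v * ((U₀⁻¹ : (M2 A)ˣ) : M2 A) * f * ((U₀ : M2 A) * v') = _
      simp only [g, mul_assoc]
    rw [key]
    have h2 : (v * g * v') 1 0 = ((w⁻¹ : Aˣ) : A) * g 1 0 := by
      simp [v, v', Matrix.mul_apply, Fin.sum_univ_two, Matrix.vecMul, dotProduct]
    rw [h2, ← hw, Units.inv_mul]

end pure

/-! ### Frames and canonical matrix representations -/

section frame

variable (𝒪 : Type) [CommRing 𝒪] [IsLocalRing 𝒪]

/-- A frame: a basis of the residual representation, entrywise lifts of its matrices, and two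
elements of the group algebra lifting the matrix units `E₁₁` and `E₂₁`. -/
structure Frame (ρbar : ResidualGaloisRep (ResidueField 𝒪)) where
  b : Module.Basis (Fin 2) (ResidueField 𝒪) ρbar.V
  c : GQ → M2 𝒪
  hc : ∀ σ, (residue 𝒪).mapMatrix (c σ) = resMatrix ρbar b σ
  x : GQ →₀ 𝒪
  y : GQ →₀ 𝒪
  hx : (residue 𝒪).mapMatrix (x.sum fun s a => a • c s) = Matrix.single 0 0 1
  hy : (residue 𝒪).mapMatrix (y.sum fun s a => a • c s) = Matrix.single 1 0 1

variable {𝒪}

theorem residue_mapMatrix_sum_smul (ρbar : ResidualGaloisRep (ResidueField 𝒪))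
    (b : Module.Basis (Fin 2) (ResidueField 𝒪) ρbar.V) (c : GQ → M2 𝒪)
    (hc : ∀ σ, (residue 𝒪).mapMatrix (c σ) = resMatrix ρbar b σ) (x : GQ →₀ 𝒪) :
    (residue 𝒪).mapMatrix (x.sum fun s a => a • c s) =
      LinearMap.toMatrix b b
        ((Finsupp.mapRange (residue 𝒪) (map_zero _) x).sum fun s a => a • ρbar.ρ s) := by
  rw [Finsupp.sum_mapRange_index (fun s => by rw [zero_smul])]
  rw [map_finsuppSum, map_finsuppSum]
  refine Finsupp.sum_congr fun s _ => ?_
  rw [map_smul (LinearMap.toMatrix b b), ← resMatrix_apply, ← hc s]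
  ext i j
  simp [Matrix.smul_apply]

theorem exists_frame (ρbar : ResidualGaloisRep (ResidueField 𝒪))
    (h : ρbar.IsAbsolutelyIrreducible) : Nonempty (Frame 𝒪 ρbar) := by
  obtain ⟨b, xb, yb, hxb, hyb⟩ := Burnside.exists_basis_matrixUnits ρbar h
  have hs : ∀ a : ResidueField 𝒪, ∃ r : 𝒪, residue 𝒪 r = a := residue_surjective
  choose lift hlift using hs
  obtain ⟨x, hx⟩ := Finsupp.mapRange_surjective (residue 𝒪) (map_zero _) residue_surjective xb
  obtain ⟨y, hy⟩ := Finsupp.mapRange_surjective (residue 𝒪) (map_zero _) residue_surjective yb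
  let c : GQ → M2 𝒪 := fun σ i j => lift (resMatrix ρbar b σ i j)
  have hc : ∀ σ, (residue 𝒪).mapMatrix (c σ) = resMatrix ρbar b σ := by
    intro σ
    ext i j
    exact hlift _
  refine ⟨⟨b, c, hc, x, y, ?_, ?_⟩⟩
  · rw [residue_mapMatrix_sum_smul ρbar b c hc, hx, hxb]
  · rw [residue_mapMatrix_sum_smul ρbar b c hc, hy, hyb]

end frame

section canon

variable {𝒪 : Type} [CommRing 𝒪] [IsLocalRing 𝒪]

/-- The value of a "group algebra element" `x` under a matrix-valued map. -/
def gsum {B : Type} [CommRing B] [Algebra 𝒪 B] (x : GQ →₀ 𝒪) (m : GQ → M2 B) : M2 B :=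
  x.sum fun s a => a • m s

theorem gsum_mapMatrix {B B' : Type} [CommRing B] [Algebra 𝒪 B] [CommRing B'] [Algebra 𝒪 B']
    (φ : B →ₐ[𝒪] B') (x : GQ →₀ 𝒪) (m : GQ →* M2 B) :
    gsum x (mapRep (φ : B →+* B') m) = (φ : B →+* B').mapMatrix (gsum x m) := by
  unfold gsum
  rw [map_finsuppSum]
  refine Finsupp.sum_congr fun s _ => ?_
  ext i j
  simp [Matrix.smul_apply, mapRep_apply_apply]

theorem gsum_conjRep {B : Type} [CommRing B] [Algebra 𝒪 B] (U : (M2 B)ˣ) (x : GQ →₀ 𝒪)
    (m : GQ →* M2 B) :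
    gsum x (conjRep U m) = (U : M2 B) * gsum x m * ((U⁻¹ : (M2 B)ˣ) : M2 B) := by
  unfold gsum
  rw [Finsupp.mul_sum, Finsupp.sum_mul]
  refine Finsupp.sum_congr fun s _ => ?_
  rw [conjRep_apply, mul_smul_comm, smul_mul_assoc]

theorem gsum_intertwine {B : Type} [CommRing B] [Algebra 𝒪 B] (u : M2 B) (x : GQ →₀ 𝒪)
    (m m' : GQ →* M2 B) (hu : ∀ σ, u * m σ = m' σ * u) :
    u * gsum x m = gsum x m' * u := by
  unfold gsum
  rw [Finsupp.mul_sum, Finsupp.sum_mul]
  refine Finsupp.sum_congr fun s _ => ?_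
  rw [mul_smul_comm, smul_mul_assoc, hu s]

/-- The residue of the image of an element of `𝒪` only depends on its residue. -/
theorem residue_algebraMap_congr {B : Type} [CommRing B] [IsLocalRing B] [Algebra 𝒪 B]
    (hloc : IsLocalHom (algebraMap 𝒪 B)) {a a' : 𝒪} (h : residue 𝒪 a = residue 𝒪 a') :
    residue B (algebraMap 𝒪 B a) = residue B (algebraMap 𝒪 B a') := by
  have := hloc
  rw [← ResidueField.map_residue (algebraMap 𝒪 B), ← ResidueField.map_residue (algebraMap 𝒪 B), h]

variable {ρbar : ResidualGaloisRep (ResidueField 𝒪)}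

/-- A matrix representation is framed if it reduces to the chosen matrices of `ρbar`. -/
def IsFramed (F : Frame 𝒪 ρbar) {B : Type} [CommRing B] [IsLocalRing B] [Algebra 𝒪 B]
    (m : GQ →* M2 B) : Prop :=
  ∀ σ i j, residue B (m σ i j) = residue B (algebraMap 𝒪 B (F.c σ i j))

/-- A matrix representation is canonical if it is framed, the element `x` acts diagonally and
the element `y` has lower left entry one. -/
structure IsCanon (F : Frame 𝒪 ρbar) {B : Type} [CommRing B] [IsLocalRing B] [Algebra 𝒪 B]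
    (m : GQ →* M2 B) : Prop where
  framed : IsFramed F m
  x01 : gsum F.x m 0 1 = 0
  x10 : gsum F.x m 1 0 = 0
  y10 : gsum F.y m 1 0 = 1

section lemmas

variable {B : Type} [CommRing B] [IsLocalRing B] [Algebra 𝒪 B]

theorem IsFramed.residue_gsum (F : Frame 𝒪 ρbar) (hloc : IsLocalHom (algebraMap 𝒪 B))
    {m : GQ →* M2 B} (h : IsFramed F m) (x : GQ →₀ 𝒪) (i j : Fin 2) :
    residue B (gsum x m i j) = residue B (algebraMap 𝒪 B ((x.sum fun s a => a • F.c s) i j)) := by
  unfold gsum
  simp only [Finsupp.sum, Matrix.sum_apply, map_sum, Matrix.smul_apply]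
  refine Finset.sum_congr rfl fun s _ => ?_
  rw [Algebra.smul_def, map_mul, h s i j, smul_eq_mul, map_mul, map_mul]

theorem IsFramed.residue_gsum_x (F : Frame 𝒪 ρbar) (hloc : IsLocalHom (algebraMap 𝒪 B))
    {m : GQ →* M2 B} (h : IsFramed F m) :
    (residue B).mapMatrix (gsum F.x m) = Matrix.single 0 0 1 := by
  ext i j
  have h1 := h.residue_gsum F hloc F.x i j
  have h2 := congrFun (congrFun F.hx i) j
  simp only [RingHom.mapMatrix_apply, Matrix.map_apply] at h2 ⊢
  rw [h1]
  by_cases hij : (0 : Fin 2) = i ∧ (0 : Fin 2) = j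
  · rw [Matrix.single_apply, if_pos hij] at h2 ⊢
    rw [← map_one (residue 𝒪)] at h2
    rw [residue_algebraMap_congr hloc h2, map_one, map_one]
  · rw [Matrix.single_apply, if_neg hij] at h2 ⊢
    rw [← map_zero (residue 𝒪)] at h2
    rw [residue_algebraMap_congr hloc h2, map_zero, map_zero]

theorem IsFramed.residue_gsum_y (F : Frame 𝒪 ρbar) (hloc : IsLocalHom (algebraMap 𝒪 B))
    {m : GQ →* M2 B} (h : IsFramed F m) :
    (residue B).mapMatrix (gsum F.y m) = Matrix.single 1 0 1 := by
  ext i j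
  have h1 := h.residue_gsum F hloc F.y i j
  have h2 := congrFun (congrFun F.hy i) j
  simp only [RingHom.mapMatrix_apply, Matrix.map_apply] at h2 ⊢
  rw [h1]
  by_cases hij : (1 : Fin 2) = i ∧ (0 : Fin 2) = j
  · rw [Matrix.single_apply, if_pos hij] at h2 ⊢
    rw [← map_one (residue 𝒪)] at h2
    rw [residue_algebraMap_congr hloc h2, map_one, map_one]
  · rw [Matrix.single_apply, if_neg hij] at h2 ⊢
    rw [← map_zero (residue 𝒪)] at h2
    rw [residue_algebraMap_congr hloc h2, map_zero, map_zero]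

/-- Framedness in terms of the reduction, for any identification `ψ` of residue fields
compatible with the structure maps. -/
theorem isFramed_iff (F : Frame 𝒪 ρbar) (ψ : ResidueField 𝒪 →+* ResidueField B)
    (hψ : ∀ a, ψ (residue 𝒪 a) = residue B (algebraMap 𝒪 B a)) (m : GQ →* M2 B) :
    IsFramed F m ↔ mapRep (residue B) m = mapRep ψ (resMatrix ρbar F.b) := by
  have key : ∀ σ i j, mapRep ψ (resMatrix ρbar F.b) σ i j =
      residue B (algebraMap 𝒪 B (F.c σ i j)) := by
    intro σ i j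
    rw [mapRep_apply_apply, ← F.hc σ, ← hψ]
    rfl
  constructor
  · intro h
    ext σ i j
    rw [key, mapRep_apply_apply, h σ i j]
  · intro h σ i j
    rw [← key, ← h, mapRep_apply_apply]

theorem IsFramed.map {B' : Type} [CommRing B'] [IsLocalRing B'] [Algebra 𝒪 B']
    (F : Frame 𝒪 ρbar) (φ : B →ₐ[𝒪] B') (hφ : IsLocalHom (φ : B →+* B')) {m : GQ →* M2 B}
    (h : IsFramed F m) : IsFramed F (mapRep (φ : B →+* B') m) := by
  intro σ i j
  have := hφ
  rw [mapRep_apply_apply, ← ResidueField.map_residue (φ : B →+* B'), h σ i j,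
    ResidueField.map_residue]
  simp

theorem IsFramed.of_map_injective {B' : Type} [CommRing B'] [IsLocalRing B'] [Algebra 𝒪 B']
    (F : Frame 𝒪 ρbar) (φ : B →ₐ[𝒪] B') {m : GQ →* M2 B}
    (h : IsFramed F (mapRep (φ : B →+* B') m)) : IsFramed F m := by
  intro σ i j
  have h1 := h σ i j
  rw [mapRep_apply_apply] at h1
  rw [← sub_eq_zero, ← map_sub, residue_eq_zero_iff] at h1 ⊢
  have h2 : (φ : B →+* B') (m σ i j) - algebraMap 𝒪 B' (F.c σ i j) =
      (φ : B →+* B') (m σ i j - algebraMap 𝒪 B (F.c σ i j)) := by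
    simp
  rw [h2, mem_maximalIdeal, mem_nonunits_iff] at h1
  rw [mem_maximalIdeal, mem_nonunits_iff]
  exact fun hu => h1 (hu.map _)

theorem IsFramed.conj (F : Frame 𝒪 ρbar) {m : GQ →* M2 B} (h : IsFramed F m) (U : (M2 B)ˣ)
    (hU : (residue B).mapMatrix (U : M2 B) = 1) : IsFramed F (conjRep U m) := by
  intro σ i j
  have h1 : (residue B).mapMatrix (conjRep U m σ) = (residue B).mapMatrix (m σ) := by
    rw [conjRep_apply, map_mul, map_mul, hU, residue_mapMatrix_inv U hU, one_mul, mul_one]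
  have h2 := congrFun (congrFun h1 i) j
  simp only [RingHom.mapMatrix_apply, Matrix.map_apply] at h2
  rw [h2, h σ i j]

theorem IsCanon.map {B' : Type} [CommRing B'] [IsLocalRing B'] [Algebra 𝒪 B']
    (F : Frame 𝒪 ρbar) (φ : B →ₐ[𝒪] B') (hφ : IsLocalHom (φ : B →+* B')) {m : GQ →* M2 B}
    (h : IsCanon F m) : IsCanon F (mapRep (φ : B →+* B') m) := by
  refine ⟨h.framed.map F φ hφ, ?_, ?_, ?_⟩
  · rw [gsum_mapMatrix, RingHom.mapMatrix_apply, Matrix.map_apply, h.x01, map_zero]
  · rw [gsum_mapMatrix, RingHom.mapMatrix_apply, Matrix.map_apply, h.x10, map_zero]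
  · rw [gsum_mapMatrix, RingHom.mapMatrix_apply, Matrix.map_apply, h.y10, map_one]

theorem IsCanon.of_map_injective {B' : Type} [CommRing B'] [IsLocalRing B'] [Algebra 𝒪 B']
    (F : Frame 𝒪 ρbar) (φ : B →ₐ[𝒪] B') (hinj : Function.Injective φ) {m : GQ →* M2 B}
    (h : IsCanon F (mapRep (φ : B →+* B') m)) : IsCanon F m := by
  have h1 := h.x01
  have h2 := h.x10
  have h3 := h.y10
  rw [gsum_mapMatrix, RingHom.mapMatrix_apply, Matrix.map_apply] at h1 h2 h3
  refine ⟨h.framed.of_map_injective F φ, ?_, ?_, ?_⟩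
  · exact hinj (by rw [map_zero]; exact h1)
  · exact hinj (by rw [map_zero]; exact h2)
  · exact hinj (by rw [map_one]; exact h3)

/-- Rigidity: two canonical representations which are conjugate are equal. -/
theorem IsCanon.eq_of_intertwine (F : Frame 𝒪 ρbar) (hloc : IsLocalHom (algebraMap 𝒪 B))
    {m m' : GQ →* M2 B} (h : IsCanon F m) (h' : IsCanon F m') (u : (M2 B)ˣ)
    (hu : ∀ σ, (u : M2 B) * m σ = m' σ * (u : M2 B)) : m = m' := by
  have hx := h.framed.residue_gsum_x F hloc
  have hx' := h'.framed.residue_gsum_x F hloc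
  have e00 : residue B (gsum F.x m 0 0) = 1 := by
    have := congrFun (congrFun hx 0) 0
    simpa using this
  have e11 : residue B (gsum F.x m 1 1) = 0 := by
    have := congrFun (congrFun hx 1) 1
    simpa using this
  have e00' : residue B (gsum F.x m' 0 0) = 1 := by
    have := congrFun (congrFun hx' 0) 0
    simpa using this
  have e11' : residue B (gsum F.x m' 1 1) = 0 := by
    have := congrFun (congrFun hx' 1) 1
    simpa using this
  obtain ⟨h01, h10, h11⟩ := scalar_of_intertwine (gsum F.x m) (gsum F.x m') (gsum F.y m)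
    (gsum F.y m') (u : M2 B) h.x01 h.x10 h'.x01 h'.x10
    (isUnit_of_residue_eq_one (by rw [map_sub, e00', e11, sub_zero]))
    (isUnit_of_residue_eq_one (by rw [map_sub, e00, e11', sub_zero]))
    h.y10 h'.y10 (gsum_intertwine _ _ _ _ hu) (gsum_intertwine _ _ _ _ hu)
  ext σ : 1
  exact eq_of_scalar_intertwine u (m σ) (m' σ) h01 h10 h11 (hu σ)

/-- Existence of the canonical form over a complete local ring. -/
theorem IsFramed.exists_conj_isCanon [IsAdicComplete (maximalIdeal B) B] (F : Frame 𝒪 ρbar)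
    (hloc : IsLocalHom (algebraMap 𝒪 B)) {m : GQ →* M2 B} (h : IsFramed F m) :
    ∃ U : (M2 B)ˣ, (residue B).mapMatrix (U : M2 B) = 1 ∧ IsCanon F (conjRep U m) := by
  have hy := h.residue_gsum_y F hloc
  have hy10 : residue B (gsum F.y m 1 0) = 1 := by
    have := congrFun (congrFun hy 1) 0
    simpa using this
  obtain ⟨U, hU, h1, h2, h3⟩ := exists_canonical_conj (gsum F.x m) (gsum F.y m)
    (h.residue_gsum_x F hloc) hy10
  refine ⟨U, hU, h.conj F U hU, ?_, ?_, ?_⟩
  · rw [gsum_conjRep]; exact h1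
  · rw [gsum_conjRep]; exact h2
  · rw [gsum_conjRep]; exact h3

end lemmas

end canon

end Fermat.Agent.S53Lib
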