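import Mathlib
import Fermat.Prelude.Def_GaloisRep_DeformationCondition
import Fermat.Prelude.Def_GaloisRep_DeformationRingData
import Fermat.Agent.S53Lib.MatRep
import Fermat.Agent.S53Lib.DefCond
import Fermat.Agent.S53Lib.Univ
import Fermat.Agent.S53Lib.TestAlg
import Fermat.Agent.S53Lib.Canonical
import Fermat.Agent.S53Lib.RigidDefs

set_option autoImplicit false
set_option linter.unusedSectionVars false
set_option linter.style.haveILetI false

noncomputable section

namespace Fermat.Agent.S53Lib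

open IsLocalRing GaloisRep

/-! ### The finite levels of a complete local algebra -/

section levels

variable {𝒪 : Type} [CommRing 𝒪] [IsLocalRing 𝒪]
variable {R : Type} [CommRing R] [IsLocalRing R] [Algebra 𝒪 R]

theorem maximalIdeal_pow_ne_top (R : Type) [CommRing R] [IsLocalRing R] (n : ℕ) (hn : n ≠ 0) :
    maximalIdeal R ^ n ≠ ⊤ := fun h =>
  (IsLocalRing.maximalIdeal.isMaximal R).ne_top (top_le_iff.mp (h ▸ Ideal.pow_le_self hn))

/-- The quotients by powers of the maximal ideal are test algebras. -/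
theorem quotPow_testAlg [Finite (ResidueField 𝒪)] [IsNoetherianRing R]
    (hloc : IsLocalHom (algebraMap 𝒪 R))
    (hsurj : Function.Surjective (residue R ∘ algebraMap 𝒪 R)) (n : ℕ)
    [IsLocalRing (R ⧸ maximalIdeal R ^ n)] :
    IsArtinianTestAlgebra 𝒪 (R ⧸ maximalIdeal R ^ n) := by
  haveI := hloc
  haveI : Finite (ResidueField R) := by
    refine Finite.of_surjective (ResidueField.map (algebraMap 𝒪 R)) ?_
    intro c
    obtain ⟨o, ho⟩ := hsurj c
    exact ⟨residue 𝒪 o, by rw [ResidueField.map_residue]; exact ho⟩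
  haveI : Finite (R ⧸ maximalIdeal R ^ n) := finite_quotient_iff.mpr ⟨n, le_rfl⟩
  haveI : IsArtinianRing (R ⧸ maximalIdeal R ^ n) := isArtinian_of_finite
  exact isArtinianTestAlgebra_of_surjective hloc hsurj (Ideal.Quotient.mkₐ 𝒪 _)
    Ideal.Quotient.mk_surjective

theorem eq_of_forall_mk_eq [IsNoetherianRing R] (x y : R)
    (h : ∀ n : ℕ, n ≠ 0 → Ideal.Quotient.mk (maximalIdeal R ^ n) x =
      Ideal.Quotient.mk (maximalIdeal R ^ n) y) : x = y := by
  have h1 : x - y ∈ ⨅ n : ℕ, maximalIdeal R ^ n := by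
    rw [Ideal.mem_iInf]
    intro n
    by_cases hn : n = 0
    · subst hn
      rw [pow_zero, Ideal.one_eq_top]
      exact Submodule.mem_top
    · exact Ideal.Quotient.eq.mp (h n hn)
  rw [Ideal.iInf_pow_eq_bot_of_isLocalRing _ (IsLocalRing.maximalIdeal.isMaximal R).ne_top,
    Ideal.mem_bot, sub_eq_zero] at h1
  exact h1

theorem matrix_eq_of_forall_mk_eq [IsNoetherianRing R] (X Y : M2 R)
    (h : ∀ n : ℕ, n ≠ 0 → (Ideal.Quotient.mk (maximalIdeal R ^ n)).mapMatrix X =
      (Ideal.Quotient.mk (maximalIdeal R ^ n)).mapMatrix Y) : X = Y := by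
  ext i j
  refine eq_of_forall_mk_eq _ _ fun n hn => ?_
  exact congrFun (congrFun (h n hn) i) j

end levels

/-! ### From a pro-representing object to deformation ring data -/

/-- **Final glue.** If the functor of canonical lifts of type `𝒟` (in family form) is
pro-representable, then `DeformationRingData` exists. -/
theorem nonempty_deformationRingData_of_proRep
    (𝒪 : Type) [CommRing 𝒪] [IsDomain 𝒪] [IsDiscreteValuationRing 𝒪]
    [IsAdicComplete (maximalIdeal 𝒪) 𝒪] [Finite (ResidueField 𝒪)]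
    (ρbar : ResidualGaloisRep (ResidueField 𝒪))
    (𝒟 : ∀ ⦃A : Type⦄ [CommRing A] [IsLocalRing A] [Algebra 𝒪 A], GaloisRepAdic A → Prop)
    (habs : ρbar.IsAbsolutelyIrreducible)
    (h𝒟 : IsDeformationCondition 𝒪 𝒟)
    (F : Frame 𝒪 ρbar)
    (L : ∀ ⦃A : Type⦄ [CommRing A] [IsLocalRing A] [Algebra 𝒪 A],
      (GQ × Fin 2 × Fin 2 → A) → Prop)
    (hL : ∀ ⦃A : Type⦄ [CommRing A] [IsLocalRing A] [Algebra 𝒪 A]
      (a : GQ × Fin 2 × Fin 2 → A),
      L a ↔ ∃ m : GQ →* M2 A, (∀ σ i j, m σ i j = a (σ, i, j)) ∧ FactorsFinite m ∧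
        IsCanon F m ∧ DM 𝒟 m)
    (P : ProRep 𝒪 (GQ × Fin 2 × Fin 2) L) :
    Nonempty (DeformationRingData 𝒪 ρbar 𝒟) := by
  have hlocR : IsLocalHom (algebraMap 𝒪 P.R) := inferInstance
  have hsurjR := P.residue_surjective
  -- the data at the finite levels
  have hlev : ∀ n : ℕ, n ≠ 0 → ∀ _ : IsLocalRing (P.R ⧸ maximalIdeal P.R ^ n),
      ∃ m : GQ →* M2 (P.R ⧸ maximalIdeal P.R ^ n),
        (∀ σ, m σ = (Ideal.Quotient.mk (maximalIdeal P.R ^ n)).mapMatrix
          (Matrix.of fun i j => P.u (σ, i, j))) ∧ FactorsFinite m ∧ IsCanon F m ∧ DM 𝒟 m := by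
    intro n hn _
    obtain ⟨m, hm, h2⟩ := (hL _).mp
      (P.isL (quotPow_testAlg hlocR hsurjR n) (Ideal.Quotient.mkₐ 𝒪 _))
    exact ⟨m, fun σ => by ext i j; exact hm σ i j, h2⟩
  have hloc : ∀ n : ℕ, n ≠ 0 → IsLocalRing (P.R ⧸ maximalIdeal P.R ^ n) := fun n hn =>
    isLocalRing_quotient _ (maximalIdeal_pow_ne_top P.R n hn)
  -- the universal matrix representation
  obtain ⟨mR, hmR0⟩ : ∃ mR : GQ →* M2 P.R, ∀ σ, mR σ = Matrix.of fun i j => P.u (σ, i, j) := by
    refine ⟨{ toFun := fun σ => Matrix.of fun i j => P.u (σ, i, j), map_one' := ?_,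
              map_mul' := ?_ }, fun _ => rfl⟩
    · refine matrix_eq_of_forall_mk_eq _ _ fun n hn => ?_
      obtain ⟨m, hm, -⟩ := hlev n hn (hloc n hn)
      rw [← hm, map_one, map_one]
    · intro σ τ
      refine matrix_eq_of_forall_mk_eq _ _ fun n hn => ?_
      obtain ⟨m, hm, -⟩ := hlev n hn (hloc n hn)
      rw [map_mul, ← hm, ← hm, ← hm, map_mul]
  have hmR : ∀ σ i j, mR σ i j = P.u (σ, i, j) := fun σ i j => by rw [hmR0]; rfl
  have hred : ∀ n : ℕ, n ≠ 0 → ∀ _ : IsLocalRing (P.R ⧸ maximalIdeal P.R ^ n),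
      FactorsFinite (mapRep (Ideal.Quotient.mk (maximalIdeal P.R ^ n)) mR) ∧
      IsCanon F (mapRep ((Ideal.Quotient.mkₐ 𝒪 (maximalIdeal P.R ^ n) :
        P.R →ₐ[𝒪] P.R ⧸ maximalIdeal P.R ^ n) : P.R →+* P.R ⧸ maximalIdeal P.R ^ n) mR) := by
    intro n hn _
    obtain ⟨m, hm, hff, hcan, -⟩ := hlev n hn inferInstance
    have e : mapRep (Ideal.Quotient.mk (maximalIdeal P.R ^ n)) mR = m := by
      ext σ : 1
      rw [mapRep_apply, hm, hmR0]
      rfl
    exact ⟨e ▸ hff, by
      have e' : mapRep ((Ideal.Quotient.mkₐ 𝒪 (maximalIdeal P.R ^ n) :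
          P.R →ₐ[𝒪] P.R ⧸ maximalIdeal P.R ^ n) : P.R →+* P.R ⧸ maximalIdeal P.R ^ n) mR = m := e
      rw [e']
      exact hcan⟩
  -- continuity
  have hcont : IsAdicCont mR := by
    rw [isAdicCont_iff_forall_factorsFinite]
    intro n
    by_cases hn : n = 0
    · subst hn
      haveI : Subsingleton (P.R ⧸ maximalIdeal P.R ^ 0) := by
        rw [Ideal.Quotient.subsingleton_iff, pow_zero, Ideal.one_eq_top]
      refine ⟨⊥, inferInstance, fun σ _ => ?_⟩
      ext i j
      exact Subsingleton.elim _ _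
    · exact (hred n hn (hloc n hn)).1
  -- canonicity
  have hcanR : IsCanon F mR := by
    have key : ∀ (x : GQ →₀ 𝒪) (i j : Fin 2) (r : P.R),
        (∀ n : ℕ, n ≠ 0 → ∀ _ : IsLocalRing (P.R ⧸ maximalIdeal P.R ^ n),
          gsum x (mapRep ((Ideal.Quotient.mkₐ 𝒪 (maximalIdeal P.R ^ n) :
            P.R →ₐ[𝒪] P.R ⧸ maximalIdeal P.R ^ n) : P.R →+* P.R ⧸ maximalIdeal P.R ^ n) mR) i j =
            Ideal.Quotient.mk (maximalIdeal P.R ^ n) r) → gsum x mR i j = r := by
      intro x i j r h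
      refine eq_of_forall_mk_eq _ _ fun n hn => ?_
      have h1 := h n hn (hloc n hn)
      rw [gsum_mapMatrix] at h1
      exact h1
    refine ⟨?_, ?_, ?_, ?_⟩
    · haveI := hloc 1 one_ne_zero
      exact IsFramed.of_map_injective F (Ideal.Quotient.mkₐ 𝒪 (maximalIdeal P.R ^ 1))
        (hred 1 one_ne_zero inferInstance).2.framed
    · exact key _ _ _ _ fun n hn _ => by rw [(hred n hn inferInstance).2.x01, map_zero]
    · exact key _ _ _ _ fun n hn _ => by rw [(hred n hn inferInstance).2.x10, map_zero]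
    · exact key _ _ _ _ fun n hn _ => by rw [(hred n hn inferInstance).2.y10, map_one]
  -- the deformation condition
  have hDMR : DM 𝒟 mR := by
    rw [DM_iff_forall_surjective h𝒟 hlocR hsurjR mR hcont]
    intro B _ _ _ hB q hq hqs
    obtain ⟨m, hm, -, -, hDM⟩ := (hL _).mp (P.isL hB q)
    have e : mapRep (q : P.R →+* B) mR = m := by
      ext σ i j
      rw [mapRep_apply_apply, hmR, hm]
      rfl
    rw [e]
    exact hDM
  refine nonempty_deformationRingData_of_matrix 𝒪 ρbar 𝒟 habs h𝒟 F.b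
    (fun A _ _ _ m => IsCanon F m) ?_ ?_ ?_ P.R hsurjR mR hcanR hDMR ?_ ?_ ?_
  · intro A _ _ _ _ _ _ hAsurj m hm
    exact (isFramed_iff F (ResidueField.map (algebraMap 𝒪 A))
      (fun a => ResidueField.map_residue _ a) m).mp hm.framed
  · intro A _ _ _ _ _ _ hAsurj m hm
    obtain ⟨U, -, hU⟩ := IsFramed.exists_conj_isCanon F inferInstance
      ((isFramed_iff F (ResidueField.map (algebraMap 𝒪 A))
        (fun a => ResidueField.map_residue _ a) m).mpr hm)
    exact ⟨U, hU⟩
  · intro A _ _ _ _ _ _ hAsurj m m' h h' hu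
    obtain ⟨u, hu⟩ := hu
    exact IsCanon.eq_of_intertwine F inferInstance h h' u hu
  · intro A _ _ _ _ _ _ hAsurj φ
    exact IsCanon.map F φ (isLocalHom_of_residue_surjective hAsurj φ) hcanR
  · intro A _ _ _ _ _ _ hAsurj mA hcanA hDMA
    obtain ⟨φ, hφ, -⟩ := P.universal A hAsurj (fun p => mA p.1 p.2.1 p.2.2) (by
      intro B _ _ _ hB q hqs
      have hq : IsLocalHom (q : A →+* B) :=
        isLocalHom_of_residue_surjective hB.residue_surjective q
      have hDq : DM 𝒟 (mapRep (q : A →+* B) mA) :=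
        (DM_iff_forall_surjective h𝒟 inferInstance hAsurj mA hDMA.isAdicCont).mp hDMA hB q hq hqs
      haveI := hB.isArtinian
      obtain ⟨N, hN⟩ := exists_maximalIdeal_pow_eq_bot B
      exact (hL _).mpr ⟨mapRep (q : A →+* B) mA, fun σ i j => rfl,
        factorsFinite_of_isAdicCont hDq.isAdicCont hN, IsCanon.map F q hq hcanA, hDq⟩)
    refine ⟨φ, ?_⟩
    ext σ i j
    rw [mapRep_apply_apply, hmR]
    exact hφ (σ, i, j)
  · intro A _ _ _ _ _ _ hAsurj φ φ' h
    have hex := P.universal A hAsurj (fun p => φ (P.u p)) (by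
      intro B _ _ _ hB q hqs
      exact P.isL hB (q.comp φ))
    refine hex.unique (fun i => rfl) (fun i => ?_)
    obtain ⟨σ, i, j⟩ := i
    have h1 := congrFun (congrFun (DFunLike.congr_fun h σ) i) j
    rw [mapRep_apply_apply, mapRep_apply_apply, hmR] at h1
    exact h1.symm

end Fermat.Agent.S53Lib
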