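import Mathlib
import Fermat.Agent.S53Lib.MatRep
import Fermat.Agent.S53Lib.DefCond
import Fermat.Agent.S53Lib.Univ
import Fermat.Agent.S53Lib.Canonical
import Fermat.Agent.S53Lib.RigidDefs

set_option autoImplicit false
set_option linter.unusedSectionVars false
set_option linter.unusedVariables false
set_option linter.style.haveILetI false

/-!
# The rigid functor of canonical matrix lifts of type `𝒟`

For a frame `F` of the residual representation we define the family-valued functor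
`famL F 𝒟` (entries of canonical matrix lifts of type `𝒟`) and show that it is a
`RigidFunctor` in the sense of `RigidDefs`.
-/

noncomputable section

namespace Fermat.Agent.S53Lib

open IsLocalRing GaloisRep

/-- The index type of matrix entries of a representation of the Galois group. -/
abbrev EntryIdx : Type := GQ × Fin 2 × Fin 2

/-! ### Generic gluing lemmas -/

section glue

variable {P A B : Type} [CommRing P] [CommRing A] [CommRing B]

theorem matrix_eq_of_jointly_injective (pA : P →+* A) (pB : P →+* B)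
    (hinj : Function.Injective fun x => (pA x, pB x)) {X Y : M2 P}
    (hA : pA.mapMatrix X = pA.mapMatrix Y) (hB : pB.mapMatrix X = pB.mapMatrix Y) : X = Y := by
  ext i j
  apply hinj
  exact Prod.ext (congrFun (congrFun hA i) j) (congrFun (congrFun hB i) j)

/-- A family of entries whose images under a jointly injective pair of ring homomorphisms are
the entries of matrix representations is itself the family of entries of a matrix
representation. -/
theorem exists_monoidHom_of_jointly_injective (pA : P →+* A) (pB : P →+* B)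
    (hinj : Function.Injective fun x => (pA x, pB x)) (u : EntryIdx → P)
    (mA : GQ →* M2 A) (mB : GQ →* M2 B)
    (hA : ∀ σ i j, mA σ i j = pA (u (σ, i, j))) (hB : ∀ σ i j, mB σ i j = pB (u (σ, i, j))) :
    ∃ m : GQ →* M2 P, (∀ σ i j, m σ i j = u (σ, i, j)) ∧ mapRep pA m = mA ∧ mapRep pB m = mB := by
  let M : GQ → M2 P := fun σ => Matrix.of fun i j => u (σ, i, j)
  have hMA : ∀ σ, pA.mapMatrix (M σ) = mA σ := by
    intro σ
    ext i j
    exact (hA σ i j).symm
  have hMB : ∀ σ, pB.mapMatrix (M σ) = mB σ := by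
    intro σ
    ext i j
    exact (hB σ i j).symm
  let m : GQ →* M2 P :=
    { toFun := M
      map_one' := by
        apply matrix_eq_of_jointly_injective pA pB hinj
        · rw [hMA, map_one, map_one]
        · rw [hMB, map_one, map_one]
      map_mul' := fun σ τ => by
        apply matrix_eq_of_jointly_injective pA pB hinj
        · rw [hMA, map_mul, map_mul, hMA, hMA]
        · rw [hMB, map_mul, map_mul, hMB, hMB] }
  refine ⟨m, fun σ i j => rfl, ?_, ?_⟩
  · ext σ : 1
    exact hMA σ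
  · ext σ : 1
    exact hMB σ

theorem factorsFinite_of_jointly_injective (pA : P →+* A) (pB : P →+* B)
    (hinj : Function.Injective fun x => (pA x, pB x)) (m : GQ →* M2 P)
    (hA : FactorsFinite (mapRep pA m)) (hB : FactorsFinite (mapRep pB m)) : FactorsFinite m := by
  obtain ⟨L₁, hL₁, k1⟩ := hA
  obtain ⟨L₂, hL₂, k2⟩ := hB
  haveI := hL₁
  haveI := hL₂
  refine ⟨L₁ ⊔ L₂, IntermediateField.finiteDimensional_sup L₁ L₂, fun σ hσ => ?_⟩
  have e1 := k1 σ (fun x hx => hσ x ((le_sup_left : L₁ ≤ L₁ ⊔ L₂) hx))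
  have e2 := k2 σ (fun x hx => hσ x ((le_sup_right : L₂ ≤ L₁ ⊔ L₂) hx))
  apply matrix_eq_of_jointly_injective pA pB hinj
  · rw [map_one]; exact e1
  · rw [map_one]; exact e2

end glue

/-! ### The functor -/

section inst

variable {𝒪 : Type} [CommRing 𝒪] [IsLocalRing 𝒪]
variable {ρbar : ResidualGaloisRep (ResidueField 𝒪)}

/-- The base point of the functor: the chosen lifts of the entries of `ρbar`. -/
def Frame.cFam (F : Frame 𝒪 ρbar) : EntryIdx → 𝒪 := fun p => F.c p.1 p.2.1 p.2.2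

/-- The functor of families of entries of canonical matrix lifts of type `𝒟`. -/
def famL (F : Frame 𝒪 ρbar)
    (𝒟 : ∀ ⦃A : Type⦄ [CommRing A] [IsLocalRing A] [Algebra 𝒪 A], GaloisRepAdic A → Prop) :
    ∀ ⦃A : Type⦄ [CommRing A] [IsLocalRing A] [Algebra 𝒪 A], (EntryIdx → A) → Prop :=
  fun A _ _ _ a => ∃ m : GQ →* M2 A, (∀ σ i j, m σ i j = a (σ, i, j)) ∧ FactorsFinite m ∧
    IsCanon F m ∧ DM 𝒟 m

variable (F : Frame 𝒪 ρbar)
variable {𝒟 : ∀ ⦃A : Type⦄ [CommRing A] [IsLocalRing A] [Algebra 𝒪 A], GaloisRepAdic A → Prop}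

theorem famL_map (h𝒟 : IsDeformationCondition 𝒪 𝒟) {A B : Type} [CommRing A] [IsLocalRing A]
    [Algebra 𝒪 A] [CommRing B] [IsLocalRing B] [Algebra 𝒪 B]
    (hA : IsArtinianTestAlgebra 𝒪 A) (hB : IsArtinianTestAlgebra 𝒪 B) (φ : A →ₐ[𝒪] B)
    {a : EntryIdx → A} (h : famL F 𝒟 a) : famL F 𝒟 (fun i => φ (a i)) := by
  obtain ⟨m, hm, hff, hcan, hdm⟩ := h
  have hφ : IsLocalHom (φ : A →+* B) := isLocalHom_of_residue_surjective hB.residue_surjective φ
  refine ⟨mapRep (φ : A →+* B) m, fun σ i j => ?_, hff.map _, hcan.map F φ hφ,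
    hdm.map h𝒟 hA hB φ hφ⟩
  rw [mapRep_apply_apply, hm]
  rfl

theorem famL_of_injective (h𝒟 : IsDeformationCondition 𝒪 𝒟) {A B : Type} [CommRing A]
    [IsLocalRing A] [Algebra 𝒪 A] [CommRing B] [IsLocalRing B] [Algebra 𝒪 B]
    (hA : IsArtinianTestAlgebra 𝒪 A) (hB : IsArtinianTestAlgebra 𝒪 B) (φ : A →ₐ[𝒪] B)
    (hinj : Function.Injective φ) {a : EntryIdx → A} (h : famL F 𝒟 (fun i => φ (a i))) :
    famL F 𝒟 a := by
  obtain ⟨m', hm', hff', hcan', hdm'⟩ := h
  have hφ : IsLocalHom (φ : A →+* B) := isLocalHom_of_residue_surjective hB.residue_surjective φ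
  have hinj2 : Function.Injective fun x => ((φ : A →+* B) x, (φ : A →+* B) x) :=
    fun x y hxy => hinj (congrArg Prod.fst hxy)
  obtain ⟨m, hm, hmap, -⟩ := exists_monoidHom_of_jointly_injective (φ : A →+* B) (φ : A →+* B)
    hinj2 a m' m' hm' hm'
  refine ⟨m, hm, ?_, ?_, ?_⟩
  · exact factorsFinite_of_jointly_injective _ _ hinj2 m (by rw [hmap]; exact hff')
      (by rw [hmap]; exact hff')
  · exact IsCanon.of_map_injective F φ hinj (by rw [hmap]; exact hcan')
  · exact DM.of_map_injective h𝒟 hA hB φ hφ hinj (by rw [hmap]; exact hdm')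

theorem famL_of_fibreProduct (h𝒟 : IsDeformationCondition 𝒪 𝒟) {A B C P : Type}
    [CommRing A] [IsLocalRing A] [Algebra 𝒪 A] [CommRing B] [IsLocalRing B] [Algebra 𝒪 B]
    [CommRing C] [IsLocalRing C] [Algebra 𝒪 C] [CommRing P] [IsLocalRing P] [Algebra 𝒪 P]
    (hA : IsArtinianTestAlgebra 𝒪 A) (hB : IsArtinianTestAlgebra 𝒪 B)
    (hC : IsArtinianTestAlgebra 𝒪 C) (hP : IsArtinianTestAlgebra 𝒪 P)
    (f : A →ₐ[𝒪] C) (g : B →ₐ[𝒪] C) (pA : P →ₐ[𝒪] A) (pB : P →ₐ[𝒪] B)
    (hcomm : f.comp pA = g.comp pB)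
    (hinj : Function.Injective (fun x => (pA x, pB x)))
    (hsurj : ∀ a b, f a = g b → ∃ x, pA x = a ∧ pB x = b) {u : EntryIdx → P}
    (h1 : famL F 𝒟 (fun i => pA (u i))) (h2 : famL F 𝒟 (fun i => pB (u i))) :
    famL F 𝒟 u := by
  obtain ⟨mA, hmA, hffA, hcanA, hdmA⟩ := h1
  obtain ⟨mB, hmB, hffB, hcanB, hdmB⟩ := h2
  have hpA : IsLocalHom (pA : P →+* A) := isLocalHom_of_residue_surjective hA.residue_surjective pA
  have hpB : IsLocalHom (pB : P →+* B) := isLocalHom_of_residue_surjective hB.residue_surjective pB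
  have hinj2 : Function.Injective fun x => ((pA : P →+* A) x, (pB : P →+* B) x) := hinj
  obtain ⟨m, hm, hmapA, hmapB⟩ := exists_monoidHom_of_jointly_injective (pA : P →+* A)
    (pB : P →+* B) hinj2 u mA mB hmA hmB
  have hz : ∀ (x : GQ →₀ 𝒪) (i j : Fin 2) (r : 𝒪), gsum x mA i j = algebraMap 𝒪 A r →
      gsum x mB i j = algebraMap 𝒪 B r → gsum x m i j = algebraMap 𝒪 P r := by
    intro x i j r hxA hxB
    apply hinj
    refine Prod.ext ?_ ?_
    · have h3 := congrFun (congrFun (gsum_mapMatrix pA x m) i) j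
      rw [hmapA, hxA] at h3
      show pA (gsum x m i j) = pA (algebraMap 𝒪 P r)
      rw [AlgHom.commutes, h3]
      rfl
    · have h3 := congrFun (congrFun (gsum_mapMatrix pB x m) i) j
      rw [hmapB, hxB] at h3
      show pB (gsum x m i j) = pB (algebraMap 𝒪 P r)
      rw [AlgHom.commutes, h3]
      rfl
  refine ⟨m, hm, ?_, ⟨?_, ?_, ?_, ?_⟩, ?_⟩
  · exact factorsFinite_of_jointly_injective _ _ hinj2 m (by rw [hmapA]; exact hffA)
      (by rw [hmapB]; exact hffB)
  · exact IsFramed.of_map_injective F pA (by rw [hmapA]; exact hcanA.framed)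
  · have := hz F.x 0 1 0 (by rw [hcanA.x01, map_zero]) (by rw [hcanB.x01, map_zero])
    rw [this, map_zero]
  · have := hz F.x 1 0 0 (by rw [hcanA.x10, map_zero]) (by rw [hcanB.x10, map_zero])
    rw [this, map_zero]
  · have := hz F.y 1 0 1 (by rw [hcanA.y10, map_one]) (by rw [hcanB.y10, map_one])
    rw [this, map_one]
  · exact DM.of_fibreProduct h𝒟 hA hB hC hP f g pA pB hpA hpB hcomm hinj hsurj
      (by rw [hmapA]; exact hdmA) (by rw [hmapB]; exact hdmB)

theorem famL_res {A : Type} [CommRing A] [IsLocalRing A] [Algebra 𝒪 A] {a : EntryIdx → A}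
    (h : famL F 𝒟 a) (i : EntryIdx) : a i - algebraMap 𝒪 A (F.cFam i) ∈ maximalIdeal A := by
  obtain ⟨m, hm, hff, hcan, hdm⟩ := h
  obtain ⟨σ, i, j⟩ := i
  rw [← hm σ i j, ← residue_eq_zero_iff, map_sub, sub_eq_zero]
  exact hcan.framed σ i j

theorem famL_base (h𝒟 : IsDeformationCondition 𝒪 𝒟)
    (hbar : 𝒟 (GaloisRepAdic.ofResidualGaloisRep ρbar)) :
    famL F 𝒟 (fun i => algebraMap 𝒪 (ResidueField 𝒪) (F.cFam i)) := by
  have hent : ∀ σ i j, resMatrix ρbar F.b σ i j =
      algebraMap 𝒪 (ResidueField 𝒪) (F.c σ i j) := by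
    intro σ i j
    rw [← F.hc σ]
    rfl
  have hg : ∀ x : GQ →₀ 𝒪, gsum x (resMatrix ρbar F.b) =
      (residue 𝒪).mapMatrix (x.sum fun s a => a • F.c s) := by
    intro x
    unfold gsum
    rw [map_finsuppSum]
    refine Finsupp.sum_congr fun s _ => ?_
    ext i j
    rw [Matrix.smul_apply, hent, RingHom.mapMatrix_apply, Matrix.map_apply, Matrix.smul_apply,
      Algebra.smul_def, smul_eq_mul, map_mul]
    rfl
  refine ⟨resMatrix ρbar F.b, hent, resMatrix_factorsFinite ρbar F.b, ⟨?_, ?_, ?_, ?_⟩,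
    DM_resMatrix h𝒟 ρbar F.b hbar⟩
  · intro σ i j
    rw [hent]
  · rw [hg, F.hx]
    simp
  · rw [hg, F.hx]
    simp
  · rw [hg, F.hy]
    simp

/-! ### The tangent space -/

theorem exists_finset_separating {ι X : Type} (T : Set (ι → X)) (hT : T.Finite) :
    ∃ S0 : Finset ι, ∀ a ∈ T, ∀ a' ∈ T, (∀ i ∈ S0, a i = a' i) → a = a' := by
  classical
  let pick : (ι → X) × (ι → X) → Finset ι := fun p =>
    if h : p.1 ≠ p.2 then {Classical.choose (Function.ne_iff.mp h)} else ∅
  refine ⟨(hT.prod hT).toFinset.biUnion pick, fun a ha a' ha' h => ?_⟩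
  by_contra hne
  have hmem : Classical.choose (Function.ne_iff.mp hne) ∈
      (hT.prod hT).toFinset.biUnion pick := by
    rw [Finset.mem_biUnion]
    refine ⟨(a, a'), ?_, ?_⟩
    · rw [Set.Finite.mem_toFinset]
      exact ⟨ha, ha'⟩
    · simp only [pick]
      rw [dif_pos hne]
      exact Finset.mem_singleton_self _
  exact Classical.choose_spec (Function.ne_iff.mp hne) (h _ hmem)

theorem finite_of_quotient_injective {X : Sort*} {Y : Sort*} (S : Setoid Y)
    (hS : Finite (Quotient S)) (f : X → Y) (hf : ∀ x x', S.r (f x) (f x') → x = x') :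
    Finite X :=
  Finite.of_injective (fun x => (Quotient.mk S (f x)))
    (fun x x' h => hf x x' (Quotient.exact h))

theorem famL_tangent (h𝒟 : IsDeformationCondition 𝒪 𝒟) (hfin : TangentFinite 𝒪 ρbar 𝒟) :
    letI := dualNumberAlgebra 𝒪
    ∃ S0 : Finset EntryIdx, ∀ a a' : EntryIdx → DualNumber (ResidueField 𝒪),
      famL F 𝒟 a → famL F 𝒟 a' → (∀ i ∈ S0, a i = a' i) → a = a' := by
  letI := dualNumberAlgebra 𝒪
  have hloc : IsLocalHom (algebraMap 𝒪 (DualNumber (ResidueField 𝒪))) := by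
    haveI : IsLocalHom (algebraMap (ResidueField 𝒪) (DualNumber (ResidueField 𝒪))) :=
      isLocalHom_of_isArtinianRing _
    haveI : IsLocalHom (algebraMap 𝒪 (ResidueField 𝒪)) := by
      show IsLocalHom (residue 𝒪)
      infer_instance
    show IsLocalHom ((algebraMap (ResidueField 𝒪) (DualNumber (ResidueField 𝒪))).comp
      (algebraMap 𝒪 (ResidueField 𝒪)))
    exact RingHom.isLocalHom_comp _ _
  let ψ : ResidueField 𝒪 →+* ResidueField (DualNumber (ResidueField 𝒪)) :=
    (residue (DualNumber (ResidueField 𝒪))).comp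
      (algebraMap (ResidueField 𝒪) (DualNumber (ResidueField 𝒪)))
  have hψ : ∀ a, ψ (residue 𝒪 a) =
      residue (DualNumber (ResidueField 𝒪)) (algebraMap 𝒪 (DualNumber (ResidueField 𝒪)) a) :=
    fun a => rfl
  let T' : Set (GQ →* M2 (DualNumber (ResidueField 𝒪))) := {m | IsCanon F m ∧ DM 𝒟 m}
  have hT' : Finite T' := by
    unfold TangentFinite at hfin
    refine finite_of_quotient_injective _ hfin
      (fun m : T' => ⟨ofMatrix m.1 m.2.2.isAdicCont, m.2.2.choose_spec, ?_⟩) ?_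
    · exact residual_isEquiv_of_framed ρbar F.b ψ m.1 m.2.2.isAdicCont
        ((isFramed_iff F ψ hψ m.1).mp m.2.1.framed)
    · intro m m' h
      obtain ⟨u, hu⟩ := (isEquiv_ofMatrix_iff m.2.2.isAdicCont m'.2.2.isAdicCont).mp h
      exact Subtype.ext (IsCanon.eq_of_intertwine F hloc m.2.1 m'.2.1 u hu)
  let ent : (GQ →* M2 (DualNumber (ResidueField 𝒪))) → EntryIdx → DualNumber (ResidueField 𝒪) :=
    fun m p => m p.1 p.2.1 p.2.2
  have hT : {a : EntryIdx → DualNumber (ResidueField 𝒪) | famL F 𝒟 a}.Finite := by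
    refine Set.Finite.subset (Set.Finite.image ent (Set.toFinite T')) ?_
    rintro a ⟨m, hm, hff, hcan, hdm⟩
    refine ⟨m, ⟨hcan, hdm⟩, ?_⟩
    funext p
    exact hm p.1 p.2.1 p.2.2
  obtain ⟨S0, hS0⟩ := exists_finset_separating _ hT
  exact ⟨S0, fun a a' ha ha' h => hS0 a ha a' ha' h⟩

/-- The functor of canonical matrix lifts of type `𝒟` is a rigid functor. -/
theorem rigidFunctor_famL (h𝒟 : IsDeformationCondition 𝒪 𝒟)
    (hbar : 𝒟 (GaloisRepAdic.ofResidualGaloisRep ρbar)) (hfin : TangentFinite 𝒪 ρbar 𝒟) :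
    RigidFunctor 𝒪 EntryIdx F.cFam (famL F 𝒟) where
  map := fun A B _ _ _ _ _ _ hA hB φ a h => famL_map F h𝒟 hA hB φ h
  of_injective := fun A B _ _ _ _ _ _ hA hB φ hinj a h => famL_of_injective F h𝒟 hA hB φ hinj h
  of_fibreProduct := fun A B C P _ _ _ _ _ _ _ _ _ _ _ _ hA hB hC hP f g pA pB hcomm hinj hsurj
    u h1 h2 => famL_of_fibreProduct F h𝒟 hA hB hC hP f g pA pB hcomm hinj hsurj h1 h2
  res := fun A _ _ _ hA a h i => famL_res F h i
  base := famL_base F h𝒟 hbar
  tangent := famL_tangent F h𝒟 hfin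

end inst

end Fermat.Agent.S53Lib
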