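import Fermat.Agent.S53Lib.PowerSeries

set_option autoImplicit false
set_option linter.style.haveILetI false

/-!
The limit lemma (LIM) for families of open ideals in a complete ring.
-/

namespace Fermat.Agent.S53Lib

section Lim

variable {Q : Type*} [CommRing Q]

/-- **LIM**, general form. Let `𝒦` be a nonempty family of `I`-adically open ideals of an
`I`-adically precomplete ring `Q` with all `Q ⧸ I ^ n` Artinian, closed under pairwise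
intersection and under `K ↦ K ⊔ I ^ n` for `n ≥ 1`. Then `sInf 𝒦 ⊔ I ^ n ∈ 𝒦` for `n ≥ 1`. -/
theorem sInf_sup_pow_mem (I : Ideal Q) [IsPrecomplete I Q]
    (hart : ∀ n, IsArtinianRing (Q ⧸ I ^ n)) (𝒦 : Set (Ideal Q)) (hne : 𝒦.Nonempty)
    (hopen : ∀ K ∈ 𝒦, ∃ n, I ^ n ≤ K)
    (hinf : ∀ K₁ ∈ 𝒦, ∀ K₂ ∈ 𝒦, K₁ ⊓ K₂ ∈ 𝒦)
    (hsup : ∀ K ∈ 𝒦, ∀ n, 1 ≤ n → K ⊔ I ^ n ∈ 𝒦) :
    ∀ n, 1 ≤ n → sInf 𝒦 ⊔ I ^ n ∈ 𝒦 := by
  -- the least member of `𝒦` containing `I ^ n`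
  have hmin : ∀ n, 1 ≤ n → ∃ K, (K ∈ 𝒦 ∧ I ^ n ≤ K) ∧ ∀ J, (J ∈ 𝒦 ∧ I ^ n ≤ J) → K ≤ J := by
    intro n hn
    haveI := hart n
    obtain ⟨K₀, hK₀⟩ := hne
    obtain ⟨K, hK, hle⟩ := exists_least_ideal (I ^ n) {K | K ∈ 𝒦 ∧ I ^ n ≤ K}
      ⟨K₀ ⊔ I ^ n, hsup K₀ hK₀ n hn, le_sup_right⟩
      (fun J₁ h₁ J₂ h₂ => ⟨hinf J₁ h₁.1 J₂ h₂.1, le_inf h₁.2 h₂.2⟩)
      (fun J hJ => hJ.2)
    exact ⟨K, hK, hle⟩
  choose Kmin hKmin hKmin_le using hmin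
  let K' : ℕ → Ideal Q := fun n => if h : 1 ≤ n then Kmin n h else ⊤
  have hK'pos : ∀ n (h : 1 ≤ n), K' n = Kmin n h := fun n h => dif_pos h
  have hK'zero : K' 0 = ⊤ := dif_neg (by omega)
  have hK' : ∀ n N, n ≤ N → K' N ⊔ I ^ n = K' n := by
    intro n N hnN
    by_cases hn : 1 ≤ n
    · have hN : 1 ≤ N := hn.trans hnN
      rw [hK'pos n hn, hK'pos N hN]
      apply le_antisymm
      · refine sup_le ?_ (hKmin n hn).2
        exact hKmin_le N hN _ ⟨(hKmin n hn).1, (Ideal.pow_le_pow_right hnN).trans (hKmin n hn).2⟩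
      · exact hKmin_le n hn _ ⟨hsup _ (hKmin N hN).1 n hn, le_sup_right⟩
    · have hn0 : n = 0 := by omega
      subst hn0
      rw [hK'zero, pow_zero, Ideal.one_eq_top]
      exact sup_top_eq _
  have hsInf : sInf 𝒦 = ⨅ N, K' N := by
    apply le_antisymm
    · refine le_iInf fun N => ?_
      by_cases hN : 1 ≤ N
      · rw [hK'pos N hN]
        exact sInf_le (hKmin N hN).1
      · have hN0 : N = 0 := by omega
        subst hN0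
        rw [hK'zero]
        exact le_top
    · refine le_sInf fun K hK => ?_
      obtain ⟨n, hn⟩ := hopen K hK
      refine (iInf_le _ (n + 1)).trans ?_
      rw [hK'pos (n + 1) (by omega)]
      exact hKmin_le (n + 1) (by omega) K ⟨hK, (Ideal.pow_le_pow_right (Nat.le_succ n)).trans hn⟩
  intro n hn
  rw [hsInf, iInf_sup_pow_eq I K' hK' n, hK'pos n hn]
  exact (hKmin n hn).1

/-- **LIM**, as used for the deformation ring: `Q` local, complete for its maximal ideal,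
with finite quotients `Q ⧸ 𝔪 ^ n`. -/
theorem sInf_sup_maximalIdeal_pow_mem [IsLocalRing Q]
    [IsAdicComplete (IsLocalRing.maximalIdeal Q) Q]
    (hfin : ∀ n, Finite (Q ⧸ IsLocalRing.maximalIdeal Q ^ n)) (𝒦 : Set (Ideal Q))
    (hne : 𝒦.Nonempty)
    (hopen : ∀ K ∈ 𝒦, ∃ n, IsLocalRing.maximalIdeal Q ^ n ≤ K)
    (hinf : ∀ K₁ ∈ 𝒦, ∀ K₂ ∈ 𝒦, K₁ ⊓ K₂ ∈ 𝒦)
    (hsup : ∀ K ∈ 𝒦, ∀ n, 1 ≤ n → K ⊔ IsLocalRing.maximalIdeal Q ^ n ∈ 𝒦) :
    ∀ n, 1 ≤ n → sInf 𝒦 ⊔ IsLocalRing.maximalIdeal Q ^ n ∈ 𝒦 := by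
  refine sInf_sup_pow_mem (IsLocalRing.maximalIdeal Q) (fun n => ?_) 𝒦 hne hopen hinf hsup
  haveI := hfin n
  exact isArtinian_of_finite

/-- Under the hypotheses of LIM, `sInf 𝒦` is the intersection of a decreasing sequence of
members of `𝒦`, and is a proper ideal if all members are. -/
theorem sInf_ne_top_of_forall_ne_top (𝒦 : Set (Ideal Q)) (hne : 𝒦.Nonempty)
    (hprop : ∀ K ∈ 𝒦, K ≠ ⊤) : sInf 𝒦 ≠ ⊤ := by
  obtain ⟨K, hK⟩ := hne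
  intro h
  exact hprop K hK (top_le_iff.mp (h ▸ sInf_le hK))

end Lim

end Fermat.Agent.S53Lib
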